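import Mathlib
import Fermat.Agent.Arith.Places

/-!
# Elementary facts on a place of the algebraic closure of `ℚ` over a prime `q`

Bounded subsets of a number field attain their maximal valuation, and the valuation has rank one.
-/

set_option autoImplicit false

noncomputable section

namespace Fermat.Agent.Semistable

open Arith (QBar)
open Polynomial

variable {q : ℕ} {A : ValuationSubring QBar}

/-- A natural number prime to `q` is a unit at a place over `q`. -/
theorem natCast_ne_nonunit (hA : A.LiesOverPrime q) (hq : q.Prime) {n : ℕ} (h : ¬ q ∣ n) :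
    (n : QBar) ∉ A.nonunits :=
  mt (Arith.natCast_mem_nonunits_iff hA hq n).mp h

/-- Units of `A` have valuation `1`. -/
theorem valuation_eq_one {x : QBar} (hx : x ∈ A) (hu : x ∉ A.nonunits) : A.valuation x = 1 :=
  le_antisymm ((A.valuation_le_one_iff x).mpr hx)
    (not_lt.mp fun h => hu ((ValuationSubring.mem_nonunits_iff A).mpr h))

/-- An element of `A` in a subfield `L` can be multiplied into the algebraic integers by a unit
of `A` lying in `L`. -/
theorem exists_unit_mul_isIntegral (hA : A.LiesOverPrime q) (hq : q.Prime)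
    {L : IntermediateField ℚ QBar} {x : QBar} (hxL : x ∈ L) (hx : x ∈ A) :
    ∃ e ∈ L, IsIntegral ℤ e ∧ e ∉ A.nonunits ∧ IsIntegral ℤ (e * x) := by
  rcases eq_or_ne x 0 with rfl | hx0
  · exact ⟨1, one_mem _, isIntegral_one, Arith.one_notMem_nonunits, by
      rw [mul_zero]; exact isIntegral_zero⟩
  -- `x = a / b` with algebraic integers, `b` a unit of `A`
  obtain ⟨a, b, ha, hb, hbu, hab⟩ := Arith.exists_integral_fraction hA hq hx
  have hbA : b ∈ A := Arith.mem_of_isIntegral A hb
  have hbL : IsIntegral L b := hb.tower_top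
  have haL : IsIntegral L a := ha.tower_top
  let x' : L := ⟨x, hxL⟩
  have hx' : x' ≠ 0 := fun h => hx0 (congrArg Subtype.val h)
  set P := minpoly L b with hP
  set Q := minpoly L a with hQ
  have hPm : P.Monic := minpoly.monic hbL
  have hQm : Q.Monic := minpoly.monic haL
  have hax : algebraMap L QBar x' * b = a := by rw [← hab]; rfl
  have h1 : aeval a (P.scaleRoots x') = 0 := by
    rw [← hax]; exact scaleRoots_aeval_eq_zero (minpoly.aeval L b)
  have h2 : aeval b (Q.scaleRoots x'⁻¹) = 0 := by
    have : algebraMap L QBar x'⁻¹ * a = b := by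
      rw [← hax, ← mul_assoc, ← map_mul, inv_mul_cancel₀ hx', map_one, one_mul]
    rw [← this]; exact scaleRoots_aeval_eq_zero (minpoly.aeval L a)
  have hQm' : (Q.scaleRoots x'⁻¹).Monic := (monic_scaleRoots_iff _).mpr hQm
  -- the minimal polynomials over `L` differ by scaling the roots by `x`
  have hPQ : P = Q.scaleRoots x'⁻¹ := by
    refine (eq_of_monic_of_dvd_of_natDegree_le hPm hQm' (minpoly.dvd L b h2) ?_).symm
    rw [natDegree_scaleRoots]
    calc Q.natDegree ≤ (P.scaleRoots x').natDegree := natDegree_le_of_dvd (minpoly.dvd L a h1)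
          ((monic_scaleRoots_iff _).mpr hPm).ne_zero
      _ = P.natDegree := natDegree_scaleRoots _ _
  have hcoefP : ∀ k, IsIntegral ℤ ((P.coeff k : L) : QBar) := fun k => by
    obtain ⟨p₀, hp₀, hp₀b⟩ := hb
    have hdvd : P ∣ p₀.map (algebraMap ℤ L) := minpoly.dvd L b (by
      rw [aeval_map_algebraMap]; exact hp₀b)
    exact (Polynomial.isIntegral_coeff_of_dvd p₀ P hp₀ hPm hdvd k).map
      (IsScalarTower.toAlgHom ℤ L QBar)
  have hcoefQ : ∀ k, IsIntegral ℤ ((Q.coeff k : L) : QBar) := fun k => by
    obtain ⟨p₀, hp₀, hp₀b⟩ := ha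
    have hdvd : Q ∣ p₀.map (algebraMap ℤ L) := minpoly.dvd L a (by
      rw [aeval_map_algebraMap]; exact hp₀b)
    exact (Polynomial.isIntegral_coeff_of_dvd p₀ Q hp₀ hQm hdvd k).map
      (IsScalarTower.toAlgHom ℤ L QBar)
  -- some coefficient of the one of `b` is a unit of `A`
  obtain ⟨k, hk, hku⟩ : ∃ k < P.natDegree, ((P.coeff k : L) : QBar) ∉ A.nonunits := by
    by_contra hcon
    simp only [not_exists, not_and, not_not] at hcon
    have h0 := minpoly.aeval L b
    rw [← hP, aeval_eq_sum_range, Finset.sum_range_succ, hPm.coeff_natDegree, one_smul] at h0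
    have hmem : b ^ P.natDegree ∈ A.nonunits := by
      rw [eq_neg_of_add_eq_zero_right h0]
      refine A.nonunits.neg_mem (sum_mem fun i hi => ?_)
      exact Arith.nonunits_mul_right (hcon i (Finset.mem_range.mp hi)) (pow_mem hbA i)
    rw [ValuationSubring.mem_nonunits_iff, map_pow, valuation_eq_one hbA hbu, one_pow] at hmem
    exact lt_irrefl _ hmem
  refine ⟨(P.coeff k : L), (P.coeff k).2, hcoefP k, hku, ?_⟩
  set e : QBar := ((P.coeff k : L) : QBar) with he
  obtain ⟨j, hj⟩ : ∃ j, P.natDegree - k = j + 1 := ⟨P.natDegree - k - 1, by omega⟩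
  refine IsIntegral.of_pow (n := j + 1) (by omega) ?_
  have hQP : Q.natDegree = P.natDegree := by rw [hPQ, natDegree_scaleRoots]
  -- times a power of `x` it is a coefficient of the one of `a`
  have key : e * x ^ (j + 1) = ((Q.coeff k : L) : QBar) := by
    rw [he, hPQ, coeff_scaleRoots, hQP, hj]
    push_cast
    show ((Q.coeff k : L) : QBar) * (x⁻¹) ^ (j + 1) * x ^ (j + 1) = _
    rw [mul_assoc, ← mul_pow, inv_mul_cancel₀ hx0, one_pow, mul_one]
  rw [mul_pow, pow_succ e, mul_assoc, key]
  exact ((hcoefP k).pow _).mul (hcoefQ k)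

/-- A bounded nonempty subset of a number field attains its maximal valuation. -/
theorem exists_max_valuation (hA : A.LiesOverPrime q) (hq : q.Prime)
    (L : IntermediateField ℚ QBar) [FiniteDimensional ℚ L] {X : Set QBar}
    (hXL : ∀ x ∈ X, x ∈ L) (hXA : ∀ x ∈ X, x ∈ A) (hne : X.Nonempty) :
    ∃ m ∈ X, ∀ x ∈ X, A.valuation x ≤ A.valuation m := by
  -- units move `X` into the integers of `L` without changing valuations
  choose e heL hei heu hex using fun x : X => exists_unit_mul_isIntegral hA hq (hXL x x.2)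
    (hXA x x.2)
  let a : X → integralClosure ℤ L := fun x =>
    ⟨⟨e x * x.1, mul_mem (heL x) (hXL x x.2)⟩,
      (isIntegral_algHom_iff (IsScalarTower.toAlgHom ℤ L QBar)
        (algebraMap L QBar).injective).mp (hex x)⟩
  let ι : integralClosure ℤ L → QBar := fun r => ((r : L) : QBar)
  have hval : ∀ x : X, A.valuation (ι (a x)) = A.valuation x.1 := fun x => by
    show A.valuation (e x * x.1) = _
    rw [map_mul, valuation_eq_one (Arith.mem_of_isIntegral A (hei x)) (heu x), one_mul]
  have : IsNoetherian ℤ (integralClosure ℤ L) :=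
    IsIntegralClosure.isNoetherian ℤ ℚ L (integralClosure ℤ L)
  have hfg : (Submodule.span ℤ (Set.range a)).FG := IsNoetherian.noetherian _
  -- finitely many elements span the image; take the largest
  obtain ⟨s, hs, hspan⟩ := (Submodule.fg_span_iff_fg_span_finset_subset _).mp hfg
  rcases s.eq_empty_or_nonempty with rfl | hsne
  · obtain ⟨m, hm⟩ := hne
    refine ⟨m, hm, fun x hx => ?_⟩
    have hz : a ⟨x, hx⟩ ∈ Submodule.span ℤ (Set.range a) := Submodule.subset_span ⟨_, rfl⟩
    rw [hspan, Finset.coe_empty, Submodule.span_empty, Submodule.mem_bot] at hz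
    rw [← hval ⟨x, hx⟩, hz]
    simp [ι]
  obtain ⟨g, hg, hgmax⟩ := s.exists_max_image (fun r => A.valuation (ι r)) hsne
  obtain ⟨m, hm⟩ := hs hg
  refine ⟨m.1, m.2, fun x hx => ?_⟩
  rw [← hval ⟨x, hx⟩, ← hval m, hm]
  have hz : a ⟨x, hx⟩ ∈ Submodule.span ℤ (Set.range a) := Submodule.subset_span ⟨_, rfl⟩
  rw [hspan] at hz
  generalize a ⟨x, hx⟩ = z at hz ⊢
  induction hz using Submodule.span_induction with
  | mem r hr => exact hgmax r hr
  | zero => simp [ι]
  | add r r' _ _ hr hr' =>
    show A.valuation (ι r + ι r') ≤ _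
    exact Valuation.map_add_le _ hr hr'
  | smul c r _ hr =>
    show A.valuation ((((c • r : integralClosure ℤ L) : L) : QBar)) ≤ _
    rw [show ((((c • r : integralClosure ℤ L) : L) : QBar)) = (c : QBar) * ι r by
      simp [ι, zsmul_eq_mul], map_mul]
    calc A.valuation (c : QBar) * A.valuation (ι r) ≤ 1 * A.valuation (ι g) :=
          mul_le_mul' ((A.valuation_le_one_iff _).mpr (intCast_mem A c)) hr
      _ = _ := one_mul _

/-- Powers of a nonunit become smaller than any nonzero element. -/
theorem exists_pow_valuation_lt (hA : A.LiesOverPrime q) (hq : q.Prime) {π s : QBar}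
    (hπ : π ∈ A.nonunits) (hs : s ≠ 0) : ∃ n : ℕ, A.valuation (π ^ n) < A.valuation s := by
  have hπA : π ∈ A := Arith.mem_of_mem_nonunits hπ
  -- a power of `π` is divisible by `q`
  obtain ⟨i₀, hi₀⟩ : ∃ i : ℕ, A.valuation (π ^ i) ≤ A.valuation (q : QBar) := by
    rcases eq_or_ne π 0 with rfl | hπ0
    · exact ⟨1, by simp⟩
    obtain ⟨f₀, hf₀, hf₀x⟩ :=
      (IsFractionRing.isAlgebraic_iff ℤ ℚ QBar).mpr (Algebra.IsAlgebraic.isAlgebraic (R := ℚ) π)
    set f := f₀.primPart with hf
    have hfx : aeval π f = 0 := aeval_primPart_eq_zero hf₀ hf₀x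
    have hex : ∃ i, ¬ (q : ℤ) ∣ f.coeff i := by
      by_contra hcon
      simp only [not_exists, not_not] at hcon
      have := f₀.isPrimitive_primPart (q : ℤ) (C_dvd_iff_dvd_coeff _ _ |>.mpr hcon)
      rw [Int.isUnit_iff_natAbs_eq, Int.natAbs_natCast] at this
      exact hq.one_lt.ne' this
    classical
    refine ⟨Nat.find hex, ?_⟩
    by_contra hlt
    rw [not_le] at hlt
    have hdom : ∀ i ≤ f.natDegree, i ≠ Nat.find hex →
        A.valuation (f.coeff i • π ^ i) < A.valuation (π ^ Nat.find hex) := by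
      intro i _ hi
      rw [zsmul_eq_mul, map_mul]
      rcases lt_or_gt_of_ne hi with hi | hi
      · obtain ⟨c, hc⟩ := not_not.mp (Nat.find_min hex hi)
        rw [hc, Int.cast_mul, Int.cast_natCast, map_mul, mul_assoc]
        refine lt_of_le_of_lt ?_ hlt
        calc A.valuation (q : QBar) * (A.valuation (c : QBar) * A.valuation (π ^ i))
            ≤ A.valuation (q : QBar) * (1 * 1) := by
              refine mul_le_mul' le_rfl (mul_le_mul' ?_ ?_)
              · exact (A.valuation_le_one_iff _).mpr (intCast_mem A c)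
              · exact (A.valuation_le_one_iff _).mpr (pow_mem hπA i)
          _ = _ := by simp
      · obtain ⟨r, hr⟩ := Nat.exists_eq_add_of_lt hi
        calc A.valuation (f.coeff i : QBar) * A.valuation (π ^ i)
            ≤ 1 * A.valuation (π ^ i) :=
              mul_le_mul' ((A.valuation_le_one_iff _).mpr (intCast_mem A _)) le_rfl
          _ = A.valuation (π ^ Nat.find hex) * A.valuation (π * π ^ r) := by
              rw [one_mul, hr, ← map_mul, add_assoc, pow_add, pow_succ' π r]
          _ < A.valuation (π ^ Nat.find hex) * 1 := by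
              refine mul_lt_mul_of_pos_left ?_ (lt_of_le_of_lt zero_le hlt)
              exact (ValuationSubring.mem_nonunits_iff A).mp
                (Arith.nonunits_mul_right hπ (pow_mem hπA r))
          _ = _ := mul_one _
    have hk : Nat.find hex ≤ f.natDegree :=
      le_natDegree_of_ne_zero fun h => Nat.find_spec hex (by rw [h]; exact dvd_zero _)
    rw [aeval_eq_sum_range, ← Finset.add_sum_erase _ _
      (Finset.mem_range.mpr (Nat.lt_succ_of_le hk))] at hfx
    have hlead : A.valuation (f.coeff (Nat.find hex) • π ^ Nat.find hex) =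
        A.valuation (π ^ Nat.find hex) := by
      rw [zsmul_eq_mul, map_mul, valuation_eq_one (intCast_mem A _)
        (mt (Arith.intCast_mem_nonunits_iff hA hq _).mp (Nat.find_spec hex)), one_mul]
    have hsum : A.valuation (∑ i ∈ (Finset.range (f.natDegree + 1)).erase (Nat.find hex),
        f.coeff i • π ^ i) < A.valuation (π ^ Nat.find hex) :=
      Valuation.map_sum_lt _ (Valuation.ne_zero_iff _ |>.mpr (pow_ne_zero _ hπ0)) fun i hi => by
        rw [Finset.mem_erase, Finset.mem_range] at hi
        exact hdom i (by omega) hi.1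
    rw [eq_neg_of_add_eq_zero_left hfx, Valuation.map_neg] at hlead
    exact hsum.ne hlead
  -- a power of `q` is smaller than `s`
  obtain ⟨d, hd, hint⟩ := ((IsFractionRing.isAlgebraic_iff ℤ ℚ QBar).mpr
    (Algebra.IsAlgebraic.isAlgebraic (R := ℚ) s⁻¹)).exists_integral_multiple
  obtain ⟨e, u, hu, hdu⟩ := Nat.exists_eq_pow_mul_and_not_dvd (Int.natAbs_ne_zero.mpr hd)
    q hq.ne_one
  have hqs : A.valuation ((q : QBar) ^ (e + 1)) < A.valuation s := by
    have hmem : (d.natAbs : QBar) * s⁻¹ ∈ A := by
      have h1 : (d • s⁻¹ : QBar) ∈ A := Arith.mem_of_isIntegral A hint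
      rw [zsmul_eq_mul] at h1
      rcases Int.natAbs_eq d with h | h <;> rw [h] at h1
      · simpa using h1
      · simpa [neg_mul] using h1
    rw [hdu, Nat.cast_mul, Nat.cast_pow] at hmem
    have hle := (A.valuation_le_one_iff _).mpr hmem
    rw [map_mul, map_mul, valuation_eq_one (natCast_mem A u) (natCast_ne_nonunit hA hq hu), mul_one,
      map_inv₀, mul_inv_le_iff₀ (zero_lt_iff.mpr ((Valuation.ne_zero_iff _).mpr hs)),
      one_mul] at hle
    refine lt_of_lt_of_le ?_ hle
    rw [pow_succ, map_mul]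
    refine mul_lt_of_lt_one_right ?_ ((ValuationSubring.mem_nonunits_iff A).mp hA)
    exact zero_lt_iff.mpr ((Valuation.ne_zero_iff _).mpr
      (pow_ne_zero _ (Nat.cast_ne_zero.mpr hq.ne_zero)))
  refine ⟨i₀ * (e + 1), lt_of_le_of_lt ?_ hqs⟩
  rw [pow_mul, map_pow, map_pow (A.valuation) (q : QBar)]
  exact pow_le_pow_left' hi₀ _

end Fermat.Agent.Semistable

end
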