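import Mathlib
import Fermat.Prelude.Def_ModularCurve_X0ModL
import Fermat.Agent.Semistable.ValBase

/-!
# Integral Laurent series over the algebraic closure of `ℚ` and their reductions

For a valuation subring `A` we consider Laurent series with coefficients in a number field and in
`A`, their reductions, the subfield of quotients of such series and the local ring of quotients
with nonvanishing denominator mod the maximal ideal.
-/

set_option autoImplicit false

noncomputable section

namespace Fermat.Agent.Semistable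

open Arith (QBar)
open ModularCurve

/-- Laurent series over the algebraic closure of `ℚ`. -/
abbrev LSer : Type := LaurentSeries QBar

variable (A : ValuationSubring QBar)

/-- The residue field of `A`. -/
abbrev Res : Type := IsLocalRing.ResidueField A

/-- Series all of whose coefficients lie in one number field. -/
def FinCoeff (x : LSer) : Prop :=
  ∃ L : IntermediateField ℚ QBar, FiniteDimensional ℚ L ∧ ∀ n, x.coeff n ∈ L

/-- Two series with coefficients in number fields share one such field. -/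
theorem FinCoeff.common {x y : LSer} (hx : FinCoeff x) (hy : FinCoeff y) :
    ∃ L : IntermediateField ℚ QBar, FiniteDimensional ℚ L ∧
      (∀ n, x.coeff n ∈ L) ∧ ∀ n, y.coeff n ∈ L := by
  obtain ⟨L, hL, hxL⟩ := hx
  obtain ⟨L', hL', hyL⟩ := hy
  exact ⟨L ⊔ L', inferInstance, fun n => (le_sup_left : L ≤ L ⊔ L') (hxL n),
    fun n => (le_sup_right : L' ≤ L ⊔ L') (hyL n)⟩

/-- Series with coefficients in a subring are closed under products. -/
theorem coeff_mul_mem {S : Type*} [SetLike S QBar] [SubringClass S QBar] (R : S) {x y : LSer}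
    (hx : ∀ n, x.coeff n ∈ R) (hy : ∀ n, y.coeff n ∈ R) (n : ℤ) : (x * y).coeff n ∈ R := by
  rw [HahnSeries.coeff_mul]
  exact sum_mem fun i _ => mul_mem (hx _) (hy _)

theorem coeff_one_mem {S : Type*} [SetLike S QBar] [SubringClass S QBar] (R : S) (n : ℤ) :
    (1 : LSer).coeff n ∈ R := by
  rw [HahnSeries.coeff_one]
  split_ifs <;> simp [one_mem, zero_mem]

/-- Series with coefficients in `A` and in a number field. -/
def intS : Subring LSer where
  carrier := {x | FinCoeff x ∧ ∀ n, x.coeff n ∈ A}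
  one_mem' := ⟨⟨⊥, inferInstance, coeff_one_mem _⟩, coeff_one_mem A⟩
  mul_mem' := by
    rintro x y ⟨hx, hxA⟩ ⟨hy, hyA⟩
    obtain ⟨L, hL, hxL, hyL⟩ := hx.common hy
    exact ⟨⟨L, hL, coeff_mul_mem L hxL hyL⟩, coeff_mul_mem A hxA hyA⟩
  zero_mem' := ⟨⟨⊥, inferInstance, fun n => by simp⟩, fun n => by simp⟩
  add_mem' := by
    rintro x y ⟨hx, hxA⟩ ⟨hy, hyA⟩
    obtain ⟨L, hL, hxL, hyL⟩ := hx.common hy
    exact ⟨⟨L, hL, fun n => by rw [HahnSeries.coeff_add]; exact add_mem (hxL n) (hyL n)⟩,
      fun n => by rw [HahnSeries.coeff_add]; exact add_mem (hxA n) (hyA n)⟩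
  neg_mem' := by
    rintro x ⟨⟨L, hL, hxL⟩, hxA⟩
    exact ⟨⟨L, hL, fun n => by rw [HahnSeries.coeff_neg]; exact neg_mem (hxL n)⟩,
      fun n => by rw [HahnSeries.coeff_neg]; exact neg_mem (hxA n)⟩

/-- `intS A`: series with all coefficients in one number field and in `A`. -/
theorem mem_intS {A : ValuationSubring QBar} {x : LSer} : x ∈ intS A ↔ FinCoeff x ∧ ∀ n,
    x.coeff n ∈ A := Iff.rfl

/-- An integral series as a series over `A`. -/
def toA : intS A →+* LaurentSeries A where
  toFun x := ⟨fun n => ⟨x.1.coeff n, x.2.2 n⟩, x.1.isPWO_support.mono fun n hn => by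
    simp only [Function.mem_support, HahnSeries.mem_support, ne_eq] at hn ⊢
    exact fun h0 => hn (Subtype.ext h0)⟩
  map_one' := by
    ext n
    show (1 : LSer).coeff n = ((1 : LaurentSeries A).coeff n : QBar)
    rw [HahnSeries.coeff_one, HahnSeries.coeff_one]
    split_ifs <;> simp
  map_mul' x y := by
    have hinj : Function.Injective (coeffMap A.subtype) := fun a b h => HahnSeries.ext
      (funext fun n => Subtype.ext (by
        have := congrArg (fun z => z.coeff n) h
        simpa using this))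
    refine hinj ?_
    rw [map_mul]
    ext n
    rfl
  map_zero' := by ext n; simp
  map_add' x y := by ext n; simp

/-- `toA` keeps the coefficients. -/
theorem coeff_toA (x : intS A) (n : ℤ) : ((toA A x).coeff n : QBar) = x.1.coeff n := rfl

/-- Coefficientwise reduction. -/
def red : intS A →+* LaurentSeries (Res A) :=
  (coeffMap (IsLocalRing.residue A)).comp (toA A)

/-- The coefficients of an integral series lie in `A`. -/
theorem coeff_mem (x : intS A) (n : ℤ) : x.1.coeff n ∈ A := (mem_intS.mp x.2).2 n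

/-- Reduction acts coefficientwise by the residue map. -/
theorem coeff_red (x : intS A) (n : ℤ) :
    (red A x).coeff n = IsLocalRing.residue A ⟨x.1.coeff n, coeff_mem A x n⟩ := rfl

variable {A}

/-- The residue vanishes exactly on the nonunits. -/
theorem residue_eq_zero_iff {a : QBar} (ha : a ∈ A) :
    IsLocalRing.residue A ⟨a, ha⟩ = 0 ↔ a ∈ A.nonunits := by
  rw [IsLocalRing.residue_eq_zero_iff, ← ValuationSubring.coe_mem_nonunits_iff]

/-- An integral series reduces to zero exactly if all its coefficients are nonunits. -/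
theorem red_eq_zero_iff {x : intS A} : red A x = 0 ↔ ∀ n, x.1.coeff n ∈ A.nonunits := by
  constructor
  · intro h n
    rw [← residue_eq_zero_iff (coeff_mem A x n), ← coeff_red, h]
    rfl
  · intro h
    ext n
    rw [coeff_red, HahnSeries.coeff_zero, residue_eq_zero_iff]
    exact h n

theorem red_ne_zero_of_coeff {x : intS A} {n : ℤ} (h : x.1.coeff n ∉ A.nonunits) :
    red A x ≠ 0 := fun h0 => h (red_eq_zero_iff.mp h0 n)

/-- A series with nonzero reduction is nonzero. -/
theorem ne_zero_of_red_ne_zero {x : intS A} (h : red A x ≠ 0) : (x : LSer) ≠ 0 := fun h0 =>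
  h (by rw [show x = 0 from Subtype.ext h0, map_zero])

/-! ### Constants -/

theorem single_zero_coeff_mem {S : Type*} [SetLike S QBar] [SubringClass S QBar] (R : S) {a : QBar}
    (ha : a ∈ R) (n : ℤ) : (HahnSeries.single (0 : ℤ) a).coeff n ∈ R := by
  rw [HahnSeries.coeff_single]
  split_ifs
  · exact ha
  · exact zero_mem R

theorem finCoeff_algebraMap (a : QBar) : FinCoeff (algebraMap QBar LSer a) := by
  refine ⟨IntermediateField.adjoin ℚ {a},
    IntermediateField.adjoin.finiteDimensional (Algebra.IsIntegral.isIntegral a), ?_⟩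
  rw [algebraMap_laurentSeries_eq_single]
  exact single_zero_coeff_mem _ (IntermediateField.mem_adjoin_simple_self ℚ a)

/-- Constants from `A` are integral series. -/
theorem algebraMap_mem_intS {a : QBar} (ha : a ∈ A) : algebraMap QBar LSer a ∈ intS A := by
  refine ⟨finCoeff_algebraMap a, ?_⟩
  rw [algebraMap_laurentSeries_eq_single]
  exact single_zero_coeff_mem A ha

/-- A constant reduces to its residue. -/
theorem red_algebraMap {a : QBar} (ha : a ∈ A) :
    red A ⟨_, algebraMap_mem_intS ha⟩ = algebraMap (Res A) _ (IsLocalRing.residue A ⟨a, ha⟩) := by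
  ext n
  simp only [coeff_red, algebraMap_laurentSeries_eq_single, HahnSeries.coeff_single]
  split_ifs
  · rfl
  · exact map_zero _

/-! ### Quotients of integral series -/

variable (A)

/-- Series which are quotients of integral series. -/
def fracS : Subfield LSer := Subfield.closure (intS A : Set LSer)

variable {A}

/-- `fracS A` consists of the quotients of integral series. -/
theorem mem_fracS {x : LSer} :
    x ∈ fracS A ↔ ∃ a ∈ intS A, ∃ b ∈ intS A, b ≠ 0 ∧ x * b = a := by
  rw [fracS, Subfield.mem_closure_iff]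
  simp only [Subring.closure_eq]
  constructor
  · rintro ⟨a, ha, b, hb, rfl⟩
    rcases eq_or_ne b 0 with rfl | hb0
    · exact ⟨0, zero_mem _, 1, one_mem _, one_ne_zero, by simp⟩
    · exact ⟨a, ha, b, hb, hb0, div_mul_cancel₀ _ hb0⟩
  · rintro ⟨a, ha, b, hb, hb0, h⟩
    exact ⟨a, ha, b, hb, by rw [div_eq_iff hb0, h]⟩

/-- Integral series are quotients of integral series. -/
theorem intS_le_fracS {x : LSer} (hx : x ∈ intS A) : x ∈ fracS A := Subfield.subset_closure hx

/-- The number field generated by the coefficients of two series contains those of their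
quotient. -/
theorem coeff_mem_of_mul_eq {L : IntermediateField ℚ QBar} {x a b : LSer} (hb : b ≠ 0)
    (h : x * b = a) (haL : ∀ n, a.coeff n ∈ L) (hbL : ∀ n, b.coeff n ∈ L) (n : ℤ) :
    x.coeff n ∈ L := by
  have hlift : ∀ y : LSer, (∀ n, y.coeff n ∈ L) →
      ∃ y' : LaurentSeries L, coeffMap (L.val.toRingHom) y' = y := fun y hy =>
    ⟨⟨fun n => ⟨y.coeff n, hy n⟩, y.isPWO_support.mono fun n hn => by
      simp only [Function.mem_support, HahnSeries.mem_support, ne_eq] at hn ⊢
      exact fun h0 => hn (Subtype.ext h0)⟩, by ext n; rfl⟩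
  obtain ⟨a', rfl⟩ := hlift a haL
  obtain ⟨b', rfl⟩ := hlift b hbL
  have : x = coeffMap (L.val.toRingHom) (a' / b') := by
    rw [map_div₀, eq_div_iff hb, h]
  rw [this, coeffMap_coeff]
  exact ((a' / b').coeff n).2

theorem finCoeff_of_mem_fracS {x : LSer} (hx : x ∈ fracS A) : FinCoeff x := by
  obtain ⟨a, ha, b, hb, hb0, h⟩ := mem_fracS.mp hx
  obtain ⟨L, hL, haL, hbL⟩ := ha.1.common hb.1
  exact ⟨L, hL, coeff_mem_of_mul_eq hb0 h haL hbL⟩

/-- A series of `fracS` with coefficients in `A` is integral. -/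
theorem mem_intS_of_coeff {x : LSer} (hx : x ∈ fracS A) (h : ∀ n, x.coeff n ∈ A) : x ∈ intS A :=
  ⟨finCoeff_of_mem_fracS hx, h⟩

/-- Every algebraic number has a nonzero natural multiple in `A`. -/
theorem exists_natCast_mul_mem (a : QBar) : ∃ t : ℕ, t ≠ 0 ∧ (t : QBar) * a ∈ A := by
  obtain ⟨d, hd, hint⟩ := ((IsFractionRing.isAlgebraic_iff ℤ ℚ QBar).mpr
    (Algebra.IsAlgebraic.isAlgebraic (R := ℚ) a)).exists_integral_multiple
  refine ⟨d.natAbs, Int.natAbs_ne_zero.mpr hd, ?_⟩
  have h1 : (d • a : QBar) ∈ A := Arith.mem_of_isIntegral A hint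
  rw [zsmul_eq_mul] at h1
  rcases Int.natAbs_eq d with h | h <;> rw [h] at h1
  · simpa using h1
  · simpa [neg_mul] using h1

/-- Constants are quotients of integral series. -/
theorem algebraMap_mem_fracS (a : QBar) : algebraMap QBar LSer a ∈ fracS A := by
  obtain ⟨t, ht, hta⟩ := exists_natCast_mul_mem (A := A) a
  refine mem_fracS.mpr ⟨_, algebraMap_mem_intS hta, _, natCast_mem (intS A) t,
    by rw [← map_natCast (algebraMap QBar LSer), _root_.map_ne_zero]; exact_mod_cast ht, ?_⟩
  rw [map_mul, map_natCast, mul_comm]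

/-! ### The local ring of quotients with nonvanishing denominator -/

variable (A)

/-- Quotients `a / b` of integral series with `red b ≠ 0`. -/
def locS : Subring LSer where
  carrier := {x | ∃ a b : intS A, red A b ≠ 0 ∧ x * (b : LSer) = a}
  one_mem' := ⟨1, 1, by simp, by simp⟩
  mul_mem' := by
    rintro x y ⟨a, b, hb, hx⟩ ⟨c, d, hd, hy⟩
    exact ⟨a * c, b * d, by rw [map_mul]; exact mul_ne_zero hb hd, by
      push_cast; rw [← hx, ← hy]; ring⟩
  zero_mem' := ⟨0, 1, by simp, by simp⟩
  add_mem' := by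
    rintro x y ⟨a, b, hb, hx⟩ ⟨c, d, hd, hy⟩
    exact ⟨a * d + c * b, b * d, by rw [map_mul]; exact mul_ne_zero hb hd, by
      push_cast; rw [← hx, ← hy]; ring⟩
  neg_mem' := by
    rintro x ⟨a, b, hb, hx⟩
    exact ⟨-a, b, hb, by push_cast; rw [← hx]; ring⟩

/-- `locS A` consists of quotients `a / b` of integral series with `red A b ≠ 0`. -/
theorem mem_locS {x : LSer} :
    x ∈ locS A ↔ ∃ a b : intS A, red A b ≠ 0 ∧ x * (b : LSer) = a := Iff.rfl

variable {A}

theorem red_div_eq {x : LSer} {a b a' b' : intS A} (hb : red A b ≠ 0) (hb' : red A b' ≠ 0)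
    (h : x * (b : LSer) = a) (h' : x * (b' : LSer) = a') :
    red A a / red A b = red A a' / red A b' := by
  have : a * b' = a' * b := Subtype.ext (by push_cast; rw [← h, ← h']; ring)
  rw [div_eq_div_iff hb hb', ← map_mul, ← map_mul, this]

variable (A)

/-- The raw reduction map on `locS`. -/
def redLFun (x : locS A) : LaurentSeries (Res A) :=
  red A x.2.choose / red A x.2.choose_spec.choose

variable {A}

theorem redLFun_eq (x : locS A) {a b : intS A} (hb : red A b ≠ 0) (h : x.1 * (b : LSer) = a) :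
    redLFun A x = red A a / red A b :=
  red_div_eq x.2.choose_spec.choose_spec.1 hb x.2.choose_spec.choose_spec.2 h

variable (A)

/-- Reduction on `locS`. -/
def redL : locS A →+* LaurentSeries (Res A) where
  toFun := redLFun A
  map_one' := by
    rw [redLFun_eq 1 (a := 1) (b := 1) (by simp) (by simp)]
    simp
  map_mul' x y := by
    obtain ⟨a, b, hb, hx⟩ := x.2
    obtain ⟨c, d, hd, hy⟩ := y.2
    rw [redLFun_eq x hb hx, redLFun_eq y hd hy,
      redLFun_eq (x * y) (a := a * c) (b := b * d) (by rw [map_mul]; exact mul_ne_zero hb hd)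
        (by push_cast; rw [← hx, ← hy]; ring), map_mul, map_mul, div_mul_div_comm]
  map_zero' := by
    rw [redLFun_eq 0 (a := 0) (b := 1) (by simp) (by simp)]
    simp
  map_add' x y := by
    obtain ⟨a, b, hb, hx⟩ := x.2
    obtain ⟨c, d, hd, hy⟩ := y.2
    rw [redLFun_eq x hb hx, redLFun_eq y hd hy,
      redLFun_eq (x + y) (a := a * d + c * b) (b := b * d)
        (by rw [map_mul]; exact mul_ne_zero hb hd)
        (by push_cast; rw [← hx, ← hy]; ring), map_add, map_mul, map_mul, map_mul,
      div_add_div _ _ hb hd, mul_comm (red A c) (red A b)]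

variable {A}

/-- The reduction of `a / b` is the quotient of the reductions. -/
theorem redL_eq (x : locS A) {a b : intS A} (hb : red A b ≠ 0) (h : x.1 * (b : LSer) = a) :
    redL A x = red A a / red A b := redLFun_eq x hb h

/-- The reduction of `a / b` times that of `b` is that of `a`. -/
theorem redL_mul_red (x : locS A) {a b : intS A} (hb : red A b ≠ 0)
    (h : x.1 * (b : LSer) = a) : redL A x * red A b = red A a := by
  rw [redL_eq x hb h, div_mul_cancel₀ _ hb]

/-- Integral series lie in `locS`. -/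
theorem intS_le_locS : intS A ≤ locS A := fun x hx => ⟨⟨x, hx⟩, 1, by simp, by simp⟩

/-- On integral series the extended reduction is the reduction. -/
theorem redL_of_mem_intS (x : intS A) : redL A ⟨x.1, intS_le_locS x.2⟩ = red A x := by
  rw [redL_eq (a := x) (b := 1) _ (by simp) (by simp)]
  simp

/-- The reduction of an element of `locS A` depends only on the series. -/
theorem redL_congr {x y : LSer} (hx : x ∈ locS A) (hy : y ∈ locS A) (h : x = y) :
    redL A ⟨x, hx⟩ = redL A ⟨y, hy⟩ := by
  subst h; rfl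

/-- Elements of `locS` are quotients of integral series. -/
theorem locS_le_fracS {x : LSer} (hx : x ∈ locS A) : x ∈ fracS A := by
  obtain ⟨a, b, hb, h⟩ := hx
  exact mem_fracS.mpr ⟨a, a.2, b, b.2, ne_zero_of_red_ne_zero hb, h⟩

/-- Constants from `A` lie in `locS`. -/
theorem algebraMap_mem_locS {a : QBar} (ha : a ∈ A) : algebraMap QBar LSer a ∈ locS A :=
  intS_le_locS (algebraMap_mem_intS ha)

/-- In `locS` a constant reduces to its residue. -/
theorem redL_algebraMap {a : QBar} (ha : a ∈ A) :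
    redL A ⟨_, algebraMap_mem_locS ha⟩ = algebraMap (Res A) _ (IsLocalRing.residue A ⟨a, ha⟩) := by
  rw [redL_of_mem_intS ⟨_, algebraMap_mem_intS ha⟩, red_algebraMap]

/-- Reduction is compatible with multiplication by constants from `A`. -/
theorem redL_const_mul {a : QBar} (ha : a ∈ A) {x : LSer} (hx : x ∈ locS A) :
    ∃ h : algebraMap QBar LSer a * x ∈ locS A, redL A ⟨_, h⟩ =
      algebraMap (Res A) _ (IsLocalRing.residue A ⟨a, ha⟩) * redL A ⟨x, hx⟩ :=
  ⟨mul_mem (algebraMap_mem_locS ha) hx, by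
    rw [← redL_algebraMap ha, ← map_mul]; rfl⟩

/-- An element of `locS` with nonzero reduction is a unit of `locS`. -/
theorem inv_mem_locS {x : LSer} (hx : x ∈ locS A) (h : redL A ⟨x, hx⟩ ≠ 0) :
    ∃ h' : x⁻¹ ∈ locS A, redL A ⟨x⁻¹, h'⟩ = (redL A ⟨x, hx⟩)⁻¹ := by
  obtain ⟨a, b, hb, hab⟩ := id hx
  rw [redL_eq ⟨x, hx⟩ hb hab] at h ⊢
  have ha : red A a ≠ 0 := (div_ne_zero_iff.mp h).1
  have hx0 : x ≠ 0 := fun h0 => ne_zero_of_red_ne_zero ha (by rw [← hab, h0, zero_mul])
  have hm : x⁻¹ * (a : LSer) = b := by rw [← hab, inv_mul_cancel_left₀ hx0]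
  exact ⟨⟨b, a, ha, hm⟩, by rw [redL_eq ⟨x⁻¹, b, a, ha, hm⟩ ha hm, inv_div]⟩

/-! ### Scaling -/

variable {q : ℕ}

/-- A nonzero integral series has a coefficient of maximal valuation. -/
theorem exists_max_coeff (hA : A.LiesOverPrime q) (hq : q.Prime) {x : LSer} (hx : x ∈ intS A)
    (h0 : x ≠ 0) : ∃ m, x.coeff m ≠ 0 ∧ ∀ n, x.coeff n / x.coeff m ∈ A := by
  obtain ⟨⟨L, hL, hxL⟩, hxA⟩ := hx
  obtain ⟨_, ⟨m, rfl⟩, hmax⟩ := exists_max_valuation hA hq L (X := Set.range x.coeff)
    (by rintro _ ⟨n, rfl⟩; exact hxL n) (by rintro _ ⟨n, rfl⟩; exact hxA n) ⟨_, ⟨0, rfl⟩⟩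
  have hm : x.coeff m ≠ 0 := fun hm0 => h0 (by
    ext n
    have := hmax _ ⟨n, rfl⟩
    rw [hm0, map_zero, nonpos_iff_eq_zero, map_eq_zero] at this
    rw [this, HahnSeries.coeff_zero])
  refine ⟨m, hm, fun n => (A.valuation_le_one_iff _).mp ?_⟩
  rw [map_div₀, div_le_one₀ (zero_lt_iff.mpr ((Valuation.ne_zero_iff _).mpr hm))]
  exact hmax _ ⟨n, rfl⟩

/-- Dividing by a coefficient of maximal valuation gives an integral series with nonzero
reduction. -/
theorem exists_scale_intS (hA : A.LiesOverPrime q) (hq : q.Prime) {x : LSer} (hx : x ∈ intS A)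
    (h0 : x ≠ 0) : ∃ c : QBar, c ≠ 0 ∧ ∃ h : algebraMap QBar LSer c * x ∈ intS A,
      red A ⟨_, h⟩ ≠ 0 ∧ ∃ m, c = (x.coeff m)⁻¹ := by
  obtain ⟨m, hm, hdiv⟩ := exists_max_coeff hA hq hx h0
  have hcoef : ∀ n, (algebraMap QBar LSer (x.coeff m)⁻¹ * x).coeff n = x.coeff n / x.coeff m := by
    intro n
    rw [algebraMap_laurentSeries_eq_single, HahnSeries.coeff_single_zero_mul, inv_mul_eq_div]
  have hmem : algebraMap QBar LSer (x.coeff m)⁻¹ * x ∈ intS A :=
    mem_intS_of_coeff (mul_mem (algebraMap_mem_fracS _) (intS_le_fracS hx))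
      fun n => by rw [hcoef]; exact hdiv n
  refine ⟨_, inv_ne_zero hm, hmem, red_ne_zero_of_coeff (n := m) ?_, m, rfl⟩
  show (algebraMap QBar LSer (x.coeff m)⁻¹ * x).coeff m ∉ _
  rw [hcoef, div_self hm]
  exact Arith.one_notMem_nonunits

/-- Every nonzero quotient of integral series has a scalar multiple in `locS` with nonzero
reduction. -/
theorem exists_scale (hA : A.LiesOverPrime q) (hq : q.Prime) {x : LSer} (hx : x ∈ fracS A)
    (h0 : x ≠ 0) : ∃ c : QBar, c ≠ 0 ∧ ∃ h : algebraMap QBar LSer c * x ∈ locS A,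
      redL A ⟨_, h⟩ ≠ 0 := by
  obtain ⟨a, ha, b, hb, hb0, hab⟩ := mem_fracS.mp hx
  obtain ⟨c, hc, hca, hra, -⟩ :=
    exists_scale_intS hA hq ha (by rw [← hab]; exact mul_ne_zero h0 hb0)
  obtain ⟨d, hd, hdb, hrb, -⟩ := exists_scale_intS hA hq hb hb0
  have key : algebraMap QBar LSer (c / d) * x * ((⟨_, hdb⟩ : intS A) : LSer) =
      ((⟨_, hca⟩ : intS A) : LSer) := by
    show algebraMap QBar LSer (c / d) * x * (algebraMap QBar LSer d * b) =
      algebraMap QBar LSer c * a
    rw [← hab, map_div₀]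
    field_simp [(map_ne_zero (algebraMap QBar LSer)).mpr hd]
  refine ⟨c / d, div_ne_zero hc hd, ⟨_, _, hrb, key⟩, ?_⟩
  rw [redL_eq ⟨_, _, _, hrb, key⟩ hrb key]
  exact div_ne_zero hra hrb

end Fermat.Agent.Semistable

end
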