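import Mathlib
import Fermat.Agent.Semistable.Valued

/-!
# Echelon form of finite dimensional spaces of series

A finite dimensional space of vectors of quotients of integral series has a basis of vectors in
`locS` whose reductions are linearly independent.
-/

set_option autoImplicit false

noncomputable section

namespace Fermat.Agent.Semistable

open Arith (QBar)
open ModularCurve

variable {A : ValuationSubring QBar} {q : ℕ}

theorem echelon_vec {L : Type*} [Field L] [Algebra L QBar] {ι : Type*} :
    ∀ (d : ℕ) (V : Submodule L (ι → QBar)) [FiniteDimensional L V], Module.finrank L V = d →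
      (∀ x ∈ V, ∀ i, x i ∈ (algebraMap L QBar).fieldRange) →
      (∀ x ∈ V, x ≠ 0 → ∃ i, x i ≠ 0 ∧ ∀ j, x j / x i ∈ A) →
      ∃ w : Fin d → (ι → QBar), ∃ h : ∀ a i, w a i ∈ A, (∀ a, w a ∈ V) ∧
        LinearIndependent (Res A) fun a i => IsLocalRing.residue A ⟨w a i, h a i⟩ := by
  intro d
  induction d with
  | zero =>
    intro V _ _ _ _
    exact ⟨Fin.elim0, fun a => a.elim0, fun a => a.elim0, linearIndependent_empty_type⟩
  | succ d ih =>
    intro V _ hd hrat hscal
    obtain ⟨x, hxV, hx0⟩ := V.exists_mem_ne_zero_of_ne_bot (fun h0 => by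
      rw [h0, finrank_bot] at hd; omega)
    -- a pivot: a nonzero vector `x'` with entries in `A` and `x' i = 1`
    obtain ⟨i, hxi, hdiv⟩ := hscal x hxV hx0
    obtain ⟨c, hc⟩ := hrat x hxV i
    set x' : ι → QBar := c⁻¹ • x with hx'
    have hx'V : x' ∈ V := V.smul_mem _ hxV
    have hx'j : ∀ j, x' j = x j / x i := fun j => by
      rw [hx', Pi.smul_apply, Algebra.smul_def, map_inv₀, hc, inv_mul_eq_div]
    have hx'i : x' i = 1 := by rw [hx'j, div_self hxi]
    have hx'A : ∀ j, x' j ∈ A := fun j => (hx'j j).symm ▸ hdiv j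
    -- the vectors vanishing at `i` complement the line through `x'`
    set V' : Submodule L (ι → QBar) := V ⊓ (LinearMap.proj i).ker with hV'
    have hsup : V' ⊔ Submodule.span L {x'} = V := by
      refine le_antisymm (sup_le inf_le_left
        (by rw [Submodule.span_le, Set.singleton_subset_iff]; exact hx'V)) fun y hy => ?_
      obtain ⟨e, he⟩ := hrat y hy i
      refine Submodule.mem_sup.mpr ⟨y - e • x', ⟨V.sub_mem hy (V.smul_mem _ hx'V), ?_⟩, e • x',
        Submodule.smul_mem _ _ (Submodule.mem_span_singleton_self x'), by abel⟩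
      show y i - (e • x') i = 0
      rw [Pi.smul_apply, hx'i, ← Algebra.algebraMap_eq_smul_one, he, sub_self]
    have hinf : V' ⊓ Submodule.span L {x'} = ⊥ := by
      rw [eq_bot_iff]
      rintro y ⟨⟨-, hy⟩, hy'⟩
      obtain ⟨e, rfl⟩ := Submodule.mem_span_singleton.mp hy'
      have : e • (1 : QBar) = 0 := by rw [← hx'i]; exact hy
      rw [smul_eq_zero, or_iff_left one_ne_zero] at this
      simp [this]
    have : FiniteDimensional L V' := Submodule.finiteDimensional_of_le inf_le_left
    have hd' : Module.finrank L V' = d := by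
      have h := Submodule.finrank_sup_add_finrank_inf_eq V' (Submodule.span L {x'})
      rw [hsup, hinf, finrank_bot, finrank_span_singleton
        (fun h0 => one_ne_zero (α := QBar) (by rw [← hx'i, h0]; rfl)), hd] at h
      omega
    -- prepend `x'` to an echelon basis of `V'`: its reduction is `1` at `i`, theirs are `0`
    obtain ⟨w, hw, hwV, hwi⟩ := ih V' hd' (fun y hy => hrat y hy.1) (fun y hy => hscal y hy.1)
    refine ⟨Fin.cons x' w, Fin.cases hx'A hw, Fin.cases hx'V fun a => (hwV a).1, ?_⟩
    have hcons : (fun a j => IsLocalRing.residue A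
        ⟨(Fin.cons x' w : Fin (d + 1) → ι → QBar) a j, Fin.cases (motive := fun a => ∀ j,
          (Fin.cons x' w : Fin (d + 1) → ι → QBar) a j ∈ A) hx'A hw a j⟩) =
        Fin.cons (fun j => IsLocalRing.residue A ⟨x' j, hx'A j⟩)
          (fun a j => IsLocalRing.residue A ⟨w a j, hw a j⟩) := by
      funext a
      refine Fin.cases ?_ ?_ a <;> intros <;> rfl
    rw [hcons, linearIndependent_finCons]
    refine ⟨hwi, fun hmem => ?_⟩
    have hle : Submodule.span (Res A)
        (Set.range fun a j => IsLocalRing.residue A ⟨w a j, hw a j⟩) ≤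
        (LinearMap.proj i : (ι → Res A) →ₗ[Res A] Res A).ker := by
      rw [Submodule.span_le]
      rintro _ ⟨a, rfl⟩
      show IsLocalRing.residue A ⟨w a i, hw a i⟩ = 0
      rw [show (⟨w a i, hw a i⟩ : A) = 0 from Subtype.ext (hwV a).2, map_zero]
    have hpivot : IsLocalRing.residue A ⟨x' i, hx'A i⟩ = 0 := hle hmem
    rw [show (⟨x' i, hx'A i⟩ : A) = 1 from Subtype.ext hx'i, map_one] at hpivot
    exact one_ne_zero hpivot

section Series

variable (A) (L : Type*) [Field L] [Algebra L QBar]

/-- Quotients of integral series with coefficients in the image of `L`. -/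
def FracOver (x : LSer) : Prop :=
  ∃ a ∈ intS A, ∃ b ∈ intS A, b ≠ 0 ∧ x * b = a ∧
    (∀ n, a.coeff n ∈ (algebraMap L QBar).fieldRange) ∧
    ∀ n, b.coeff n ∈ (algebraMap L QBar).fieldRange

variable {A}

theorem fracOver_self_iff {x : LSer} : FracOver A QBar x ↔ x ∈ fracS A := by
  refine ⟨fun ⟨a, ha, b, hb, hb0, h, _⟩ => mem_fracS.mpr ⟨a, ha, b, hb, hb0, h⟩, fun hx => ?_⟩
  obtain ⟨a, ha, b, hb, hb0, h⟩ := mem_fracS.mp hx
  exact ⟨a, ha, b, hb, hb0, h, fun n => ⟨_, rfl⟩, fun n => ⟨_, rfl⟩⟩

/-- Scalars act on series by multiplication with constant series. -/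
theorem smul_eq_algebraMap_mul (c : L) (x : LSer) :
    c • x = algebraMap QBar LSer (algebraMap L QBar c) * x := by
  ext n
  rw [algebraMap_laurentSeries_eq_single, HahnSeries.coeff_single_zero_mul, HahnSeries.coeff_smul,
    Algebra.smul_def]

variable (A)

/-- Series with bounded denominators and coefficients in the image of `L`. -/
def bddOver : Submodule L LSer where
  carrier := {y | (∃ t : ℕ, t ≠ 0 ∧ (t : LSer) * y ∈ intS A) ∧
    ∀ n, y.coeff n ∈ (algebraMap L QBar).fieldRange}
  add_mem' := by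
    rintro x y ⟨⟨t, ht, hx⟩, hxL⟩ ⟨⟨u, hu, hy⟩, hyL⟩
    refine ⟨⟨t * u, mul_ne_zero ht hu, ?_⟩,
      fun n => by rw [HahnSeries.coeff_add]; exact add_mem (hxL n) (hyL n)⟩
    have h : ((t * u : ℕ) : LSer) * (x + y) = (u : LSer) * ((t : LSer) * x) + t * (u * y) := by
      push_cast; ring
    rw [h]
    exact add_mem (mul_mem (natCast_mem _ u) hx) (mul_mem (natCast_mem _ t) hy)
  zero_mem' := ⟨⟨1, one_ne_zero, by simp⟩,
    fun n => by rw [HahnSeries.coeff_zero]; exact zero_mem _⟩
  smul_mem' := by
    rintro c x ⟨⟨t, ht, hx⟩, hxL⟩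
    obtain ⟨u, hu, hu'⟩ := exists_natCast_mul_mem (A := A) (algebraMap L QBar c)
    refine ⟨⟨u * t, mul_ne_zero hu ht, ?_⟩, fun n => ?_⟩
    · rw [smul_eq_algebraMap_mul]
      have h := mul_mem (algebraMap_mem_intS hu') hx
      rw [map_mul, map_natCast] at h
      have e : ((u * t : ℕ) : LSer) * (algebraMap QBar LSer (algebraMap L QBar c) * x) =
          (u : LSer) * algebraMap QBar LSer (algebraMap L QBar c) * ((t : LSer) * x) := by
        push_cast; ring
      rw [e]
      exact h
    · rw [HahnSeries.coeff_smul, Algebra.smul_def]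
      exact mul_mem ⟨c, rfl⟩ (hxL n)

variable {A}

theorem exists_max_coeff_bddOver (hA : A.LiesOverPrime q) (hq : q.Prime) {y : LSer}
    (hy : y ∈ bddOver A L) (h0 : y ≠ 0) : ∃ m, y.coeff m ≠ 0 ∧ ∀ n, y.coeff n / y.coeff m ∈ A := by
  obtain ⟨⟨t, ht, hty⟩, -⟩ := hy
  have hc : ∀ n, ((t : LSer) * y).coeff n = (t : QBar) * y.coeff n := fun n => by
    rw [← map_natCast (algebraMap QBar LSer), algebraMap_laurentSeries_eq_single,
      HahnSeries.coeff_single_zero_mul]
  have htQ : (t : QBar) ≠ 0 := Nat.cast_ne_zero.mpr ht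
  obtain ⟨m, hm, hdiv⟩ := exists_max_coeff hA hq hty (mul_ne_zero
    (by rw [← map_natCast (algebraMap QBar LSer), _root_.map_ne_zero]; exact htQ) h0)
  rw [hc] at hm
  refine ⟨m, right_ne_zero_of_mul hm, fun n => ?_⟩
  have := hdiv n
  rwa [hc, hc, mul_div_mul_left _ _ htQ] at this

/-- Common denominators: integral, with coefficients in `L` and nonzero reduction. -/
theorem exists_common_den (hA : A.LiesOverPrime q) (hq : q.Prime) {κ : Type*} [Fintype κ]
    (y : κ → LSer) (hy : ∀ k, FracOver A L (y k)) :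
    ∃ B : intS A, red A B ≠ 0 ∧ (∀ n, (B : LSer).coeff n ∈ (algebraMap L QBar).fieldRange) ∧
      ∀ k, (B : LSer) * y k ∈ bddOver A L := by
  classical
  choose a ha b hb hb0 hab haL hbL using hy
  have hmul : ∀ (s : Finset κ), ∀ n,
      (∏ k ∈ s, b k).coeff n ∈ (algebraMap L QBar).fieldRange := by
    intro s
    induction s using Finset.induction with
    | empty => simpa using coeff_one_mem (algebraMap L QBar).fieldRange
    | insert k s hk ih =>
      rw [Finset.prod_insert hk]
      exact coeff_mul_mem _ (hbL k) ih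
  have hP : ∏ k, b k ∈ intS A := prod_mem fun k _ => hb k
  obtain ⟨c, -, hcmem, hcred, m, hcm⟩ := exists_scale_intS hA hq hP
    (Finset.prod_ne_zero_iff.mpr fun k _ => hb0 k)
  obtain ⟨e, he⟩ : c ∈ (algebraMap L QBar).fieldRange := hcm ▸ inv_mem (hmul _ m)
  refine ⟨⟨_, hcmem⟩, hcred, fun n => ?_, fun k => ?_⟩
  · show (algebraMap QBar LSer c * ∏ k, b k).coeff n ∈ _
    rw [algebraMap_laurentSeries_eq_single, HahnSeries.coeff_single_zero_mul, ← he]
    exact mul_mem ⟨e, rfl⟩ (hmul _ n)
  · show algebraMap QBar LSer c * (∏ k, b k) * y k ∈ _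
    rw [← Finset.mul_prod_erase _ _ (Finset.mem_univ k),
      show algebraMap QBar LSer c * (b k * ∏ j ∈ Finset.univ.erase k, b j) * y k =
        algebraMap QBar LSer c * ((y k * b k) * ∏ j ∈ Finset.univ.erase k, b j) by ring,
      hab, ← he, ← smul_eq_algebraMap_mul]
    refine (bddOver A L).smul_mem e ⟨⟨1, one_ne_zero, ?_⟩, coeff_mul_mem _ (haL k) (hmul _)⟩
    rw [Nat.cast_one, one_mul]
    exact mul_mem (ha k) (prod_mem fun j _ => hb j)

variable {L}

/-- One denominator serves for the `s`-th components of a whole finite dimensional space. -/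
private theorem exists_den_submodule (hA : A.LiesOverPrime q) (hq : q.Prime) {S : Type*}
    (V : Submodule L (S → LSer)) [FiniteDimensional L V]
    (hV : ∀ x ∈ V, ∀ s, FracOver A L (x s)) (s : S) :
    ∃ B : intS A, red A B ≠ 0 ∧ ∀ x ∈ V, (B : LSer) * x s ∈ bddOver A L := by
  let β := Module.finBasis L V
  obtain ⟨B, hB, -, hBy⟩ := exists_common_den L hA hq (fun a => (β a : S → LSer) s)
    (fun a => hV _ (β a).2 s)
  refine ⟨B, hB, fun x hx => ?_⟩
  have hexp : x s = ∑ a, β.repr ⟨x, hx⟩ a • (β a : S → LSer) s := by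
    conv_lhs => rw [show x = ((⟨x, hx⟩ : V) : S → LSer) from rfl, ← β.sum_repr ⟨x, hx⟩]
    simp only [Submodule.coe_sum, Submodule.coe_smul, Finset.sum_apply, Pi.smul_apply]
  rw [hexp, Finset.mul_sum]
  refine sum_mem fun a _ => ?_
  rw [smul_eq_algebraMap_mul, mul_left_comm, ← smul_eq_algebraMap_mul]
  exact (bddOver A L).smul_mem _ (hBy a)

/-- Finitely many series with bounded denominators, not all zero, have a coefficient dividing all
their coefficients in `A`. -/
private theorem exists_max_coeff_family (hA : A.LiesOverPrime q) (hq : q.Prime) {S : Type*}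
    [Finite S] (y : S → LSer) (hy : ∀ s, y s ∈ bddOver A L) {s₁ : S} {n₁ : ℤ}
    (hne : (y s₁).coeff n₁ ≠ 0) :
    ∃ s m, (y s).coeff m ≠ 0 ∧ ∀ s' n, (y s').coeff n / (y s).coeff m ∈ A := by
  have := Fintype.ofFinite S
  -- a coefficient of largest valuation in each series
  have hmax : ∀ s, ∃ m, ∀ n, A.valuation ((y s).coeff n) ≤ A.valuation ((y s).coeff m) := by
    intro s
    rcases eq_or_ne (y s) 0 with h0 | h0
    · exact ⟨0, fun n => by simp [h0]⟩
    · obtain ⟨m, hm, hdiv⟩ := exists_max_coeff_bddOver L hA hq (hy s) h0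
      refine ⟨m, fun n => ?_⟩
      have := (A.valuation_le_one_iff _).mpr (hdiv n)
      rwa [map_div₀, div_le_one₀ (zero_lt_iff.mpr ((Valuation.ne_zero_iff _).mpr hm))] at this
  choose m hm using hmax
  -- the largest of these
  obtain ⟨s, -, hs⟩ := Finset.univ.exists_max_image
    (fun s => A.valuation ((y s).coeff (m s))) ⟨s₁, Finset.mem_univ _⟩
  have hle : ∀ s' n, A.valuation ((y s').coeff n) ≤ A.valuation ((y s).coeff (m s)) :=
    fun s' n => (hm s' n).trans (hs s' (Finset.mem_univ _))
  have hpivot : (y s).coeff (m s) ≠ 0 := fun h0 => hne (by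
    have := hle s₁ n₁
    rw [h0, map_zero, nonpos_iff_eq_zero, map_eq_zero] at this
    exact this)
  refine ⟨s, m s, hpivot, fun s' n => (A.valuation_le_one_iff _).mp ?_⟩
  rw [map_div₀, div_le_one₀ (zero_lt_iff.mpr ((Valuation.ne_zero_iff _).mpr hpivot))]
  exact hle s' n

/-- **Echelon form.** -/
theorem echelon (hA : A.LiesOverPrime q) (hq : q.Prime) {S : Type*} [Finite S]
    (V : Submodule L (S → LSer)) [FiniteDimensional L V]
    (hV : ∀ x ∈ V, ∀ s, FracOver A L (x s)) :
    ∃ w : Fin (Module.finrank L V) → (S → LSer), ∃ h : ∀ a s, w a s ∈ locS A, (∀ a, w a ∈ V) ∧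
      LinearIndependent (Res A) fun a s => redL A ⟨w a s, h a s⟩ := by
  classical
  have := Fintype.ofFinite S
  -- denominators `B s`, and the `L`-linear map `Ψ` to all coefficients of the `B s * x s`
  choose B hB hBx using exists_den_submodule hA hq V hV
  let Ψ : (S → LSer) →ₗ[L] (S × ℤ → QBar) :=
    { toFun := fun x sn => ((B sn.1 : LSer) * x sn.1).coeff sn.2
      map_add' := fun x y => by ext sn; simp [mul_add]
      map_smul' := fun c x => by
        ext sn
        simp only [RingHom.id_apply, Pi.smul_apply, smul_eq_algebraMap_mul, Algebra.smul_def]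
        rw [mul_left_comm, algebraMap_laurentSeries_eq_single, HahnSeries.coeff_single_zero_mul] }
  have hΨ : Function.Injective Ψ := by
    intro x y h
    funext s
    refine mul_left_cancel₀ (ne_zero_of_red_ne_zero (hB s)) (HahnSeries.ext (funext fun n => ?_))
    exact congrFun h (s, n)
  have hd : Module.finrank L (V.map Ψ) = Module.finrank L V :=
    (Submodule.equivMapOfInjective Ψ hΨ V).finrank_eq.symm
  -- echelon form of the vectors of coefficients
  obtain ⟨u, hu, huV, hui⟩ := echelon_vec (A := A) _ (V.map Ψ) hd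
    (by rintro _ ⟨x, hx, rfl⟩ ⟨s, n⟩; exact (hBx s x hx).2 n)
    (by
      rintro _ ⟨x, hx, rfl⟩ hne
      obtain ⟨⟨s₁, n₁⟩, hne⟩ := Function.ne_iff.mp hne
      obtain ⟨s, m, hm, hdiv⟩ := exists_max_coeff_family hA hq (fun s => (B s : LSer) * x s)
        (fun s => hBx s x hx) (s₁ := s₁) (n₁ := n₁) hne
      exact ⟨(s, m), hm, fun sn => hdiv sn.1 sn.2⟩)
  -- back to series: the `B s * w a s` are integral
  choose w hwV hwu using huV
  have hint : ∀ a s, (B s : LSer) * w a s ∈ intS A := fun a s => by
    obtain ⟨⟨t, ht, hty⟩, -⟩ := hBx s _ (hwV a)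
    refine mem_intS_of_coeff ?_ fun n => by
      have := hu a (s, n)
      rw [← hwu a] at this
      exact this
    refine mem_fracS.mpr ⟨_, hty, _, natCast_mem (intS A) t, ?_, mul_comm _ _⟩
    rw [← map_natCast (algebraMap QBar LSer), _root_.map_ne_zero]
    exact Nat.cast_ne_zero.mpr ht
  have hloc : ∀ a s, w a s ∈ locS A := fun a s =>
    ⟨⟨_, hint a s⟩, B s, hB s, mul_comm _ _⟩
  refine ⟨w, hloc, hwV, ?_⟩
  -- a relation among the reductions, times `red (B s)`, is one among the coefficient residues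
  rw [Fintype.linearIndependent_iff] at hui ⊢
  intro g hg
  refine hui g (funext fun sn => ?_)
  obtain ⟨s, n⟩ := sn
  have hredL : ∑ a, g a • redL A ⟨w a s, hloc a s⟩ = 0 := by
    have h := congrFun hg s
    simp only [Finset.sum_apply, Pi.smul_apply] at h
    exact h
  have hred : ∑ a, g a • red A ⟨_, hint a s⟩ = 0 := by
    calc ∑ a, g a • red A ⟨_, hint a s⟩
        = (∑ a, g a • redL A ⟨w a s, hloc a s⟩) * red A (B s) := by
          rw [Finset.sum_mul]
          refine Finset.sum_congr rfl fun a _ => ?_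
          rw [← redL_mul_red ⟨w a s, hloc a s⟩ (a := ⟨_, hint a s⟩) (hB s) (mul_comm _ _)]
          ext k
          simp only [← HahnSeries.C_mul_eq_smul, mul_assoc]
      _ = 0 := by rw [hredL, zero_mul]
  have hcoeff := congrArg (fun z : LaurentSeries (Res A) => z.coeff n) hred
  simp only [HahnSeries.coeff_sum, HahnSeries.coeff_zero, HahnSeries.coeff_smul, coeff_red]
    at hcoeff
  rw [Finset.sum_apply, Pi.zero_apply]
  rw [← hcoeff]
  refine Finset.sum_congr rfl fun a _ => ?_
  rw [Pi.smul_apply]
  congr 2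
  exact Subtype.ext (congrFun (hwu a) (s, n)).symm

/-! ### The space of reductions -/

variable (A) in
/-- Reductions of the vectors of `V` lying in `locS`. -/
def redImage {S : Type*} (V : Submodule QBar (S → LSer)) :
    Submodule (Res A) (S → LaurentSeries (Res A)) where
  carrier := {r | ∃ x ∈ V, ∃ h : ∀ s, x s ∈ locS A, r = fun s => redL A ⟨x s, h s⟩}
  add_mem' := by
    rintro _ _ ⟨x, hx, hxl, rfl⟩ ⟨y, hy, hyl, rfl⟩
    refine ⟨x + y, add_mem hx hy, fun s => add_mem (hxl s) (hyl s), funext fun s => ?_⟩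
    show redL A ⟨x s, hxl s⟩ + redL A ⟨y s, hyl s⟩ = _
    rw [← map_add]
    rfl
  zero_mem' := ⟨0, zero_mem V, fun s => zero_mem _, funext fun s => (map_zero (redL A)).symm⟩
  smul_mem' := by
    rintro c _ ⟨x, hx, hxl, rfl⟩
    obtain ⟨a, rfl⟩ := IsLocalRing.residue_surjective c
    have e : ∀ s, (a.1 • x) s = algebraMap QBar LSer a.1 * x s := fun s => by
      rw [Pi.smul_apply, smul_eq_algebraMap_mul]; rfl
    refine ⟨a.1 • x, V.smul_mem _ hx,
      fun s => by rw [e s]; exact mul_mem (algebraMap_mem_locS a.2) (hxl s), funext fun s => ?_⟩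
    obtain ⟨h', he⟩ := redL_const_mul a.2 (hxl s)
    rw [redL_congr _ h' (e s), he]
    show IsLocalRing.residue A a • redL A ⟨x s, hxl s⟩ = _
    rw [← HahnSeries.C_mul_eq_smul, algebraMap_laurentSeries_eq_single]
    rfl

/-- `redImage A V` consists of the reductions of the integral elements of `V`. -/
theorem mem_redImage {S : Type*} {V : Submodule QBar (S → LSer)}
    {r : S → LaurentSeries (Res A)} :
    r ∈ redImage A V ↔ ∃ x ∈ V, ∃ h : ∀ s, x s ∈ locS A, r = fun s => redL A ⟨x s, h s⟩ := Iff.rfl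

/-- Vectors with linearly independent reductions are linearly independent. -/
theorem linearIndependent_of_red {S κ : Type*} {x : κ → S → LSer}
    {h : ∀ a s, x a s ∈ locS A}
    (hi : LinearIndependent (Res A) fun a s => redL A ⟨x a s, h a s⟩) :
    LinearIndependent QBar x := by
  classical
  rw [linearIndependent_iff'] at hi ⊢
  intro F g hg a₀ ha₀
  by_contra hne
  obtain ⟨a₁, ha₁, hmax⟩ := F.exists_max_image (fun a => A.valuation (g a)) ⟨a₀, ha₀⟩
  have hg1 : g a₁ ≠ 0 := fun h0 => hne (by
    have := hmax a₀ ha₀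
    rw [h0, map_zero, nonpos_iff_eq_zero, map_eq_zero] at this
    exact this)
  let c : κ → A := fun a => if ha : g a / g a₁ ∈ A then ⟨_, ha⟩ else 0
  have hc : ∀ a ∈ F, (c a : QBar) = g a / g a₁ := fun a ha => by
    have hmem : g a / g a₁ ∈ A := by
      rw [← A.valuation_le_one_iff, map_div₀,
        div_le_one₀ (zero_lt_iff.mpr ((Valuation.ne_zero_iff _).mpr hg1))]
      exact hmax a ha
    simp [c, hmem]
  have hzero : ∑ a ∈ F, IsLocalRing.residue A (c a) • (fun s => redL A ⟨x a s, h a s⟩) = 0 := by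
    funext s
    rw [Finset.sum_apply, Pi.zero_apply, ← map_zero (redL A)]
    have e : ∑ a ∈ F, (⟨algebraMap QBar LSer (c a).1, algebraMap_mem_locS (c a).2⟩ : locS A) *
        ⟨x a s, h a s⟩ = 0 := by
      refine Subtype.ext ?_
      push_cast
      show ∑ a ∈ F, algebraMap QBar LSer (c a).1 * x a s = 0
      have h1 := congrArg (fun z => algebraMap QBar LSer (g a₁)⁻¹ * z) (congrFun hg s)
      simp only [Finset.sum_apply, Pi.smul_apply, Pi.zero_apply, mul_zero, Finset.mul_sum,
        smul_eq_algebraMap_mul] at h1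
      refine Eq.trans (Finset.sum_congr rfl fun a ha => ?_) h1
      rw [hc a ha, ← mul_assoc, ← map_mul, div_eq_inv_mul]
      rfl
    rw [← e, map_sum]
    refine Finset.sum_congr rfl fun a _ => ?_
    rw [map_mul, redL_algebraMap (c a).2, Pi.smul_apply, ← HahnSeries.C_mul_eq_smul,
      algebraMap_laurentSeries_eq_single]
    rfl
  have h1 := hi F (fun a => IsLocalRing.residue A (c a)) hzero a₁ ha₁
  rw [show c a₁ = 1 from Subtype.ext (by rw [hc a₁ ha₁, div_self hg1]; rfl), map_one] at h1
  exact one_ne_zero h1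

/-- The space of reductions has the dimension of `V`, and is spanned by the reductions of the
elements with coefficients in `L` as soon as those span enough. -/
theorem redImage_eq_span (hA : A.LiesOverPrime q) (hq : q.Prime) {S : Type*} [Finite S]
    (V : Submodule QBar (S → LSer)) [FiniteDimensional QBar V]
    (V₀ : Submodule L (S → LSer)) [FiniteDimensional L V₀] (hle : ∀ x ∈ V₀, x ∈ V)
    (hdim : Module.finrank QBar V ≤ Module.finrank L V₀)
    (hV₀ : ∀ x ∈ V₀, ∀ s, FracOver A L (x s)) :
    ∃ w : Fin (Module.finrank QBar V) → (S → LSer), ∃ h : ∀ a s, w a s ∈ locS A,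
      (∀ a, w a ∈ V₀) ∧ LinearIndependent (Res A) (fun a s => redL A ⟨w a s, h a s⟩) ∧
      redImage A V = Submodule.span (Res A) (Set.range fun a s => redL A ⟨w a s, h a s⟩) := by
  obtain ⟨w, hwl, hw, hwi⟩ := echelon hA hq V₀ hV₀
  have hwi' := linearIndependent_of_red hwi
  have hcard : ∀ {κ : Type} [Fintype κ] (y : κ → S → LSer), (∀ a, y a ∈ V) →
      LinearIndependent QBar y → Fintype.card κ ≤ Module.finrank QBar V := fun y hy hyi =>
    (LinearIndependent.of_comp V.subtype
      (v := fun a => (⟨y a, hy a⟩ : V)) hyi).fintype_card_le_finrank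
  have heq : Module.finrank L V₀ = Module.finrank QBar V :=
    le_antisymm (by simpa using hcard w (fun a => hle _ (hw a)) hwi') hdim
  have hspan : redImage A V =
      Submodule.span (Res A) (Set.range fun a s => redL A ⟨w a s, hwl a s⟩) := by
    refine le_antisymm (fun r hr => ?_) (Submodule.span_le.mpr ?_)
    · obtain ⟨x, hx, hxl, rfl⟩ := hr
      by_contra hns
      have hcons : LinearIndependent (Res A) fun a s =>
          redL A ⟨(Fin.cons x w : Fin (_ + 1) → S → LSer) a s,
            Fin.cases (motive := fun a => ∀ s,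
              (Fin.cons x w : Fin (_ + 1) → S → LSer) a s ∈ locS A) hxl hwl a s⟩ := by
        have e : (fun a s => redL A ⟨(Fin.cons x w : Fin (_ + 1) → S → LSer) a s,
            Fin.cases (motive := fun a => ∀ s,
              (Fin.cons x w : Fin (_ + 1) → S → LSer) a s ∈ locS A) hxl hwl a s⟩) =
            Fin.cons (fun s => redL A ⟨x s, hxl s⟩) (fun a s => redL A ⟨w a s, hwl a s⟩) := by
          funext a
          refine Fin.cases ?_ ?_ a <;> intros <;> rfl
        rw [e, linearIndependent_finCons]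
        exact ⟨hwi, hns⟩
      have := hcard _ (Fin.cases hx fun a => hle _ (hw a)) (linearIndependent_of_red hcons)
      rw [Fintype.card_fin, heq] at this
      omega
    · rintro _ ⟨a, rfl⟩
      exact ⟨w a, hle _ (hw a), hwl a, rfl⟩
  refine ⟨w ∘ Fin.cast heq.symm, fun a => hwl _, fun a => hw _,
    hwi.comp _ (Fin.cast_injective _), ?_⟩
  rw [hspan]
  congr 1
  exact (Function.Surjective.range_comp (finCongr heq.symm).surjective _).symm

/-- Reduction preserves the dimension of a space of expansions. -/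
theorem finrank_redImage (hA : A.LiesOverPrime q) (hq : q.Prime) {S : Type*} [Finite S]
    (V : Submodule QBar (S → LSer)) [FiniteDimensional QBar V]
    (hV : ∀ x ∈ V, ∀ s, x s ∈ fracS A) :
    FiniteDimensional (Res A) (redImage A V) ∧
      Module.finrank (Res A) (redImage A V) = Module.finrank QBar V := by
  obtain ⟨w, hwl, -, hwi, heq⟩ := redImage_eq_span hA hq V V (fun x hx => hx) le_rfl
    (fun x hx s => fracOver_self_iff.mpr (hV x hx s))
  rw [heq]
  exact ⟨FiniteDimensional.span_of_finite _ (Set.finite_range _),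
    (finrank_span_eq_card hwi).trans (Fintype.card_fin _)⟩

end Series

end Fermat.Agent.Semistable

end
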