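import Mathlib
import Fermat.Agent.Semistable.Valued
import Fermat.Agent.Series.AlmostIntegral

/-!
# Integrality, roots and equivariance for integral series
-/

set_option autoImplicit false

noncomputable section

namespace Fermat.Agent.Semistable

open Arith (QBar)
open ModularCurve

variable {A : ValuationSubring QBar} {q : ℕ}

/-! ### Images of integer series -/

/-- Series with integer coefficients are integral. -/
theorem coeffMap_intCast_mem_intS (y : LaurentSeries ℤ) :
    coeffMap (Int.castRingHom QBar) y ∈ intS A :=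
  mem_intS.mpr ⟨⟨⊥, inferInstance, fun n => by rw [coeffMap_coeff]; exact intCast_mem _ _⟩,
    fun n => by rw [coeffMap_coeff]; exact intCast_mem _ _⟩

/-- A series with integer coefficients reduces to its image in the residue field. -/
theorem red_coeffMap_intCast (y : LaurentSeries ℤ) :
    red A ⟨_, coeffMap_intCast_mem_intS y⟩ = coeffMap (Int.castRingHom (Res A)) y := by
  ext n
  simp only [coeff_red, coeffMap_coeff]
  exact map_intCast (IsLocalRing.residue A) (y.coeff n)

/-- The `q`-expansion of `j` is integral. -/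
theorem jqModC_mem_intS : jqModC QBar ∈ intS A := by
  rw [← coeffMap_jqModC (Int.castRingHom QBar)]
  exact coeffMap_intCast_mem_intS _

/-- The expansion of `j` reduces to the expansion of `j`. -/
theorem red_jqModC : red A ⟨_, jqModC_mem_intS⟩ = jqModC (Res A) := by
  refine Eq.trans ?_ ((red_coeffMap_intCast (A := A) (jqModC ℤ)).trans (coeffMap_jqModC _))
  congr 1
  exact Subtype.ext (coeffMap_jqModC (Int.castRingHom QBar)).symm

/-! ### `qExpand` -/

theorem coeff_qExpand_cases {R : Type*} [CommRing R] (d : ℕ) [NeZero d] (x : LaurentSeries R)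
    (n : ℤ) : (qExpand R d x).coeff n = 0 ∨ ∃ m, (qExpand R d x).coeff n = x.coeff m := by
  by_cases h : (d : ℤ) ∣ n
  · obtain ⟨m, rfl⟩ := h
    exact Or.inr ⟨m, qExpand_coeff_mul d x m⟩
  · exact Or.inl (qExpand_coeff_of_not_dvd d x h)

/-- `q ↦ q ^ d` preserves integral series. -/
theorem qExpand_mem_intS (d : ℕ) [NeZero d] {x : LSer} (hx : x ∈ intS A) :
    qExpand QBar d x ∈ intS A := by
  obtain ⟨⟨L, hL, hxL⟩, hxA⟩ := mem_intS.mp hx
  refine mem_intS.mpr ⟨⟨L, hL, fun n => ?_⟩, fun n => ?_⟩ <;>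
    rcases coeff_qExpand_cases d x n with h | ⟨m, h⟩ <;> rw [h]
  · exact zero_mem L
  · exact hxL m
  · exact zero_mem A
  · exact hxA m

/-- Reduction commutes with `q ↦ q ^ d`. -/
theorem red_qExpand (d : ℕ) [NeZero d] (x : intS A) :
    red A ⟨_, qExpand_mem_intS d x.2⟩ = qExpand (Res A) d (red A x) := by
  ext n
  by_cases h : (d : ℤ) ∣ n
  · obtain ⟨m, rfl⟩ := h
    simp only [coeff_red, qExpand_coeff_mul]
  · simp only [coeff_red, qExpand_coeff_of_not_dvd d _ h]
    exact map_zero _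

/-- `q ↦ q ^ d` preserves `locS`. -/
theorem qExpand_mem_locS (d : ℕ) [NeZero d] {x : LSer} (hx : x ∈ locS A) :
    qExpand QBar d x ∈ locS A := by
  obtain ⟨a, b, hb, hab⟩ := hx
  refine ⟨⟨_, qExpand_mem_intS d a.2⟩, ⟨_, qExpand_mem_intS d b.2⟩, ?_, ?_⟩
  · rw [red_qExpand]
    exact fun h => hb (qExpand_injective d (by rw [h, map_zero]))
  · show qExpand QBar d x * qExpand QBar d b.1 = qExpand QBar d a.1
    rw [← map_mul, hab]

/-- Reduction on `locS` commutes with `q ↦ q ^ d`. -/
theorem redL_qExpand (d : ℕ) [NeZero d] {x : LSer} (hx : x ∈ locS A) :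
    redL A ⟨_, qExpand_mem_locS d hx⟩ = qExpand (Res A) d (redL A ⟨x, hx⟩) := by
  obtain ⟨a, b, hb, hab⟩ := id hx
  have hb' : red A ⟨_, qExpand_mem_intS d b.2⟩ ≠ 0 := by
    rw [red_qExpand]
    exact fun h => hb (qExpand_injective d (by rw [h, map_zero]))
  rw [redL_eq ⟨_, qExpand_mem_locS d hx⟩ (a := ⟨_, qExpand_mem_intS d a.2⟩) hb'
      (show qExpand QBar d x * qExpand QBar d b.1 = qExpand QBar d a.1 by rw [← map_mul, hab]),
    redL_eq ⟨x, hx⟩ hb hab, red_qExpand, red_qExpand, map_div₀]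

/-! ### Automorphisms fixing the residue field -/

/-- `σ` preserves `A` and acts trivially on its residue field. -/
structure IsInertial (A : ValuationSubring QBar) (σ : Arith.GQ) : Prop where
  mem : ∀ a ∈ A, σ a ∈ A
  residue_eq : ∀ (a : QBar) (ha : a ∈ A),
    IsLocalRing.residue A ⟨σ a, mem a ha⟩ = IsLocalRing.residue A ⟨a, ha⟩

variable {σ : Arith.GQ}

/-- An inertial automorphism preserves integral series. -/
theorem IsInertial.coeffMap_mem (hσ : IsInertial A σ) {x : LSer} (hx : x ∈ intS A) :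
    coeffMap (σ : QBar →+* QBar) x ∈ intS A := by
  obtain ⟨⟨L, hL, hxL⟩, hxA⟩ := mem_intS.mp hx
  refine mem_intS.mpr ⟨⟨L.map σ.toAlgHom,
    Module.Finite.equiv (IntermediateField.equivMap L σ.toAlgHom).toLinearEquiv, fun n => ?_⟩,
    fun n => ?_⟩
  · rw [coeffMap_coeff]
    exact ⟨_, hxL n, rfl⟩
  · rw [coeffMap_coeff]
    exact hσ.mem _ (hxA n)

/-- An inertial automorphism does not change reductions. -/
theorem IsInertial.red_coeffMap (hσ : IsInertial A σ) (x : intS A) :
    red A ⟨_, hσ.coeffMap_mem x.2⟩ = red A x := by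
  ext n
  rw [coeff_red, coeff_red]
  exact hσ.residue_eq _ _

/-! ### Almost integral series are integral -/

theorem coeff_mem_of_almostIntegral (hA : A.LiesOverPrime q) (hq : q.Prime) {c x : LSer}
    (hc : c ≠ 0) (h : ∀ n : ℕ, ∀ m, (c * x ^ n).coeff m ∈ A) : ∀ m, x.coeff m ∈ A := by
  refine Series.coeff_mem_of_almost_integral (R := A.toSubring) (fun b y hb hy => ?_) hc h
  by_contra hm
  have hne : y ≠ 0 := fun h0 => hm (h0 ▸ zero_mem _)
  have hπ : y⁻¹ ∈ A.nonunits := (ValuationSubring.inv_mem_nonunits_iff A).mpr (Or.inr hm)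
  obtain ⟨n, hn⟩ := exists_pow_valuation_lt hA hq hπ hb
  have hmem : b * y ^ n ∈ A := hy n
  rw [← A.valuation_le_one_iff, map_mul] at hmem
  rw [inv_pow, map_inv₀] at hn
  have hpos : 0 < A.valuation (y ^ n) :=
    zero_lt_iff.mpr ((Valuation.ne_zero_iff _).mpr (pow_ne_zero _ hne))
  exact not_lt.mpr hmem ((inv_lt_iff_one_lt_mul₀ hpos).mp hn)

/-- A quotient of integral series which is integral over integral series is integral. -/
theorem mem_intS_of_isIntegral (hA : A.LiesOverPrime q) (hq : q.Prime) {x : LSer}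
    (hx : x ∈ fracS A) {P : Polynomial LSer} (hP : P.Monic) (hcoef : ∀ i, P.coeff i ∈ intS A)
    (hroot : P.eval x = 0) : x ∈ intS A := by
  obtain ⟨a, ha, b, hb, hb0, hab⟩ := mem_fracS.mp hx
  refine mem_intS_of_coeff hx (coeff_mem_of_almostIntegral hA hq
    (c := b ^ P.natDegree) (pow_ne_zero _ hb0) fun n => ?_)
  suffices b ^ P.natDegree * x ^ n ∈ intS A from (mem_intS.mp this).2
  induction n using Nat.strong_induction_on with
  | _ n ih =>
    rcases le_or_gt n P.natDegree with hn | hn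
    · obtain ⟨r, hr⟩ := Nat.exists_eq_add_of_le hn
      rw [hr, pow_add, show b ^ n * b ^ r * x ^ n = b ^ r * (x * b) ^ n by ring, hab]
      exact mul_mem (pow_mem hb _) (pow_mem ha _)
    · obtain ⟨r, hr⟩ := Nat.exists_eq_add_of_le hn.le
      have hsum : x ^ P.natDegree = -∑ i ∈ Finset.range P.natDegree, P.coeff i * x ^ i := by
        rw [Polynomial.eval_eq_sum_range, Finset.sum_range_succ, hP.coeff_natDegree, one_mul]
          at hroot
        linear_combination hroot
      rw [hr, pow_add, hsum, neg_mul, Finset.sum_mul, mul_neg, Finset.mul_sum]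
      refine neg_mem (sum_mem fun i hi => ?_)
      rw [show b ^ P.natDegree * (P.coeff i * x ^ i * x ^ r) =
        P.coeff i * (b ^ P.natDegree * x ^ (i + r)) by ring]
      refine mul_mem (hcoef i) (ih _ ?_)
      have := Finset.mem_range.mp hi
      omega

/-- A series integral over series without polar part has no polar part. -/
theorem coeff_eq_zero_of_isIntegral {K : Type*} [Field K] {x : LaurentSeries K}
    {P : Polynomial (LaurentSeries K)} (hP : P.Monic)
    (hcoef : ∀ i, ∀ n < 0, (P.coeff i).coeff n = 0) (hroot : P.eval x = 0) :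
    ∀ n < 0, x.coeff n = 0 := by
  intro n hn
  by_contra hne
  have hx0 : x ≠ 0 := fun h => hne (by rw [h]; rfl)
  have hord : x.order < 0 := lt_of_le_of_lt (HahnSeries.order_le_of_coeff_ne_zero hne) hn
  set d := P.natDegree with hd
  have hsum := congrArg (fun z : LaurentSeries K => z.coeff (x ^ d).order) hroot
  rw [Polynomial.eval_eq_sum_range, Finset.sum_range_succ] at hsum
  simp only [HahnSeries.coeff_add, HahnSeries.coeff_sum, HahnSeries.coeff_zero] at hsum
  rw [show P.coeff P.natDegree = 1 from hP, one_mul, Finset.sum_eq_zero (fun i hi => ?_),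
    zero_add] at hsum
  · exact HahnSeries.coeff_order_eq_zero.not.mpr (pow_ne_zero _ hx0) hsum
  have hi' : i < d := Finset.mem_range.mp hi
  rcases eq_or_ne (P.coeff i) 0 with h0 | h0
  · rw [h0, zero_mul]; rfl
  refine HahnSeries.coeff_eq_zero_of_lt_order ?_
  have ho : 0 ≤ (P.coeff i).order := not_lt.mp fun hl =>
    HahnSeries.coeff_order_eq_zero.not.mpr h0 (hcoef i _ hl)
  rw [HahnSeries.order_mul h0 (pow_ne_zero _ hx0), HahnSeries.order_pow, HahnSeries.order_pow,
    nsmul_eq_mul, nsmul_eq_mul]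
  nlinarith

/-! ### Roots -/

/-- Hensel: a power series has a `p`-th root above a simple root of its constant term. -/
theorem exists_root_powerSeries {R : Type*} [CommRing R] (p : ℕ) (U : PowerSeries R) (v0 : R)
    (hv : v0 ^ p = PowerSeries.constantCoeff U) (hu : IsUnit ((p : R) * v0 ^ (p - 1))) :
    ∃ V : PowerSeries R, PowerSeries.constantCoeff V = v0 ∧ V ^ p = U := by
  obtain ⟨u, hu⟩ := hu
  let step : (n : ℕ) → (∀ m < n, R) → R := fun n f =>
    if n = 0 then v0 else ↑u⁻¹ * (PowerSeries.coeff n U -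
      PowerSeries.coeff n ((PowerSeries.mk fun m => if h : m < n then f m h else 0) ^ p))
  let V : ℕ → R := fun n => Nat.strongRec step n
  have hV : ∀ n, V n = step n (fun m _ => V m) := fun n => Nat.strongRec_eq step n
  have hV0 : V 0 = v0 := by rw [hV]; simp [step]
  refine ⟨PowerSeries.mk V, by simpa using hV0, PowerSeries.ext fun n => ?_⟩
  rcases eq_or_ne n 0 with rfl | hn
  · simp [hV0, hv]
  set W : PowerSeries R := PowerSeries.mk fun m => if m < n then V m else 0 with hW
  set T : PowerSeries R := PowerSeries.mk fun m => V (n + m) with hT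
  have hsplit : PowerSeries.mk V = W + PowerSeries.X ^ n * T := by
    ext m
    rw [map_add, PowerSeries.coeff_X_pow_mul', hW, hT, PowerSeries.coeff_mk, PowerSeries.coeff_mk]
    rcases lt_or_ge m n with h | h
    · simp [h, not_le.mpr h]
    · simp [h, not_lt.mpr h, PowerSeries.coeff_mk]
  obtain ⟨z, hz⟩ := sq_dvd_add_pow_sub_sub (PowerSeries.X ^ n * T) W p
  have e : PowerSeries.mk V ^ p =
      W ^ p + PowerSeries.X ^ n * (T * W ^ (p - 1) * (p : PowerSeries R)) +
        PowerSeries.X ^ (n + n) * (T ^ 2 * z) := by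
    rw [hsplit]; linear_combination hz
  have hW0 : PowerSeries.constantCoeff W = v0 := by
    rw [hW, ← PowerSeries.coeff_zero_eq_constantCoeff_apply, PowerSeries.coeff_mk,
      if_pos (Nat.pos_of_ne_zero hn), hV0]
  have hT0 : PowerSeries.constantCoeff T = V n := by
    rw [hT, ← PowerSeries.coeff_zero_eq_constantCoeff_apply, PowerSeries.coeff_mk, add_zero]
  rw [e, map_add, map_add, PowerSeries.coeff_X_pow_mul', PowerSeries.coeff_X_pow_mul',
    if_pos le_rfl, if_neg (by omega), Nat.sub_self, PowerSeries.coeff_zero_eq_constantCoeff_apply,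
    map_mul, map_mul, map_pow PowerSeries.constantCoeff, hW0, hT0, map_natCast, add_zero]
  have hstep : V n = ↑u⁻¹ * (PowerSeries.coeff n U - PowerSeries.coeff n (W ^ p)) := by
    rw [hV n]; simp only [step, hn, if_false]
    rw [hW]
    simp
  rw [hstep, show ↑u⁻¹ * (PowerSeries.coeff n U - PowerSeries.coeff n (W ^ p)) * v0 ^ (p - 1) *
    (p : R) = (↑u⁻¹ * ((p : R) * v0 ^ (p - 1))) *
      (PowerSeries.coeff n U - PowerSeries.coeff n (W ^ p)) by ring, ← hu, Units.inv_mul, one_mul]
  ring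

theorem natCast_unit_of_not_mem_nonunits {p : ℕ} (hp : (p : QBar) ∉ A.nonunits) :
    (p : QBar) ≠ 0 ∧ (p : QBar)⁻¹ ∈ A :=
  Arith.notMem_nonunits_iff.mp hp

/-- A series `G` whose leading coefficient is a unit and sits in degree `p * l` has, for every
`p`-th root of its reduction, a `p`-th root lifting it. -/
theorem exists_root {p : ℕ} (hp : p ≠ 0) (hpu : (p : QBar) ∉ A.nonunits) {G : LSer}
    (hG : G ∈ intS A) {l : ℤ} (hlow : ∀ n < (p : ℤ) * l, G.coeff n = 0)
    (hlead : G.coeff ((p : ℤ) * l) ∉ A.nonunits) {r : LaurentSeries (Res A)}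
    (hr : r ^ p = red A ⟨G, hG⟩) :
    ∃ h, ∃ hh : h ∈ intS A, h ^ p = G ∧ red A ⟨h, hh⟩ = r := by
  obtain ⟨⟨L, hL, hGL⟩, hGA⟩ := mem_intS.mp hG
  obtain ⟨v, hv⟩ := IsAlgClosed.exists_pow_nat_eq (G.coeff ((p : ℤ) * l)) (Nat.pos_of_ne_zero hp)
  have hvA : v ∈ A := by
    rw [← A.valuation_le_one_iff]
    exact (pow_le_one_iff hp).mp
      (by rw [← map_pow, hv]; exact (A.valuation_le_one_iff _).mpr (hGA _))
  have hvu : v ∉ A.nonunits := fun h => hlead (by
    rw [← hv, ← Nat.succ_pred_eq_of_pos (Nat.pos_of_ne_zero hp), pow_succ]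
    exact Arith.nonunits_mul_left (pow_mem hvA _) h)
  let L' : IntermediateField ℚ QBar := L ⊔ IntermediateField.adjoin ℚ {v}
  have hL' : FiniteDimensional ℚ L' :=
    haveI := IntermediateField.adjoin.finiteDimensional
      (Algebra.IsIntegral.isIntegral (R := ℚ) v)
    IntermediateField.finiteDimensional_sup L (IntermediateField.adjoin ℚ {v})
  have hLL' : ∀ {z : QBar}, z ∈ L → z ∈ L' := fun hz => (le_sup_left : L ≤ L') hz
  have hvL' : v ∈ L' := (le_sup_right : _ ≤ L') (IntermediateField.mem_adjoin_simple_self ℚ v)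
  let R : Subring QBar := A.toSubring ⊓ L'.toSubalgebra.toSubring
  let U : PowerSeries R :=
    PowerSeries.mk fun n => ⟨G.coeff ((p : ℤ) * l + n), hGA _, hLL' (hGL _)⟩
  let v0 : R := ⟨v, hvA, hvL'⟩
  have hunit : IsUnit ((p : R) * v0 ^ (p - 1)) := by
    obtain ⟨hp0, hpi⟩ := natCast_unit_of_not_mem_nonunits hpu
    obtain ⟨hv0, hvi⟩ := Arith.notMem_nonunits_iff.mp hvu
    refine IsUnit.mul ?_ (IsUnit.pow _ ?_)
    · exact IsUnit.of_mul_eq_one (b := (⟨(p : QBar)⁻¹, hpi,
        L'.inv_mem (natCast_mem L' p)⟩ : R)) (Subtype.ext (mul_inv_cancel₀ hp0))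
    · exact IsUnit.of_mul_eq_one (b := (⟨v⁻¹, hvi, L'.inv_mem hvL'⟩ : R))
        (Subtype.ext (mul_inv_cancel₀ hv0))
  obtain ⟨V, hV0, hVp⟩ := exists_root_powerSeries p U v0
    (Subtype.ext (by simp [U, v0, hv])) hunit
  set h₀ : LSer := HahnSeries.single l 1 * HahnSeries.ofPowerSeries ℤ QBar
    (V.map R.subtype) with hh₀
  have hh0mem : h₀ ∈ intS A := by
    have hcoef : ∀ n, h₀.coeff n ∈ A ∧ h₀.coeff n ∈ L' := by
      intro n
      rw [hh₀, HahnSeries.coeff_single_mul, one_mul]
      rcases lt_or_ge (n - l) 0 with h | h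
      · rw [ofPowerSeries_coeff_of_neg _ h]
        exact ⟨zero_mem _, zero_mem _⟩
      · lift n - l to ℕ using h with k
        rw [HahnSeries.ofPowerSeries_apply_coeff, PowerSeries.coeff_map]
        exact (PowerSeries.coeff k V).2
    exact mem_intS.mpr ⟨⟨L', hL', fun n => (hcoef n).2⟩, fun n => (hcoef n).1⟩
  have hh0p : h₀ ^ p = G := by
    rw [hh₀, mul_pow, ← map_pow (HahnSeries.ofPowerSeries ℤ QBar),
      ← map_pow (PowerSeries.map R.subtype), hVp, HahnSeries.single_pow, one_pow, nsmul_eq_mul]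
    ext n
    rw [HahnSeries.coeff_single_mul, one_mul]
    rcases lt_or_ge (n - (p : ℤ) * l) 0 with h | h
    · rw [ofPowerSeries_coeff_of_neg _ h, hlow n (by omega)]
    · obtain ⟨k, hk⟩ : ∃ k : ℕ, n = (p : ℤ) * l + k := ⟨(n - (p : ℤ) * l).toNat, by omega⟩
      rw [hk, add_sub_cancel_left, HahnSeries.ofPowerSeries_apply_coeff, PowerSeries.coeff_map]
      simp [U]
  have hred0 : red A ⟨h₀, hh0mem⟩ ≠ 0 := red_ne_zero_of_coeff (n := l) (by
    show h₀.coeff l ∉ A.nonunits
    rw [hh₀, HahnSeries.coeff_single_mul, one_mul, sub_self,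
      show (0 : ℤ) = ((0 : ℕ) : ℤ) from rfl, HahnSeries.ofPowerSeries_apply_coeff,
      PowerSeries.coeff_map, PowerSeries.coeff_zero_eq_constantCoeff_apply, hV0]
    exact hvu)
  -- adjust by a root of unity
  have : NeZero p := ⟨hp⟩
  obtain ⟨ζ, hζ⟩ := HasEnoughRootsOfUnity.exists_primitiveRoot QBar p
  have hζA : ζ ∈ A := Arith.mem_of_isIntegral A (hζ.isIntegral (Nat.pos_of_ne_zero hp))
  have hζ' : IsPrimitiveRoot (⟨ζ, hζA⟩ : A) p :=
    IsPrimitiveRoot.of_map_of_injective (f := A.subtype) hζ Subtype.val_injective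
  have hprod := congrArg (Polynomial.map ((algebraMap (Res A) (LaurentSeries (Res A))).comp
    (IsLocalRing.residue A))) (Polynomial.X_pow_sub_one_eq_prod (Nat.pos_of_ne_zero hp) hζ')
  set u : LaurentSeries (Res A) := r / red A ⟨h₀, hh0mem⟩ with hu
  have hup : u ^ p = 1 := by
    rw [hu, div_pow, hr, ← map_pow]
    have : (⟨h₀, hh0mem⟩ : intS A) ^ p = ⟨G, hG⟩ := Subtype.ext hh0p
    rw [this, div_self]
    rw [← this, map_pow]
    exact pow_ne_zero _ hred0
  have hev := congrArg (Polynomial.eval u) hprod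
  simp only [Polynomial.map_sub, Polynomial.map_pow, Polynomial.map_X, Polynomial.map_one,
    Polynomial.eval_sub, Polynomial.eval_pow, Polynomial.eval_X, Polynomial.eval_one, hup, sub_self,
    Polynomial.map_prod, Polynomial.eval_prod, Polynomial.map_C, Polynomial.eval_C] at hev
  obtain ⟨η, hη, hηu⟩ := Finset.prod_eq_zero_iff.mp hev.symm
  rw [Polynomial.mem_nthRootsFinset (Nat.pos_of_ne_zero hp)] at hη
  refine ⟨algebraMap QBar LSer η.1 * h₀, mul_mem (algebraMap_mem_intS η.2) hh0mem, ?_, ?_⟩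
  · rw [mul_pow, ← map_pow, show η.1 ^ p = 1 from congrArg Subtype.val hη, map_one, one_mul, hh0p]
  · have e : (⟨algebraMap QBar LSer η.1 * h₀, mul_mem (algebraMap_mem_intS η.2) hh0mem⟩ : intS A) =
        ⟨_, algebraMap_mem_intS η.2⟩ * ⟨h₀, hh0mem⟩ := rfl
    rw [e, map_mul, red_algebraMap η.2, ← eq_div_iff hred0 |>.symm |>.symm]
    rw [sub_eq_zero] at hηu
    exact hηu.symm

/-! ### Frobenius -/

/-- In characteristic `p` the `p`-th power of `f` is `f^{Frob}(q ^ p)`. -/
theorem pow_char_eq_qExpand {K : Type*} [Field K] (p : ℕ) [Fact p.Prime] [CharP K p]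
    (f : LaurentSeries K) : f ^ p = qExpand K p (coeffMap (frobenius K p) f) := by
  obtain ⟨m, g, hfg⟩ : ∃ (m : ℤ) (g : PowerSeries K),
      f = HahnSeries.single m 1 * HahnSeries.ofPowerSeries ℤ K g :=
    ⟨f.order, f.powerSeriesPart, (LaurentSeries.single_order_mul_powerSeriesPart f).symm⟩
  have hp : p ≠ 0 := (Fact.out : p.Prime).ne_zero
  have hg : PowerSeries.map (frobenius K p) (PowerSeries.expand p hp g) = g ^ p :=
    MvPowerSeries.map_frobenius_expand (σ := Unit) p hp
  rw [hfg, mul_pow, ← map_pow (HahnSeries.ofPowerSeries ℤ K), map_mul, map_mul, coeffMap_single,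
      map_one (frobenius K p), qExpand_single,
    HahnSeries.single_pow, one_pow, nsmul_eq_mul, coeffMap_ofPowerSeries, ← hg,
    PowerSeries.map_expand]
  congr 1
  ext n
  by_cases h : (p : ℤ) ∣ n
  · obtain ⟨k, rfl⟩ := h
    rw [qExpand_coeff_mul]
    rcases lt_or_ge k 0 with hk | hk
    · rw [ofPowerSeries_coeff_of_neg _ hk, ofPowerSeries_coeff_of_neg _
        (mul_neg_of_pos_of_neg (by exact_mod_cast Nat.pos_of_ne_zero hp) hk)]
    · lift k to ℕ using hk
      rw [← Nat.cast_mul, HahnSeries.ofPowerSeries_apply_coeff,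
        HahnSeries.ofPowerSeries_apply_coeff, PowerSeries.coeff_expand_mul]
  · rw [qExpand_coeff_of_not_dvd p _ h]
    rcases lt_or_ge n 0 with hn | hn
    · rw [ofPowerSeries_coeff_of_neg _ hn]
    · lift n to ℕ using hn
      rw [HahnSeries.ofPowerSeries_apply_coeff,
        PowerSeries.coeff_expand_of_not_dvd _ _ _ (by exact_mod_cast h)]

/-- For series with coefficients fixed by Frobenius, the `p`-th power is `qExpand p`. -/
theorem pow_char_eq_qExpand_of_fixed {K : Type*} [Field K] (p : ℕ) [Fact p.Prime] [CharP K p]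
    {f : LaurentSeries K} (hf : ∀ n, f.coeff n ^ p = f.coeff n) : f ^ p = qExpand K p f := by
  rw [pow_char_eq_qExpand p f]
  congr 1
  ext n
  rw [coeffMap_coeff]
  exact hf n

end Fermat.Agent.Semistable

end
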