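import Mathlib
import Fermat.Agent.ModFun.Field
import Fermat.Agent.ModFun.Affine
import Fermat.Agent.Gamma0.Coset
import Fermat.Agent.Igusa.LaurentExt
import Fermat.Agent.Semistable.Atkin
import Fermat.Agent.Semistable.SeriesLemmas

/-!
# The relation between `j` and `j (q τ)`

For a prime `q` there is a monic relation of degree `q + 1` between `j` and `j (q τ)`, with
integral coefficients of controlled degree; it holds with `j` and `j (q τ)` in either order. Its
roots over `j (q τ)` are read off from the expansions at infinity.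

Main result: `exists_modRel`.
-/

set_option autoImplicit false

noncomputable section

namespace Fermat.Agent.Semistable

open ModularCurve Polynomial Fermat.Agent.ModFun
open Arith (QBar)

/-! ## Evaluation and the candidate roots -/

section Generic

variable {K L : Type*} [Field K] [Field L]

/-- Evaluate a polynomial in two variables. -/
def ev2 (x y : LaurentSeries K) (P : K[X][X]) : LaurentSeries K :=
  P.eval₂ (aeval x).toRingHom y

theorem coeffMap_aevalPoly (φ : K →+* L) (x : LaurentSeries K) (P : K[X]) :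
    coeffMap φ (aeval x P) = aeval (coeffMap φ x) (P.map φ) := by
  induction P using Polynomial.induction_on' with
  | add a b ha hb => simp only [map_add, Polynomial.map_add, ha, hb]
  | monomial n c =>
    rw [Polynomial.map_monomial, aeval_monomial, aeval_monomial, map_mul, map_pow,
      algebraMap_laurentSeries_eq_single, algebraMap_laurentSeries_eq_single, coeffMap_single]

theorem coeffMap_ev2 (φ : K →+* L) (x y : LaurentSeries K) (P : K[X][X]) :
    coeffMap φ (ev2 x y P) = ev2 (coeffMap φ x) (coeffMap φ y) (P.map (mapRingHom φ)) := by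
  rw [ev2, ev2, hom_eval₂, eval₂_map]
  congr 1
  exact RingHom.ext fun p => coeffMap_aevalPoly φ x p

/-- A ring map fixing constants commutes with evaluation of polynomials. -/
theorem map_aevalPoly (f : LaurentSeries K →+* LaurentSeries K)
    (hf : ∀ c : K, f (algebraMap K _ c) = algebraMap K _ c) (x : LaurentSeries K) (P : K[X]) :
    f (aeval x P) = aeval (f x) P := by
  induction P using Polynomial.induction_on' with
  | add a b ha hb => simp only [map_add, ha, hb]
  | monomial n c => rw [aeval_monomial, aeval_monomial, map_mul, map_pow, hf]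

/-- A ring map fixing constants commutes with evaluation of polynomials in two variables. -/
theorem map_ev2 (f : LaurentSeries K →+* LaurentSeries K)
    (hf : ∀ c : K, f (algebraMap K _ c) = algebraMap K _ c) (x y : LaurentSeries K)
    (P : K[X][X]) : f (ev2 x y P) = ev2 (f x) (f y) P := by
  rw [ev2, ev2, hom_eval₂]
  congr 1
  exact RingHom.ext fun p => map_aevalPoly f hf x p

/-- `q ↦ q ^ d` fixes constants. -/
theorem qExpand_const (d : ℕ) [NeZero d] (c : K) :
    qExpand K d (algebraMap K (LaurentSeries K) c) = algebraMap K _ c := by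
  rw [algebraMap_laurentSeries_eq_single, qExpand_single, mul_zero]

/-- Twisting fixes constants. -/
theorem twist_const (u : Kˣ) (c : K) :
    twist u (algebraMap K (LaurentSeries K) c) = algebraMap K _ c := by
  rw [algebraMap_laurentSeries_eq_single, twist_single]
  simp

/-- Coefficient maps commute with twisting. -/
theorem coeffMap_twist (φ : K →+* L) (u : Kˣ) (x : LaurentSeries K) :
    coeffMap φ (twist u x) = twist (Units.map φ.toMonoidHom u) (coeffMap φ x) := by
  ext n
  rw [coeffMap_coeff, coeff_twist, coeff_twist, coeffMap_coeff, map_mul]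
  congr 1
  rw [← map_zpow]
  rfl

/-- The candidate roots: `j (q² τ)` and the twists of `j`. -/
def modRoot (q : ℕ) [NeZero q] (u : Kˣ) : Fin (q + 1) → LaurentSeries K :=
  Fin.cases (qExpand K (q * q) (jqModC K)) fun i => twist (u ^ (i : ℕ)) (jqModC K)

/-- The roots of the modular relation read off at infinity are distinct. -/
theorem modRoot_injective (q : ℕ) [NeZero q] (hq : 2 ≤ q) (u : Kˣ) (hu : IsPrimitiveRoot u q) :
    Function.Injective (modRoot q u) := by
  have h0 : (modRoot q u 0).coeff (-1) = 0 := by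
    refine qExpand_coeff_of_not_dvd (q * q) _ ?_
    intro h
    have h1 : q * q ∣ 1 := Int.natCast_dvd_natCast.mp (Int.dvd_neg.mp (by exact_mod_cast h))
    have : 2 * 2 ≤ q * q := Nat.mul_le_mul hq hq
    have := Nat.le_of_dvd one_pos h1
    omega
  have h1 : ∀ i : Fin q,
      (modRoot q u i.succ).coeff (-1) = (((u ^ (i : ℕ))⁻¹ : Kˣ) : K) := fun i => by
    show (twist (u ^ (i : ℕ)) (jqModC K)).coeff (-1) = _
    rw [coeff_twist, zpow_neg_one, coeff_jqModC_neg_one, mul_one]
  intro a b hab
  induction a using Fin.cases with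
  | zero =>
    induction b using Fin.cases with
    | zero => rfl
    | succ b =>
      have := congrArg (fun z => z.coeff (-1)) hab
      rw [h0, h1] at this
      exact absurd this.symm (Units.ne_zero _)
  | succ a =>
    induction b using Fin.cases with
    | zero =>
      have := congrArg (fun z => z.coeff (-1)) hab
      rw [h0, h1] at this
      exact absurd this (Units.ne_zero _)
    | succ b =>
      have := congrArg (fun z => z.coeff (-1)) hab
      rw [h1, h1, Units.val_inj, inv_inj] at this
      rw [Fin.ext (hu.pow_inj a.2 b.2 this)]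

/-- Lower bounds on the supports of series add under multiplication. -/
theorem coeff_mul_eq_zero_of_lt {x y : LaurentSeries K} {a b : ℤ}
    (hx : ∀ n < a, x.coeff n = 0) (hy : ∀ n < b, y.coeff n = 0) :
    ∀ n < a + b, (x * y).coeff n = 0 := by
  intro n hn
  rw [HahnSeries.coeff_mul]
  refine Finset.sum_eq_zero fun ij hij => ?_
  obtain ⟨-, -, hk⟩ := Finset.mem_antidiagonal.mp hij
  rcases lt_or_ge ij.1 a with h | h
  · rw [hx _ h, zero_mul]
  · rw [hy ij.2 (by omega), mul_zero]

/-- Polar orders of the coefficients of a product of monic linear factors with simple poles. -/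
theorem coeff_prod_X_sub_C_low {ι : Type*} (s : Finset ι) (r : ι → LaurentSeries K)
    (hr : ∀ i ∈ s, ∀ n < (-1 : ℤ), (r i).coeff n = 0) :
    ∀ (k : ℕ) (n : ℤ), n < (k : ℤ) - s.card →
      ((∏ i ∈ s, (X - C (r i))).coeff k).coeff n = 0 := by
  classical
  induction s using Finset.induction with
  | empty =>
    intro k n hn
    rw [Finset.prod_empty, coeff_one]
    split_ifs with h
    · rw [HahnSeries.coeff_one, if_neg]
      rw [h, Finset.card_empty] at hn
      omega
    · simp
  | insert i s hi ih =>
    intro k n hn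
    rw [Finset.prod_insert hi, sub_mul, coeff_sub, coeff_C_mul, HahnSeries.coeff_sub,
      Finset.card_insert_of_notMem hi] at *
    have ih' := ih fun j hj => hr j (Finset.mem_insert_of_mem hj)
    have h2 : (r i * (∏ j ∈ s, (X - C (r j))).coeff k).coeff n = 0 :=
      coeff_mul_eq_zero_of_lt (hr i (Finset.mem_insert_self i s)) (ih' k) n (by omega)
    rw [h2, sub_zero]
    cases k with
    | zero => rw [coeff_X_mul_zero]; rfl
    | succ k => rw [coeff_X_mul]; exact ih' k n (by push_cast at hn; omega)

/-- Polynomials in `j (q τ)` with coefficients in a subring are detected on expansions. -/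
theorem exists_preimage_aeval {R : Subring K} (φ : K →+* L) (q : ℕ) [NeZero q] (Q : L[X]) :
    ∀ f : LaurentSeries K, (∀ n, f.coeff n ∈ R) →
      aeval (qExpand L q (jqModC L)) Q = coeffMap φ f →
      ∃ P : K[X], (∀ i, P.coeff i ∈ R) ∧ P.map φ = Q := by
  induction hn : Q.natDegree using Nat.strong_induction_on generalizing Q with
  | _ n ih =>
    intro f hf he
    rcases eq_or_ne Q 0 with rfl | hQ
    · exact ⟨0, fun i => by simp [zero_mem], by simp⟩
    -- the leading coefficient is a coefficient of `f`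
    have hlead : φ (f.coeff (-((q : ℤ) * n))) = Q.leadingCoeff := by
      rw [← coeffMap_coeff, ← he, ← map_aevalPoly _ (qExpand_const q), ← mul_neg, qExpand_coeff_mul,
        ← hn, Igusa.coeff_aeval_jqModC_neg_natDegree]
    set c := f.coeff (-((q : ℤ) * n))
    -- subtract the leading term and induct on the degree
    set f' := f - algebraMap K _ c * qExpand K q (jqModC K) ^ n with hf'
    have hjR : ∀ m, (qExpand K q (jqModC K) ^ n).coeff m ∈ R := by
      intro m
      have e : qExpand K q (jqModC K) ^ n =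
          coeffMap (Int.castRingHom K) (qExpand ℤ q (jqModC ℤ) ^ n) := by
        rw [map_pow, coeffMap_qExpand, coeffMap_jqModC]
      rw [e, coeffMap_coeff]
      exact intCast_mem R _
    have hf'R : ∀ m, f'.coeff m ∈ R := fun m => by
      rw [hf', HahnSeries.coeff_sub, algebraMap_laurentSeries_eq_single,
        HahnSeries.coeff_single_zero_mul]
      exact sub_mem (hf m) (mul_mem (hf _) (hjR m))
    have he' : aeval (qExpand L q (jqModC L)) Q.eraseLead = coeffMap φ f' := by
      rw [hf', map_sub, ← he, map_mul, map_pow, coeffMap_qExpand, coeffMap_jqModC]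
      conv_rhs => rw [← Q.eraseLead_add_C_mul_X_pow, hn, map_add, map_mul, aeval_C,
        map_pow, aeval_X]
      rw [algebraMap_laurentSeries_eq_single K, coeffMap_single, hlead,
        ← algebraMap_laurentSeries_eq_single, add_sub_cancel_right]
    rcases Q.eraseLead_natDegree_lt_or_eraseLead_eq_zero with h | h
    · obtain ⟨P, hP, hPQ⟩ := ih _ (hn ▸ h) Q.eraseLead rfl f' hf'R he'
      refine ⟨P + C c * X ^ n, fun i => ?_, ?_⟩
      · rw [coeff_add, coeff_C_mul, coeff_X_pow]
        split_ifs
        · simpa using add_mem (hP i) (hf _)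
        · simpa using hP i
      · rw [Polynomial.map_add, hPQ, Polynomial.map_mul, map_C, Polynomial.map_pow, map_X, hlead]
        conv_rhs => rw [← Q.eraseLead_add_C_mul_X_pow, hn]
    · refine ⟨C c * X ^ n, fun i => ?_, ?_⟩
      · rw [coeff_C_mul, coeff_X_pow]
        split_ifs
        · simpa using hf _
        · simp [zero_mem]
      · rw [Polynomial.map_mul, map_C, Polynomial.map_pow, map_X, hlead]
        conv_rhs => rw [← Q.eraseLead_add_C_mul_X_pow, hn, h, zero_add]

end Generic

/-! ## The relation over `ℂ` and its integrality -/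

/-- `ψ(q) = q + 1` for a prime `q`. -/
theorem dedekindPsi_prime {q : ℕ} (hq : q.Prime) : dedekindPsi q = q + 1 := by
  have := Gamma0.dedekindPsi_mul_of_not_dvd (N := 1) hq hq.not_dvd_one
  simpa using this

variable (q : ℕ) [hq : Fact q.Prime]

/-- Both relations over `ℂ`. -/
theorem exists_complex_rel : ∃ Q : ℂ[X][X], Q.Monic ∧ Q.natDegree = q + 1 ∧
    ev2 (jqModC ℂ) (qExpand ℂ q (jqModC ℂ)) Q = 0 ∧
    ev2 (qExpand ℂ q (jqModC ℂ)) (jqModC ℂ) Q = 0 := by
  obtain ⟨Q, hQ, hdeg, -, hrel⟩ := exists_charPoly (jd (dvd_refl q))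
  have h1 : ev2 (jqModC ℂ) (qExpand ℂ q (jqModC ℂ)) Q = 0 := by
    have h := congrArg (qExp q).toRingHom hrel
    rw [map_zero, hom_eval₂] at h
    refine Eq.trans ?_ h
    rw [ev2, show ((qExp q).toRingHom : Hol q →+* _) (jd (dvd_refl q)) =
      qExpand ℂ q (jqModC ℂ) from qExp_jd _]
    congr 1
    exact RingHom.ext fun p => (qExp_evJ p).symm
  refine ⟨Q, hQ, hdeg.trans ((natCard_coset q).trans (dedekindPsi_prime hq.out)), h1, ?_⟩
  let d1 : Dvs (q * 1) := ⟨1, one_dvd _⟩
  let dq : Dvs (q * 1) := ⟨q, dvd_mul_right q 1⟩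
  let P : MvPolynomial (Dvs (q * 1)) ℂ :=
    Q.eval₂ (aeval (MvPolynomial.X d1)).toRingHom (MvPolynomial.X dq)
  have key : ∀ g : Dvs (q * 1) → LaurentSeries ℂ,
      MvPolynomial.aeval g P = ev2 (g d1) (g dq) Q := fun g => by
    show (MvPolynomial.aeval g).toRingHom P = _
    rw [hom_eval₂, ev2, AlgHom.toRingHom_eq_coe, RingHom.coe_coe, MvPolynomial.aeval_X]
    congr 1
    refine RingHom.ext fun p => ?_
    show MvPolynomial.aeval g (aeval (MvPolynomial.X d1) p) = aeval (g d1) p
    rw [← aeval_algHom_apply, MvPolynomial.aeval_X]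
  have h2 := aeval_swap_complex q 1 hq.out.not_dvd_one P (by
    rw [key]
    convert h1 using 2
    · exact qExpand_one_apply _
    · rfl)
  rw [key] at h2
  convert h2 using 2
  · rw [gen]
    apply qExpand_congr
    show q = swapFun q 1
    rw [swapFun, if_neg hq.out.not_dvd_one, mul_one]
  · rw [gen]
    refine (qExpand_one_apply _).symm.trans ?_
    apply qExpand_congr
    show 1 = swapFun q q
    rw [swapFun, if_pos dvd_rfl, Nat.div_self hq.out.pos]

variable (A : ValuationSubring QBar)

/-- A monic relation of degree `q + 1` between `j (τ)` and `j (q τ)` is the product over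
the roots. -/
private theorem map_eq_prod_modRoot {Q : ℂ[X][X]} (hQm : Q.Monic) (hQd : Q.natDegree = q + 1)
    (hR1 : ev2 (jqModC ℂ) (qExpand ℂ q (jqModC ℂ)) Q = 0)
    (hR2 : ev2 (qExpand ℂ q (jqModC ℂ)) (jqModC ℂ) Q = 0) {u' : ℂˣ} (hu' : IsPrimitiveRoot u' q) :
    Q.map (aeval (qExpand ℂ q (jqModC ℂ))).toRingHom = ∏ a, (X - C (modRoot q u' a)) := by
  set jq' : LaurentSeries ℂ := qExpand ℂ q (jqModC ℂ) with hjq'
  have hroot : ∀ a, (Q.map (aeval jq').toRingHom).eval (modRoot q u' a) = 0 := by
    intro a
    rw [eval_map]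
    show ev2 jq' (modRoot q u' a) Q = 0
    induction a using Fin.cases with
    | zero =>
      have h := congrArg (qExpand ℂ q) hR1
      rw [map_zero, map_ev2 _ (qExpand_const q), qExpand_qExpand] at h
      exact h
    | succ i =>
      have h := congrArg (twist (u' ^ (i : ℕ))) hR2
      rw [map_zero, map_ev2 _ (twist_const _), ModFun.twist_qExpand_of_pow_eq_one] at h
      · exact h
      · rw [← pow_mul, mul_comm, pow_mul, hu'.pow_eq_one, one_pow]
  let Pr : (LaurentSeries ℂ)[X] := ∏ a, (X - C (modRoot q u' a))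
  refine sub_eq_zero.mp (eq_zero_of_natDegree_lt_card_of_eval_eq_zero _
    (modRoot_injective q hq.out.two_le u' hu') (fun a => ?_) ?_)
  · rw [eval_sub, hroot, eval_prod, Finset.prod_eq_zero (Finset.mem_univ a) (by simp), sub_zero]
  · have hm : (Q.map (aeval jq').toRingHom).Monic := hQm.map _
    have hm' : Pr.Monic := monic_prod_of_monic _ _ fun _ _ => monic_X_sub_C _
    have hd : (Q.map (aeval jq').toRingHom).degree = (q + 1 : ℕ) := by
      rw [hQm.degree_map, degree_eq_natDegree hQm.ne_zero, hQd]
    have hd' : Pr.degree = (q + 1 : ℕ) := by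
      rw [degree_eq_natDegree hm'.ne_zero, natDegree_finsetProd_X_sub_C_eq_card, Finset.card_univ,
        Fintype.card_fin]
    rw [Fintype.card_fin]
    rcases eq_or_ne (Q.map (aeval jq').toRingHom - Pr) 0 with h | h
    · rw [h, natDegree_zero]; omega
    · rw [natDegree_lt_iff_degree_lt h, ← hd]
      exact degree_sub_lt_left (hd.trans hd'.symm) hm.ne_zero (hm.trans hm'.symm)

/-- The coefficients of the product over the roots are integral. -/
private theorem coeff_prod_modRoot_mem {u : QBarˣ} (hu : IsPrimitiveRoot u q) (k : ℕ) (n : ℤ) :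
    ((∏ a, (X - C (modRoot q u a)) : LSer[X]).coeff k).coeff n ∈ A := by
  let Pr0 : LSer[X] := ∏ a, (X - C (modRoot q u a))
  have huA : ∀ (i : ℕ) (n : ℤ), (((u ^ i) ^ n : QBarˣ) : QBar) ∈ A := by
    have hpos : ∀ v : QBarˣ, v ^ q = 1 → (v : QBar) ∈ A := fun v hv => by
      refine Arith.mem_of_isIntegral A
        ⟨X ^ q - 1, monic_X_pow_sub (degree_one_le.trans_lt (by exact_mod_cast hq.out.pos)), ?_⟩
      simp only [eval₂_sub, eval₂_X_pow, eval₂_one]
      rw [← Units.val_pow_eq_pow_val, hv, Units.val_one, sub_self]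
    intro i n
    apply hpos
    rw [← zpow_natCast ((u ^ i) ^ n), ← zpow_mul, mul_comm, zpow_mul, zpow_natCast, ← pow_mul,
      mul_comm, pow_mul, hu.pow_eq_one, one_pow, one_zpow]
  have hintA : ∀ a n, (modRoot q u a).coeff n ∈ A := by
    intro a n
    induction a using Fin.cases with
    | zero => exact (mem_intS.mp (qExpand_mem_intS (q * q) jqModC_mem_intS)).2 n
    | succ i =>
      show (twist (u ^ (i : ℕ)) (jqModC QBar)).coeff n ∈ A
      rw [coeff_twist]
      exact mul_mem (huA _ _) ((mem_intS.mp jqModC_mem_intS).2 n)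
  let RA : Subring LSer :=
    { carrier := {x | ∀ n, x.coeff n ∈ A}
      one_mem' := coeff_one_mem A
      mul_mem' := coeff_mul_mem A
      zero_mem' := fun n => by simp
      add_mem' := fun hx hy n => by rw [HahnSeries.coeff_add]; exact add_mem (hx n) (hy n)
      neg_mem' := fun hx n => by rw [HahnSeries.coeff_neg]; exact neg_mem (hx n) }
  revert n
  have hmem : Pr0 ∈ Polynomial.lifts RA.subtype := by
    refine prod_mem fun a _ => ⟨X - C ⟨_, hintA a⟩, ?_⟩
    rw [coe_mapRingHom, Polynomial.map_sub, map_X, map_C]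
    rfl
  obtain ⟨P, hP⟩ := hmem
  intro n
  show (Pr0.coeff k).coeff n ∈ A
  rw [← hP, coe_mapRingHom, coeff_map]
  exact (P.coeff k).2 n

/-- The coefficient of `Y ^ k` has degree at most `q (q + 1 - k)`: otherwise the product over the
roots would have a pole which is too deep. -/
private theorem natDegree_coeff_le {Q : ℂ[X][X]} {u' : ℂˣ}
    (hPrQ : Q.map (aeval (qExpand ℂ q (jqModC ℂ))).toRingHom = ∏ a, (X - C (modRoot q u' a)))
    {k : ℕ} (hk : k < q + 1) (h0 : Q.coeff k ≠ 0) : (Q.coeff k).natDegree ≤ q * (q + 1 - k) := by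
  set jq' : LaurentSeries ℂ := qExpand ℂ q (jqModC ℂ) with hjq'
  let Pr : (LaurentSeries ℂ)[X] := ∏ a, (X - C (modRoot q u' a))
  -- the coefficient has a pole of order `q` times its degree
  have hne : (Pr.coeff k).coeff ((q : ℤ) * -((Q.coeff k).natDegree : ℤ)) ≠ 0 := by
    rw [show Pr = _ from hPrQ.symm, coeff_map]
    show (aeval jq' (Q.coeff k)).coeff _ ≠ 0
    rw [hjq', ← map_aevalPoly _ (qExpand_const q), qExpand_coeff_mul,
      Igusa.coeff_aeval_jqModC_neg_natDegree]
    exact leadingCoeff_ne_zero.mpr h0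
  by_contra hlt
  rw [not_le] at hlt
  refine hne ?_
  -- one root has a pole of order `q ^ 2`, the others simple poles
  have hsplit : Pr = (X - C (modRoot q u' 0)) * ∏ i : Fin q, (X - C (modRoot q u' i.succ)) :=
    Fin.prod_univ_succ _
  have hlow := coeff_prod_X_sub_C_low Finset.univ (fun i : Fin q => modRoot q u' i.succ)
    (fun i _ n hn => by
      show (twist (u' ^ (i : ℕ)) (jqModC ℂ)).coeff n = 0
      rw [coeff_twist, coeff_jqModC_of_lt ℂ hn, mul_zero])
  simp only [Finset.card_univ, Fintype.card_fin] at hlow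
  have hr0 : ∀ n < -((q : ℤ) * q), (modRoot q u' 0).coeff n = 0 := by
    intro n hn
    show (qExpand ℂ (q * q) (jqModC ℂ)).coeff n = 0
    by_cases h : ((q * q : ℕ) : ℤ) ∣ n
    · obtain ⟨m, rfl⟩ := h
      rw [qExpand_coeff_mul]
      refine coeff_jqModC_of_lt ℂ ?_
      push_cast at hn
      have hqq : (0 : ℤ) < (q : ℤ) * q := by have := hq.out.pos; positivity
      nlinarith
    · exact qExpand_coeff_of_not_dvd _ _ h
  have hk' : (k : ℤ) ≤ q := by omega
  have hlt' : (q : ℤ) * ((q : ℤ) + 1 - k) + 1 ≤ (Q.coeff k).natDegree := by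
    have h1 : ((q * (q + 1 - k) : ℕ) : ℤ) + 1 ≤ ((Q.coeff k).natDegree : ℤ) := by
      exact_mod_cast hlt
    rwa [Nat.cast_mul, Nat.cast_sub (by omega), Nat.cast_add, Nat.cast_one] at h1
  have hq1 : (1 : ℤ) ≤ q := by exact_mod_cast hq.out.one_le
  have hq2 : (2 : ℤ) ≤ q := by exact_mod_cast hq.out.two_le
  set N : ℤ := (q : ℤ) * -((Q.coeff k).natDegree : ℤ) with hN
  -- too deep for a coefficient of the product
  have hNlow : N < -((q : ℤ) * q) + ((k : ℤ) - q) := by
    rw [hN]
    have e1 := mul_le_mul_of_nonneg_left hlt' (by omega : (0 : ℤ) ≤ q)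
    have e2 : (0 : ℤ) ≤ ((q : ℤ) - k) * ((q : ℤ) * q - 1) :=
      mul_nonneg (by omega) (by nlinarith)
    nlinarith
  rw [hsplit, sub_mul, coeff_sub, coeff_C_mul, HahnSeries.coeff_sub,
    coeff_mul_eq_zero_of_lt hr0 (hlow k) N hNlow, sub_zero]
  cases k with
  | zero => rw [coeff_X_mul_zero]; rfl
  | succ m =>
    rw [coeff_X_mul]
    refine hlow m N ?_
    push_cast at hNlow
    nlinarith

/-! ## The modular relation -/

/-- **The modular relation.** -/
theorem exists_modRel : ∃ Φ : QBar[X][X], Φ.Monic ∧ Φ.natDegree = q + 1 ∧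
    (∀ k i, (Φ.coeff k).coeff i ∈ A) ∧
    (∀ k < q + 1, (Φ.coeff k).natDegree ≤ q * (q + 1 - k)) ∧
    ev2 (jqModC QBar) (qExpand QBar q (jqModC QBar)) Φ = 0 ∧
    ev2 (qExpand QBar q (jqModC QBar)) (jqModC QBar) Φ = 0 := by
  obtain ⟨Q, hQm, hQd, hR1, hR2⟩ := exists_complex_rel q
  obtain ⟨ζ, hζ⟩ := HasEnoughRootsOfUnity.exists_primitiveRoot QBar q
  let u : QBarˣ := (hζ.isUnit hq.out.ne_zero).unit
  have hu : IsPrimitiveRoot u q :=
    IsPrimitiveRoot.coe_units_iff.mp (show IsPrimitiveRoot (u : QBar) q from hζ)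
  let φ : QBar →+* ℂ := toCx
  let u' : ℂˣ := Units.map φ.toMonoidHom u
  have hu' : IsPrimitiveRoot u' q :=
    hu.map_of_injective (Units.map_injective φ.injective)
  set jq' : LaurentSeries ℂ := qExpand ℂ q (jqModC ℂ) with hjq'
  let Pr : (LaurentSeries ℂ)[X] := ∏ a, (X - C (modRoot q u' a))
  -- the complex relation splits over the roots
  have hPrQ : Q.map (aeval jq').toRingHom = Pr := map_eq_prod_modRoot q hQm hQd hR1 hR2 hu'
  let Pr0 : LSer[X] := ∏ a, (X - C (modRoot q u a))
  -- this product is defined over `QBar`, with coefficients in `A`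
  have hPr0 : Pr0.map (coeffMap φ) = Pr := by
    rw [Polynomial.map_prod]
    refine Finset.prod_congr rfl fun a _ => ?_
    rw [Polynomial.map_sub, map_X, map_C]
    congr 2
    induction a using Fin.cases with
    | zero =>
      show coeffMap φ (qExpand QBar (q * q) (jqModC QBar)) = _
      rw [coeffMap_qExpand, coeffMap_jqModC]
      rfl
    | succ i =>
      show coeffMap φ (twist (u ^ (i : ℕ)) (jqModC QBar)) = _
      rw [coeffMap_twist, coeffMap_jqModC, map_pow]
      rfl
  have hPr0A : ∀ k n, (Pr0.coeff k).coeff n ∈ A := coeff_prod_modRoot_mem q A hu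
  -- so the coefficients of the relation come from `A`
  have hcoef : ∀ k, ∃ P : QBar[X], (∀ i, P.coeff i ∈ A.toSubring) ∧ P.map φ = Q.coeff k := fun k =>
    exists_preimage_aeval φ q (Q.coeff k) (Pr0.coeff k) (hPr0A k)
      (by rw [← coeff_map, hPr0, ← hPrQ, coeff_map]; rfl)
  choose P hPA hPQ using hcoef
  let Φ : QBar[X][X] := ∑ k ∈ Finset.range (q + 2), C (P k) * X ^ k
  have hΦc : ∀ k, Φ.coeff k = if k < q + 2 then P k else 0 := fun k => by
    simp [Φ, coeff_X_pow]
  have hmap : Φ.map (mapRingHom φ) = Q := by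
    refine Polynomial.ext fun k => ?_
    rw [coeff_map, hΦc]
    split_ifs with h
    · exact hPQ k
    · rw [map_zero, coeff_eq_zero_of_natDegree_lt (by omega)]
  have hinj : Function.Injective (mapRingHom φ) := map_injective φ φ.injective
  have hPtop : P (q + 1) = 1 := hinj (by
    rw [coe_mapRingHom, hPQ, Polynomial.map_one, ← hQd, hQm.coeff_natDegree])
  have hdegΦ : Φ.natDegree = q + 1 := by
    rw [← hQd, ← hmap, natDegree_map_eq_of_injective hinj]
  refine ⟨Φ, ?_, hdegΦ, fun k i => ?_, fun k hk => ?_, ?_, ?_⟩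
  · rw [Monic, leadingCoeff, hdegΦ, hΦc, if_pos (by omega), hPtop]
  · rw [hΦc]
    split_ifs
    · exact hPA k i
    · simp [zero_mem]
  · rw [hΦc, if_pos (by omega)]
    have hQk : (Q.coeff k).natDegree = (P k).natDegree := by
      rw [← hPQ k, natDegree_map_eq_of_injective φ.injective]
    rcases eq_or_ne (Q.coeff k) 0 with h0 | h0
    · rw [← hQk, h0, natDegree_zero]; exact Nat.zero_le _
    exact hQk ▸ natDegree_coeff_le q hPrQ hk h0
  -- the two identities may be checked over `ℂ`
  · refine coeffMap_injective φ ?_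
    rw [coeffMap_ev2, hmap, map_zero, coeffMap_qExpand, coeffMap_jqModC, hR1]
  · refine coeffMap_injective φ ?_
    rw [coeffMap_ev2, hmap, map_zero, coeffMap_qExpand, coeffMap_jqModC, hR2]

end Fermat.Agent.Semistable

end
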