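import Fermat.Agent.Semistable.LocalTheory
import Fermat.Agent.FiniteFlat.Instance

/-!
# Inertia on the prime-to-`q` torsion of `J₀(q M)`, `q ∤ M`

By Igusa the genus of level `M` does not drop modulo `q` (`GoodM`), so the local theory of Kummer
classes applies to every level prime to `q`, and hence to all torsion classes of order prime to
`q`.
-/

set_option autoImplicit false

noncomputable section

namespace Fermat.Agent.Semistable

open ModularCurve AlgebraicCurve
open Arith (QBar)

variable {A : ValuationSubring QBar} {q M : ℕ} [hq : Fact q.Prime] [NeZero M]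

/-- The residue field of a place over `q` has characteristic `q`. -/
theorem charP_res (hA : A.LiesOverPrime q) : CharP (Res A) q := by
  have h : (q : Res A) = 0 := by
    rw [← map_natCast (IsLocalRing.residue A) q]
    exact (residue_eq_zero_iff (natCast_mem A q)).mpr
      ((Arith.natCast_mem_nonunits_iff hA hq.out q).mpr dvd_rfl)
  exact (CharP.charP_iff_prime_eq_zero hq.out).mpr h

omit [NeZero M] in
/-- `M` is nonzero in the residue field. -/
theorem natCast_res_ne_zero (hA : A.LiesOverPrime q) (hqM : ¬ q ∣ M) : (M : Res A) ≠ 0 :=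
  fun h => hqM ((@CharP.cast_eq_zero_iff (Res A) _ q (charP_res hA) M).mp h)

/-- The standing hypotheses hold at every level prime to `q`. -/
theorem setup_of_not_dvd (hA : A.LiesOverPrime q) (hqM : ¬ q ∣ M) : Setup A M q where
  hA := hA
  hqM := hqM
  hM := natCast_res_ne_zero hA hqM
  good := (FiniteFlat.genusFF_residue_eq (natCast_res_ne_zero hA hqM)).ge

omit hq [NeZero M] in
/-- Galois acts on divisor classes through divisors. -/
theorem smul_mk (σ : Arith.GQ) (D : Divisor.degZero (K := QBar) (F := FB (q * M))) :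
    σ • (Pic0.mk D : JZero (q * M)) = Pic0.mk
      (SemilinearAut.degZeroSMulHom
        (arithmeticGalois (L := QBar) (modularFunctionFieldFull (q * M)) σ) D) :=
  rfl

omit hq [NeZero M] in
/-- A divisor class vanishes exactly for principal divisors. -/
theorem mk_eq_zero_iff (D : Divisor.degZero (K := QBar) (F := FB (q * M))) :
    (Pic0.mk D : JZero (q * M)) = 0 ↔
      (D : Divisor QBar (FB (q * M))) ∈ Divisor.principal (K := QBar) (F := FB (q * M)) :=
  (QuotientAddGroup.eq_zero_iff D).trans AddSubgroup.mem_addSubgroupOf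

omit hq [NeZero M] in
/-- A function for the multiple of a torsion class. -/
theorem exists_kummer_function {m : ℕ} {D : Divisor.degZero (K := QBar) (F := FB (q * M))}
    (hx : m • (Pic0.mk D : JZero (q * M)) = 0) :
    ∃ f : FB (q * M), f ≠ 0 ∧ ∀ v : Place QBar (FB (q * M)),
      v.ord f = (m : ℤ) * (D : Divisor QBar (FB (q * M))) v := by
  have h := (mk_eq_zero_iff (m • D)).mp
    ((map_nsmul (QuotientAddGroup.mk' _) m D).trans hx)
  obtain ⟨f, hf, hord⟩ := h
  refine ⟨f, hf, fun v => ?_⟩
  rw [← hord v, AddSubgroupClass.coe_nsmul, Finsupp.smul_apply, nsmul_eq_mul]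

/-- **Inertia `σ` at `q` has `(σ - 1)² = 0` on prime-to-`q` torsion.** -/
theorem inertia_sq_torsion (hA : A.LiesOverPrime q) (hqM : ¬ q ∣ M) {σ : Arith.GQ}
    (hσ : σ ∈ A.inertiaSubgroupIn ℚ) {m : ℕ} (hmq : ¬ q ∣ m) {x : JZero (q * M)}
    (hx : m • x = 0) : σ • (σ • x - x) - (σ • x - x) = 0 := by
  have := charP_res (q := q) hA
  have hM := natCast_res_ne_zero hA hqM
  have := isFunctionField_KM A hM
  have hm : m ≠ 0 := fun h => hmq (h ▸ dvd_zero q)
  obtain ⟨D, rfl⟩ := Pic0.mk_surjective x
  obtain ⟨f, hf, hord⟩ := exists_kummer_function hx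
  have h := (setup_of_not_dvd hA hqM).inertia_sq_principal hσ hm hmq hf hord
  exact (mk_eq_zero_iff
    (SemilinearAut.degZeroSMulHom _ (SemilinearAut.degZeroSMulHom _ D - D) -
      (SemilinearAut.degZeroSMulHom _ D - D))).mpr h

end Fermat.Agent.Semistable

end
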