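import Mathlib
import Fermat.Agent.RedTorsion.JLine
import Fermat.Agent.RedTorsion.ReducedBasis
import Fermat.Agent.Semistable.Basis

/-!
# Riemann-Roch spaces of multiples of the cusps and their reductions
-/

set_option autoImplicit false

noncomputable section

namespace Fermat.Agent.Semistable

open ModularCurve AlgebraicCurve Polynomial
open Arith (QBar)

attribute [local instance 10000] SubalgebraClass.toAlgebra HahnSeries.powerSeriesAlgebra Algebra.id
attribute [local instance 10001] Subalgebra.algebra
attribute [-instance] IsScalarTower.of_algHom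
attribute [-instance] LieRinehartAlgebra.toIsScalarTower
attribute [-instance] RingHom.Finite.instFinite

section Generic

variable {K F : Type*} [Field K] [Field F] [Algebra K F]

/-- A root of a monic polynomial over `K[u]` is regular wherever `u` is. -/
theorem mem_ordGe_zero_of_rel (v : Place K F) {u z : F} (hu : u ∈ FF.ordGe v 0) {R : K[X][X]}
    (hR : R.Monic) (hrel : eval₂ (aeval u).toRingHom z R = 0) : z ∈ FF.ordGe v 0 := by
  refine RedTorsion.mem_ordGe_zero_of_monic_rel v (d := R.natDegree)
    (a := fun i => aeval u (R.coeff i)) (fun i => ?_) ?_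
  · rw [FF.mem_ordGe_zero] at hu ⊢
    exact FF.aeval_mem_valuationSubring v hu _
  · rw [eval₂_eq_sum_range, Finset.sum_range_succ, hR.coeff_natDegree, map_one, one_mul] at hrel
    rw [add_comm]
    exact hrel

variable [FF.IsFunctionField K F]

/-- Bounded poles over the poles of `x` from two integrality relations. -/
theorem mem_polesSpace_of_rels {x z : F} {m n : ℕ} {R S : K[X][X]}
    (hR : R.Monic) (hrel : eval₂ (aeval (x ^ m)).toRingHom z R = 0)
    (hS : S.Monic)
    (hrel' : eval₂ (aeval (x ^ m)⁻¹).toRingHom (z * ((x ^ m)⁻¹) ^ n) S = 0) :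
    z ∈ riemannRochSpace ((m * n) • FF.poles K x) := by
  rw [RedTorsion.mem_polesSpace]
  intro v
  by_cases hv : v.ord x < 0
  · have hx0 : x ≠ 0 := fun h => by simp [h] at hv
    have h := mem_ordGe_zero_of_rel v (u := (x ^ m)⁻¹) (FF.mem_ordGe_of_le v (by
      rw [v.ord_inv, FF.ord_pow]; nlinarith [Int.natCast_nonneg m])) hS hrel'
    have h2 := FF.mul_mem_ordGe v h (FF.pow_mem_ordGe v
      (FF.mem_ordGe_of_le v (le_refl (v.ord (x ^ m)))) n)
    rw [mul_assoc, ← mul_pow, inv_mul_cancel₀ (pow_ne_zero _ hx0), one_pow, mul_one, zero_add,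
      FF.ord_pow] at h2
    rw [FF.poles_apply, max_eq_right (by omega)]
    refine FF.ordGe_anti v (le_of_eq ?_) h2
    push_cast
    ring
  · rw [FF.poles_apply, max_eq_left (by omega), mul_zero, neg_zero]
    exact mem_ordGe_zero_of_rel v
      (FF.mem_ordGe_of_le v (by rw [FF.ord_pow]; exact mul_nonneg (Int.natCast_nonneg m) (by
        omega)))
      hR hrel

/-- Functions with bounded poles over the poles of `x` are integral over `K[x]`. -/
theorem isIntegral_of_mem_poles {x z : F} {n : ℕ}
    (hz : z ∈ riemannRochSpace (n • FF.poles K x)) :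
    IsIntegral (Algebra.adjoin K {x}) z := by
  refine FF.isIntegral_of_forall_mem _ fun v hv => (FF.mem_ordGe_zero v).mp ?_
  have hx := FF.ord_nonneg v (hv x (Algebra.self_mem_adjoin_singleton K x))
  have h := RedTorsion.mem_polesSpace.mp hz v
  rwa [FF.poles_apply, max_eq_left (by omega), mul_zero, neg_zero] at h

/-- After dividing by `x ^ n` they are integral over `K[1/x]`. -/
theorem isIntegral_inv_of_mem_poles {x z : F} {n : ℕ}
    (hz : z ∈ riemannRochSpace (n • FF.poles K x)) :
    IsIntegral (Algebra.adjoin K {x⁻¹}) (z * x⁻¹ ^ n) := by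
  refine FF.isIntegral_of_forall_mem _ fun v hv => (FF.mem_ordGe_zero v).mp ?_
  have hx := FF.ord_nonneg v (hv x⁻¹ (Algebra.self_mem_adjoin_singleton K x⁻¹))
  rw [v.ord_inv] at hx
  have h := FF.mul_mem_ordGe v (RedTorsion.mem_polesSpace.mp hz v)
    (FF.pow_mem_ordGe v (FF.mem_ordGe_of_le v (f := x⁻¹) (le_refl (v.ord x⁻¹))) n)
  refine FF.ordGe_anti v ?_ h
  rw [FF.poles_apply, max_eq_right (by omega), v.ord_inv]
  simp

end Generic

/-! ### The residual spaces -/

variable (A : ValuationSubring QBar) (M : ℕ) [NeZero M]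

/-- Shortcut: the search through `LaurentSeries` is slow. -/
instance instAlgebraKM : Algebra (Res A) (KM A M) := inferInstance

attribute [local instance 10002] instAlgebraKM

/-- Shortcut: the search through `LaurentSeries` is slow. -/
instance instModuleKM : Module (Res A) (KM A M) := inferInstance

attribute [local instance 10002] instModuleKM

/-- `j` in the function field over the residue field. -/
def jK : KM A M := ⟨jqModC (Res A), jqModC_mem_full (Res A) M⟩

omit [NeZero M] in
/-- The expansion of `jK` is that of `j` over the residue field. -/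
theorem coe_jK : (jK A M : LaurentSeries (Res A)) = jqModC (Res A) := rfl

omit [NeZero M] in
/-- `j` is transcendental in the function field over the residue field. -/
theorem jK_transcendental : Transcendental (Res A) (jK A M) := fun h =>
  RedTorsion.transcendental_jqModC (Res A) (h.algHom (KM A M).val)

variable {M} in
/-- The field of level `M` over the residue field is a function field. -/
theorem isFunctionField_KM (hM : (M : Res A) ≠ 0) : FF.IsFunctionField (Res A) (KM A M) :=
  RedTorsion.isFunctionField_full rfl hM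

omit [NeZero M] in
/-- The inclusion of `K_M` into series, as a linear map. -/
def valLin : KM A M →ₗ[Res A] LaurentSeries (Res A) where
  toFun x := x
  map_add' _ _ := rfl
  map_smul' c x := by
    show ((c • x : KM A M) : LaurentSeries (Res A)) = c • (x : LaurentSeries (Res A))
    rw [Algebra.smul_def, IntermediateField.coe_mul, Igusa.hsmul_eq]
    rfl

omit [NeZero M] in
/-- `valLin` is the inclusion into series. -/
@[simp]
theorem valLin_apply (x : KM A M) : valLin A M x = (x : LaurentSeries (Res A)) := rfl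

omit [NeZero M] in
/-- A function is determined by its series. -/
theorem valLin_injective : Function.Injective (valLin A M) := Subtype.val_injective

variable [FF.IsFunctionField (Res A) (KM A M)]

/-- `L(n ∞)` over the residue field. -/
abbrev Hk (n : ℕ) : Submodule (Res A) (KM A M) :=
  riemannRochSpace (n • FF.poles (Res A) (jK A M))

/-- `L(n ∞)` over the residue field, as a space of series. -/
def HkS (n : ℕ) : Submodule (Res A) (LaurentSeries (Res A)) := (Hk A M n).map (valLin A M)

omit [NeZero M] in
/-- A series lies in `HkS` exactly if it comes from an element of `L(n ∞)`. -/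
theorem mem_HkS {n : ℕ} {x : LaurentSeries (Res A)} :
    x ∈ HkS A M n ↔ ∃ h : x ∈ KM A M, (⟨x, h⟩ : KM A M) ∈ Hk A M n := by
  rw [HkS, Submodule.mem_map]
  exact ⟨fun ⟨y, hy, e⟩ => by subst e; exact ⟨y.2, hy⟩, fun ⟨h, hx⟩ => ⟨⟨x, h⟩, hx, rfl⟩⟩

omit [NeZero M] in
/-- `HkS` grows with `n`. -/
theorem HkS_mono {a b : ℕ} (h : a ≤ b) : HkS A M a ≤ HkS A M b :=
  Submodule.map_mono (RedTorsion.polesSpace_mono h)

omit [NeZero M] in
/-- `HkS` has the dimension of `L(n ∞)`. -/
theorem finrank_HkS (n : ℕ) :
    Module.finrank (Res A) (HkS A M n) = Module.finrank (Res A) (Hk A M n) :=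
  (Submodule.equivMapOfInjective _ (valLin_injective A M) _).finrank_eq.symm

/-- The pole bounds on the two sides: `n` and `q n`. -/
def sideDeg (q : ℕ) : Fin 2 → ℕ := ![1, q]

/-- Pairs with pole bounds `n` and `q n`. -/
def Pk (q n : ℕ) : Submodule (Res A) (Fin 2 → LaurentSeries (Res A)) :=
  Submodule.pi Set.univ fun s => HkS A M (sideDeg q s * n)

omit [NeZero M] in
/-- `Pk` consists of the pairs in `L(n ∞) × L(q n ∞)`. -/
theorem mem_Pk {q n : ℕ} {r : Fin 2 → LaurentSeries (Res A)} :
    r ∈ Pk A M q n ↔ r 0 ∈ HkS A M n ∧ r 1 ∈ HkS A M (q * n) := by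
  rw [Pk, Submodule.mem_pi]
  simp [Fin.forall_fin_two, sideDeg]

omit [NeZero M] in
/-- `Pk` grows with `n`. -/
theorem Pk_mono (q : ℕ) {a b : ℕ} (h : a ≤ b) : Pk A M q a ≤ Pk A M q b := fun r hr => by
  rw [mem_Pk] at hr ⊢
  exact ⟨HkS_mono A M h hr.1, HkS_mono A M (Nat.mul_le_mul_left q h) hr.2⟩

variable {A}

/-! ### Reductions -/

variable (q : ℕ) [hq : Fact q.Prime] [CharP (Res A) q]

/-- Reduction maps `L(n ∞)` at level `M` into `L(n ∞)` over the residue field. -/
theorem red1_mem_HkS (hA : A.LiesOverPrime q) (hM : (M : Res A) ≠ 0) {x : loc2 A (iota1 M)}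
    {n : ℕ} (hx : (x : FB M) ∈ riemannRochSpace (n • FF.poles QBar (jM M))) :
    red1 A M x ∈ HkS A M n := by
  rw [mem_HkS]
  refine ⟨red1_mem_KM M hM x, ?_⟩
  have hj := isParam_jM (A := A) M q
  have hi := isParam_jM_inv (A := A) M q
  obtain ⟨R, hR, hrel⟩ := red1_integral (A := A) M q hA hM hj (isIntegral_of_mem_poles hx)
  set ti : loc2 A (iota1 M) := ⟨(jM M)⁻¹, jM_inv_mem M⟩ with hti
  obtain ⟨S, hS, hrel'⟩ := red1_integral (A := A) M q hA hM hi (x := x * ti ^ n)
    (by push_cast; exact isIntegral_inv_of_mem_poles hx)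
  rw [red1_jM] at hrel
  rw [map_mul, map_pow, red1_jM_inv] at hrel'
  rw [← one_mul n]
  refine mem_polesSpace_of_rels (m := 1) (R := R) (S := S) hR ?_ hS ?_
  · refine (KM A M).val.injective ?_
    rw [map_zero, pow_one]
    refine Eq.trans ?_ hrel
    show (KM A M).val.toRingHom _ = _
    rw [hom_eval₂]
    congr 1
    exact RingHom.ext fun p => (aeval_algHom_apply (KM A M).val (jK A M) p).symm
  · refine (KM A M).val.injective ?_
    rw [map_zero, pow_one]
    refine Eq.trans ?_ hrel'
    show (KM A M).val.toRingHom _ = _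
    rw [hom_eval₂]
    congr 1
    · exact RingHom.ext fun p => (aeval_algHom_apply (KM A M).val (jK A M)⁻¹ p).symm

/-- The reductions of `L(n ∞)` at level `q M` lie in `Pk`. -/
theorem red2_mem_Pk (hqM : ¬ q ∣ M) (hA : A.LiesOverPrime q) (hM : (M : Res A) ≠ 0)
    {x : loc2 A (iota2 M q hqM)} {n : ℕ}
    (hx : (x : FB (q * M)) ∈ riemannRochSpace (n • FF.poles QBar (upF M q (jM M)))) :
    red2 A (iota2 M q hqM) x ∈ Pk A M q n := by
  have hj := isParam_jM (A := A) M q
  have hi := isParam_jM_inv (A := A) M q
  set ti : loc2 A (iota1 M) := ⟨(jM M)⁻¹, jM_inv_mem M⟩ with hti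
  -- `x / j ^ n` is integral over `1 / j`
  have hxi : IsIntegral (Algebra.adjoin QBar {upF M q ((ti : loc2 A (iota1 M)) : FB M)})
      ((x * upParam M hqM ti ^ n : loc2 A (iota2 M q hqM)) : FB (q * M)) := by
    push_cast
    rw [hti, map_inv₀]
    exact isIntegral_inv_of_mem_poles hx
  have key : ∀ s, red2 A (iota2 M q hqM) x s ∈ HkS A M (sideDeg q s * n) := by
    intro s
    rw [mem_HkS]
    refine ⟨red2_mem_KM M q hqM hM x s, ?_⟩
    -- both relations reduce on each side
    obtain ⟨R, hR, hrel⟩ := red2_integral (A := A) M q hqM hA hM hj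
      (x := x) (isIntegral_of_mem_poles hx) s
    obtain ⟨S, hS, hrel'⟩ := red2_integral (A := A) M q hqM hA hM hi hxi s
    have hpow : red2 A (iota2 M q hqM) (upParam M hqM (⟨jM M, jM_mem M⟩ : loc2 A (iota1 M))) s =
        jqModC (Res A) ^ sideDeg q s := by
      rw [red2_upF, red1_jM]
      fin_cases s
      · exact (pow_one _).symm
      · exact (pow_eq_qExpand_gen_one q).symm
    have hpow' : red2 A (iota2 M q hqM) (upParam M hqM ti) s =
        (jqModC (Res A) ^ sideDeg q s)⁻¹ := by
      rw [hti, red2_upF, red1_jM_inv]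
      fin_cases s
      · simp [sideDeg]
      · show qExpand (Res A) q (jqModC (Res A))⁻¹ = _
        rw [map_inv₀, ← pow_eq_qExpand_gen_one]
        rfl
    rw [hpow] at hrel
    rw [map_mul, map_pow, Pi.mul_apply, Pi.pow_apply, hpow'] at hrel'
    -- and bound the poles of the reduction
    refine mem_polesSpace_of_rels (R := R) (S := S) hR ?_ hS ?_
    · refine (KM A M).val.injective ?_
      rw [map_zero]
      refine Eq.trans ?_ hrel
      show (KM A M).val.toRingHom _ = _
      rw [hom_eval₂]
      congr 1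
      exact RingHom.ext fun p => (aeval_algHom_apply (KM A M).val (jK A M ^ sideDeg q s) p).symm
    · refine (KM A M).val.injective ?_
      rw [map_zero]
      refine Eq.trans ?_ hrel'
      show (KM A M).val.toRingHom _ = _
      rw [hom_eval₂]
      congr 1
      · exact RingHom.ext fun p =>
          (aeval_algHom_apply (KM A M).val (jK A M ^ sideDeg q s)⁻¹ p).symm
  rw [mem_Pk]
  exact ⟨by simpa [sideDeg] using key 0, by simpa [sideDeg] using key 1⟩

/-! ### Lattices -/

variable (A)

/-- The embeddings as a linear map to tuples of series. -/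
def embLin {F : Type*} [Field F] [Algebra QBar F] {S : Type*} (ι : S → (F →ₐ[QBar] LSer)) :
    F →ₗ[QBar] (S → LSer) where
  toFun x s := ι s x
  map_add' x y := funext fun s => map_add (ι s) x y
  map_smul' c x := funext fun s => by
    show ι s (c • x) = c • ι s x
    rw [smul_eq_algebraMap_mul, Algebra.smul_def, map_mul, AlgHom.commutes]
    rfl

omit [NeZero M] [FF.IsFunctionField (Res A) (KM A M)] in
theorem embLin_injective {F : Type*} [Field F] [Algebra QBar F] {S : Type*} [Nonempty S]
    (ι : S → (F →ₐ[QBar] LSer)) : Function.Injective (embLin ι) := fun _ _ h =>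
  (ι (Classical.arbitrary S)).injective (congrFun h (Classical.arbitrary S))

/-- Reductions of the integral elements of a subspace. -/
def redSub {F : Type*} [Field F] [Algebra QBar F] {S : Type*} (ι : S → (F →ₐ[QBar] LSer))
    (V : Submodule QBar F) : Submodule (Res A) (S → LaurentSeries (Res A)) :=
  redImage A (V.map (embLin ι))

variable {A}

omit [NeZero M] [FF.IsFunctionField (Res A) (KM A M)] [CharP (Res A) q] in
/-- `redSub A ι V` consists of the reductions of the integral elements of `V`. -/
theorem mem_redSub {F : Type*} [Field F] [Algebra QBar F] {S : Type*}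
    {ι : S → (F →ₐ[QBar] LSer)} {V : Submodule QBar F} {r : S → LaurentSeries (Res A)} :
    r ∈ redSub A ι V ↔ ∃ x : loc2 A ι, (x : F) ∈ V ∧ red2 A ι x = r := by
  constructor
  · rintro ⟨_, ⟨x, hx, rfl⟩, h, rfl⟩
    exact ⟨⟨x, (mem_loc2 ι).mpr h⟩, hx, funext fun s => red2_apply ι _ s⟩
  · rintro ⟨x, hx, rfl⟩
    exact ⟨_, ⟨x, hx, rfl⟩, (mem_loc2 ι).mp x.2, funext fun s => red2_apply ι x s⟩

omit [NeZero M] [FF.IsFunctionField (Res A) (KM A M)] [CharP (Res A) q] in
/-- Reduction preserves the dimension of a finite dimensional space of functions. -/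
theorem finrank_redSub (hA : A.LiesOverPrime q) {F : Type*} [Field F] [Algebra QBar F]
    {S : Type*} [Finite S] [Nonempty S] (ι : S → (F →ₐ[QBar] LSer))
    (hfrac : ∀ s x, ι s x ∈ fracS A) (V : Submodule QBar F) [FiniteDimensional QBar V] :
    FiniteDimensional (Res A) (redSub A ι V) ∧
      Module.finrank (Res A) (redSub A ι V) = Module.finrank QBar V := by
  have e := Submodule.equivMapOfInjective (embLin ι) (embLin_injective ι) V
  have : FiniteDimensional QBar (V.map (embLin ι)) := Module.Finite.equiv e
  obtain ⟨h1, h2⟩ := finrank_redImage hA hq.out (V.map (embLin ι)) (by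
    rintro _ ⟨x, -, rfl⟩ s
    exact hfrac s x)
  exact ⟨h1, h2.trans e.finrank_eq.symm⟩

/-- `L(n ∞)` at level `M`. -/
abbrev HM (n : ℕ) : Submodule QBar (FB M) := riemannRochSpace (n • FF.poles QBar (jM M))

/-- `L(n ∞)` at level `q M`. -/
abbrev HN (n : ℕ) : Submodule QBar (FB (q * M)) :=
  riemannRochSpace (n • FF.poles QBar (upF M q (jM M)))

variable (A) in
/-- The reductions of `L(n ∞)` at level `q M`. -/
abbrev Bn (hqM : ¬ q ∣ M) (n : ℕ) : Submodule (Res A) (Fin 2 → LaurentSeries (Res A)) :=
  redSub A (iota2 M q hqM) (HN M q n)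

/-- The reductions of `L(n ∞)` at level `q M` are contained in `Pk`. -/
theorem Bn_le_Pk (hqM : ¬ q ∣ M) (hA : A.LiesOverPrime q) (hM : (M : Res A) ≠ 0) (n : ℕ) :
    Bn A M q hqM n ≤ Pk A M q n := by
  intro r hr
  obtain ⟨x, hx, rfl⟩ := mem_redSub.mp hr
  exact red2_mem_Pk M q hqM hA hM hx

omit [FF.IsFunctionField (Res A) (KM A M)] [CharP (Res A) q] in
/-- The reductions of `L(n ∞)` at level `q M` have the dimension of `L(n ∞)`. -/
theorem finrank_Bn (hqM : ¬ q ∣ M) (hA : A.LiesOverPrime q) (n : ℕ) :
    FiniteDimensional (Res A) (Bn A M q hqM n) ∧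
      Module.finrank (Res A) (Bn A M q hqM n) = Module.finrank QBar (HN M q n) :=
  finrank_redSub q hA _ (iota2_fracS M q hqM) _

omit [FF.IsFunctionField (Res A) (KM A M)] in
theorem transcendental_jM : Transcendental QBar (jM M) := fun h =>
  RedTorsion.transcendental_jqModC QBar (by
    have := h.algHom (FB M).val
    rwa [IntermediateField.coe_val, coe_jM] at this)

omit [FF.IsFunctionField (Res A) (KM A M)] in
/-- `j` is transcendental at level `q M`. -/
theorem transcendental_upF_jM : Transcendental QBar (upF M q (jM M)) := fun h =>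
  RedTorsion.transcendental_jqModC QBar (by
    have := h.algHom (FB (q * M)).val
    rwa [IntermediateField.coe_val, coe_upF, coe_jM] at this)

omit [FF.IsFunctionField (Res A) (KM A M)] in
theorem degree_poles_jM : Divisor.degree (FF.poles QBar (jM M)) = dedekindPsi M := by
  rw [FF.degree_poles (transcendental_jM M), (finrank_jM M).2]

omit [FF.IsFunctionField (Res A) (KM A M)] in
/-- The polar divisor of `j` at level `q M` has degree `ψ(q M)`. -/
theorem degree_poles_upF_jM :
    Divisor.degree (FF.poles QBar (upF M q (jM M))) = dedekindPsi (q * M) := by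
  rw [FF.degree_poles (transcendental_upF_jM M q), (finrank_level_mul M q).2]

/-- The polar divisor of `j` over the residue field has degree `ψ(M)`. -/
theorem degree_poles_jK (hM : (M : Res A) ≠ 0) :
    Divisor.degree (FF.poles (Res A) (jK A M)) = dedekindPsi M := by
  rw [FF.degree_poles (jK_transcendental A M), ← ModFun.natCard_coset M]
  exact_mod_cast RedTorsion.finrank_jF (F := KM A M) rfl hM

omit [CharP (Res A) q] in
/-- Riemann-Roch for all three families of spaces. -/
theorem exists_finrank_eq (hM : (M : Res A) ≠ 0) :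
    ∃ n₀ : ℕ, ∀ n, n₀ ≤ n →
      (Module.finrank QBar (HM M n) : ℤ) = n * dedekindPsi M + 1 - genusFF QBar (FB M) ∧
      (Module.finrank QBar (HN M q n) : ℤ) =
        n * dedekindPsi (q * M) + 1 - genusFF QBar (FB (q * M)) ∧
      (Module.finrank (Res A) (Hk A M n) : ℤ) =
        n * dedekindPsi M + 1 - genusFF (Res A) (KM A M) := by
  have := Arith.residueField_isAlgClosed A
  obtain ⟨a, ha⟩ := FF.exists_ell_eq (K := QBar) (F := FB M)
  obtain ⟨b, hb⟩ := FF.exists_ell_eq (K := QBar) (F := FB (q * M))
  obtain ⟨c, hc⟩ := FF.exists_ell_eq (K := Res A) (F := KM A M)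
  have hpos : 0 < dedekindPsi M := dedekindPsi_pos M
  have hpos' : 0 < dedekindPsi (q * M) := dedekindPsi_pos (q * M)
  refine ⟨a.toNat + b.toNat + c.toNat, fun n hn => ⟨?_, ?_, ?_⟩⟩
  · have := ha (n • FF.poles QBar (jM M))
    simp only [map_nsmul, nsmul_eq_mul, degree_poles_jM, FF.ell] at this
    exact this (by
      have h1 : (n : ℤ) * 1 ≤ (n : ℤ) * dedekindPsi M :=
        mul_le_mul_of_nonneg_left (by exact_mod_cast hpos) (by omega)
      omega)
  · have := hb (n • FF.poles QBar (upF M q (jM M)))
    simp only [map_nsmul, nsmul_eq_mul, degree_poles_upF_jM, FF.ell] at this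
    exact this (by
      have h1 : (n : ℤ) * 1 ≤ (n : ℤ) * dedekindPsi (q * M) :=
        mul_le_mul_of_nonneg_left (by exact_mod_cast hpos') (by omega)
      omega)
  · have := hc (n • FF.poles (Res A) (jK A M))
    simp only [map_nsmul, nsmul_eq_mul, degree_poles_jK M hM, FF.ell] at this
    exact this (by
      have h1 : (n : ℤ) * 1 ≤ (n : ℤ) * dedekindPsi M :=
        mul_le_mul_of_nonneg_left (by exact_mod_cast hpos) (by omega)
      omega)

end Fermat.Agent.Semistable

end
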