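import Mathlib
import Fermat.Agent.Arith.Frobenius
import Fermat.Agent.Semistable.Spaces
import Fermat.Agent.Semistable.GaloisAction
import Fermat.Agent.Semistable.Descent

/-!
# Levels at which the genus does not drop: surjective reduction of `L(n ∞)`
-/

set_option autoImplicit false

noncomputable section

namespace Fermat.Agent.Semistable

open ModularCurve AlgebraicCurve Polynomial
open Arith (QBar)

/-- The genus of level `M` does not drop in the residue field of `A`. -/
abbrev GoodM (A : ValuationSubring QBar) (M : ℕ) : Prop :=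
  genusFF QBar (FB M) ≤ genusFF (Res A) (KM A M)

variable {A : ValuationSubring QBar} {M : ℕ} [NeZero M]

variable (q : ℕ) [hq : Fact q.Prime] [CharP (Res A) q] [FF.IsFunctionField (Res A) (KM A M)]

/-- Surjectivity of the reduction of `L(n ∞)` at a good level. -/
theorem exists_red1_surjective (hA : A.LiesOverPrime q) (hM : (M : Res A) ≠ 0) (hg : GoodM A M) :
    ∃ n₀ : ℕ, ∀ n, n₀ ≤ n → ∀ r ∈ HkS A M n, ∃ x : loc2 A (iota1 M),
      (x : FB M) ∈ HM M n ∧ red1 A M x = r := by
  obtain ⟨n₀, hn₀⟩ := exists_finrank_eq (A := A) M q hM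
  refine ⟨n₀, fun n hn r hr => ?_⟩
  obtain ⟨hf, hd⟩ := finrank_redSub q hA (iota1 M) (fun _ x => mem_fracS_of_mem x) (HM M n)
  let p : (Unit → LaurentSeries (Res A)) →ₗ[Res A] LaurentSeries (Res A) := LinearMap.proj ()
  have hp : Function.Injective p := fun a b h => funext fun _ => h
  set W := (redSub A (iota1 M) (HM M n)).map p with hW
  have hle : W ≤ HkS A M n := by
    rintro _ ⟨s, hs, rfl⟩
    obtain ⟨x, hx, rfl⟩ := mem_redSub.mp hs
    exact red1_mem_HkS M q hA hM hx
  have : FiniteDimensional (Res A) (HkS A M n) := by unfold HkS; infer_instance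
  have heq : W = HkS A M n := Submodule.eq_of_le_of_finrank_le hle (by
    rw [finrank_HkS, hW, ← (Submodule.equivMapOfInjective p hp _).finrank_eq, hd]
    obtain ⟨h1, -, h3⟩ := hn₀ n hn
    omega)
  obtain ⟨s, hs, rfl⟩ := heq.ge hr
  obtain ⟨x, hx, rfl⟩ := mem_redSub.mp hs
  exact ⟨x, hx, rfl⟩

variable (A M) in
/-- The rational elements of `L(n ∞)` over the residue field which lift. -/
def ratHk (n : ℕ) : Set (LaurentSeries (Res A)) :=
  {r | r ∈ HkS A M n ∧ r ^ q = qExpand (Res A) q r ∧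
    ∃ x : loc2 A (iota1 M), (x : FB M) ∈ HM M n ∧ red1 A M x = r}

/-- At a good level `L(n ∞)` is spanned by rational reductions. -/
theorem exists_le_span_ratHk (hA : A.LiesOverPrime q) (hM : (M : Res A) ≠ 0) (hg : GoodM A M) :
    ∃ n₀ : ℕ, ∀ n, n₀ ≤ n → HkS A M n ≤ Submodule.span (Res A) (ratHk A M q n) := by
  obtain ⟨n₀, hn₀⟩ := exists_red1_surjective q hA hM hg
  obtain ⟨σ, hσ⟩ := Arith.exists_isFrobeniusAt hA hq.out
  refine ⟨n₀, fun n hn => ?_⟩
  have : FiniteDimensional (Res A) (HkS A M n) := by unfold HkS; infer_instance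
  refine (le_span_fixed q (HkS A M n) fun r hr => ?_).trans (Submodule.span_mono ?_)
  · obtain ⟨x, hx, rfl⟩ := hn₀ n hn r hr
    obtain ⟨h', e⟩ := (resLift_of_frobenius hσ).galF_mem_loc1 M x
    rw [← e]
    exact red1_mem_HkS M q hA hM (galF_mem_poles M (galF_jM M σ) hx)
  · rintro r ⟨hr, hfix⟩
    exact ⟨hr, hfix, hn₀ n hn r hr⟩

end Fermat.Agent.Semistable

end
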