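import Fermat.Agent.Semistable.Torsion
import Fermat.Agent.GaloisReps.UnipotentModel
import Fermat.Agent.Mazur.Eisenstein.Inputs

/-!
# The semistable inputs at primes exactly dividing the level

`semistableProperty`: for `q ∥ N` inertia `σ` at `q` satisfies `(σ - 1)² = 0` on the torsion of
`J₀(N)` of order prime to `q`; hence, given `EichlerShimuraCongruence N p` with `p ≠ q`, it
acts unipotently on the model at `p` (`unipotentAt`).
-/

set_option autoImplicit false

noncomputable section

namespace Fermat.Agent.Semistable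

variable {N q : ℕ} [NeZero N]

/-- **Inertia `σ` at a prime exactly dividing the level has `(σ - 1)² = 0`** on the torsion of
order prime to that prime. -/
theorem semistableProperty (hq : q.Prime) (hqN : q ∣ N) (hq2 : ¬ q ^ 2 ∣ N) :
    Mazur.Eisenstein.SemistableProperty N q := by
  obtain ⟨M, rfl⟩ := hqN
  have : Fact q.Prime := ⟨hq⟩
  have : NeZero M := ⟨fun h => NeZero.ne (q * M) (by rw [h, mul_zero])⟩
  intro A hA σ hσ m x hm hx
  exact inertia_sq_torsion hA (fun h => hq2 (by rw [pow_two]; exact mul_dvd_mul_left q h)) hσ hm hx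

/-- Inertia at `q` exactly dividing the level is unipotent on the prime-to-`q` torsion. -/
theorem torsionUnipotentAt (hq : q.Prime) (hqN : q ∣ N) (hq2 : ¬ q ^ 2 ∣ N) :
    GaloisReps.TorsionUnipotentAt N q :=
  ⟨1, one_pos, fun m _ hmq A hA τ hτ x hx => by
    rw [one_smul]; exact semistableProperty hq hqN hq2 A hA τ hτ m x hmq hx⟩

/-- Inertia acts unipotently on the model. -/
theorem unipotentAt {p : ℕ} [Fact p.Prime] (hES : GaloisReps.EichlerShimuraCongruence N p)
    (hq : q.Prime) (hqp : q ≠ p) (hqN : q ∣ N) (hq2 : ¬ q ^ 2 ∣ N) :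
    NewformLocal.UnipotentAt (GaloisReps.modelOfCongruence hES) q :=
  GaloisReps.unipotentAt_modelOfCongruence hES hq hqp (torsionUnipotentAt hq hqN hq2)

end Fermat.Agent.Semistable

end
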