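import Mathlib

/-!
# Finite algebras spanned by elements fixed by a power of Frobenius
-/

set_option autoImplicit false

noncomputable section

namespace Fermat.Agent.Semistable

/-- A finite algebra over an algebraically closed field, spanned by elements with
`s ^ (q ^ e) = s`, is the algebra of functions on its points. -/
theorem bijective_points {k R : Type*} [Field k] [IsAlgClosed k] [CommRing R] [Algebra k R]
    [FiniteDimensional k R] (q e : ℕ) [Fact q.Prime] [CharP k q] (he : e ≠ 0) {S : Set R}
    (hS : Submodule.span k S = ⊤) (hfix : ∀ s ∈ S, s ^ q ^ e = s) :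
    Finite (R →ₐ[k] k) ∧ Nat.card (R →ₐ[k] k) = Module.finrank k R ∧
      Function.Bijective (fun r (χ : R →ₐ[k] k) => χ r) := by
  classical
  rcases subsingleton_or_nontrivial R with hR | hR
  · have : IsEmpty (R →ₐ[k] k) := ⟨fun χ => zero_ne_one' k (by
      rw [← map_zero χ, ← map_one χ, Subsingleton.elim (0 : R) 1])⟩
    refine ⟨inferInstance, by rw [Module.finrank_zero_of_subsingleton]; simp, fun a b _ =>
      Subsingleton.elim a b, fun f => ⟨0, ?_⟩⟩
    funext χ
    exact isEmptyElim χ
  have : ExpChar R q := expChar_of_injective_algebraMap (algebraMap k R).injective q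
  -- a basis inside `S`
  obtain ⟨b, hb, hspan, hli⟩ := exists_linearIndependent k S
  have : Finite b := hli.finite
  have := Fintype.ofFinite b
  -- `R` is reduced: high Frobenius powers fix that basis
  have hred : ∀ r : R, IsNilpotent r → r = 0 := by
    rintro r ⟨n, hn⟩
    have hr : r ∈ Submodule.span k (Set.range fun i : b => (i : R)) := by
      rw [Subtype.range_coe, hspan, hS]; trivial
    obtain ⟨c, rfl⟩ := (Submodule.mem_span_range_iff_exists_fun k).mp hr
    have hfix' : ∀ (m : ℕ) (i : b), (i : R) ^ q ^ (e * m) = i := by
      intro m i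
      induction m with
      | zero => simp
      | succ m ih => rw [Nat.mul_succ, pow_add, pow_mul, ih, hfix _ (hb i.2)]
    have hpow : n ≤ q ^ (e * n) := by
      have h1 := Nat.lt_pow_self (Fact.out : q.Prime).one_lt (n := e * n)
      have h2 : n ≤ e * n := Nat.le_mul_of_pos_left n (Nat.pos_of_ne_zero he)
      omega
    have h0 : (∑ i, c i • (i : R)) ^ q ^ (e * n) = 0 := pow_eq_zero_of_le hpow hn
    rw [sum_pow_char_pow] at h0
    simp only [smul_pow, hfix'] at h0
    have hc := Fintype.linearIndependent_iff.mp hli _ h0
    refine Finset.sum_eq_zero fun i _ => ?_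
    rw [pow_eq_zero_iff (pow_ne_zero _ (Fact.out : q.Prime).ne_zero) |>.mp (hc i), zero_smul]
  have : IsArtinianRing R := IsArtinianRing.of_finite k R
  let L : R →ₗ[k] ((R →ₐ[k] k) → k) := LinearMap.pi fun χ => χ.toLinearMap
  -- so the points separate its elements
  have hinj : Function.Injective L := by
    rw [← LinearMap.ker_eq_bot, LinearMap.ker_eq_bot']
    intro r hr
    refine hred r (mem_nilradical.mp ?_)
    rw [IsArtinianRing.nilradical_eq_iInf, Ideal.mem_iInf]
    intro m
    have := m.isMaximal
    let π : (R ⧸ m.asIdeal) →ₐ[k] k :=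
      letI := Ideal.Quotient.field m.asIdeal
      IsAlgClosed.lift
    let := Ideal.Quotient.field m.asIdeal
    refine Ideal.Quotient.eq_zero_iff_mem.mp (π.toRingHom.injective ?_)
    rw [map_zero]
    exact congrFun hr (π.comp (Ideal.Quotient.mkₐ k m.asIdeal))
  have hind : LinearIndependent k fun χ : R →ₐ[k] k => χ.toLinearMap :=
    linearIndependent_algHom_toLinearMap k R k
  have : Finite (R →ₐ[k] k) := hind.finite
  have := Fintype.ofFinite (R →ₐ[k] k)
  -- and being independent they are no more than the dimension
  have h1 := hind.fintype_card_le_finrank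
  rw [Module.finrank_linearMap, Module.finrank_self, mul_one] at h1
  have h2 := LinearMap.finrank_le_finrank_of_injective hinj
  rw [Module.finrank_fintype_fun_eq_card] at h2
  refine ⟨inferInstance, by rw [Nat.card_eq_fintype_card]; omega, hinj, ?_⟩
  refine (LinearMap.injective_iff_surjective_of_finrank_eq_finrank ?_).mp hinj
  rw [Module.finrank_fintype_fun_eq_card]
  omega

end Fermat.Agent.Semistable

end
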