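import Mathlib
import Fermat.Agent.Semistable.Glue

/-!
# The gluing of a divisor class with a Kummer function

Under `Setup`, if `m D = div f` with `m ≠ 0` and the reductions of `f` are nonzero constants,
the reductions of `L(n ∞ + D)` are eventually the pairs glued by a function `c` on the meeting
points (`Setup.exists_isGlue`);
Galois and the involution act on `c` (`Setup.isGlue_frobenius`, `Setup.isGlue_wAut`).
-/

set_option autoImplicit false

noncomputable section

namespace Fermat.Agent.Semistable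

open ModularCurve AlgebraicCurve Polynomial
open Arith (QBar)

attribute [local instance 10000] SubalgebraClass.toAlgebra HahnSeries.powerSeriesAlgebra Algebra.id
attribute [local instance 10001] Subalgebra.algebra
attribute [-instance] IsScalarTower.of_algHom
attribute [-instance] LieRinehartAlgebra.toIsScalarTower
attribute [-instance] RingHom.Finite.instFinite
attribute [local instance 10002] instAlgebraKM instModuleKM

/-! ## The spaces `L(n ∞ + D)` and their reductions -/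

/-- A subspace of the plane on which `a₁ y ^ m = a₀ x ^ m` lies on one of the lines. -/
theorem exists_slope {k : Type*} [Field k] [IsAlgClosed k] (W : Submodule k (k × k)) {m : ℕ}
    (hm : m ≠ 0) {a₀ a₁ : k} (ha : a₁ ≠ 0) (h : ∀ w ∈ W, a₁ * w.2 ^ m = a₀ * w.1 ^ m) :
    ∃ c : k, a₁ * c ^ m = a₀ ∧ ∀ w ∈ W, w.2 = c * w.1 := by
  have hzero : ∀ w ∈ W, w.1 = 0 → w.2 = 0 := fun w hw h1 => by
    have := h w hw
    rw [h1, zero_pow hm, mul_zero, mul_eq_zero] at this
    exact eq_zero_of_pow_eq_zero (this.resolve_left ha)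
  by_cases hW : ∃ w ∈ W, w.1 ≠ 0
  · obtain ⟨w₀, hw₀, h0⟩ := hW
    refine ⟨w₀.2 / w₀.1, ?_, fun w hw => ?_⟩
    · rw [div_pow, mul_div_assoc', div_eq_iff (pow_ne_zero _ h0), h w₀ hw₀]
    · have h1 := hzero (w - (w.1 / w₀.1) • w₀) (sub_mem hw (W.smul_mem _ hw₀))
        (by simp [div_mul_cancel₀ _ h0])
      simp only [Prod.snd_sub, Prod.smul_snd, smul_eq_mul, sub_eq_zero] at h1
      rw [h1, div_mul_eq_mul_div, div_mul_eq_mul_div, mul_comm]
  · obtain ⟨c, hc⟩ := IsAlgClosed.exists_pow_nat_eq (a₀ / a₁) (Nat.pos_of_ne_zero hm)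
    refine ⟨c, by rw [hc, mul_div_cancel₀ _ ha], fun w hw => ?_⟩
    have h1 : w.1 = 0 := by
      by_contra h'
      exact hW ⟨w, hw, h'⟩
    rw [hzero w hw h1, h1, mul_zero]

theorem root_mem_polesSpace {K F : Type*} [Field K] [Field F] [Algebra K F]
    [FF.IsFunctionField K F] {x z : F} {m n : ℕ} (hm : m ≠ 0)
    (h : z ^ m ∈ riemannRochSpace ((m * n) • FF.poles K x)) :
    z ∈ riemannRochSpace (n • FF.poles K x) := by
  rcases eq_or_ne z 0 with rfl | hz
  · exact zero_mem _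
  rw [RedTorsion.mem_polesSpace] at h ⊢
  intro v
  have h1 := FF.le_ord_of_mem_ordGe v (pow_ne_zero _ hz) (h v)
  rw [FF.ord_pow, Nat.cast_mul, mul_assoc] at h1
  have hmZ : (0 : ℤ) < m := by exact_mod_cast Nat.pos_of_ne_zero hm
  exact FF.mem_ordGe_of_le v (by nlinarith)

variable (M : ℕ) [NeZero M] (q : ℕ) [hq : Fact q.Prime]

/-- `L(n ∞ + D)` at level `q M`. -/
abbrev HD (D : Divisor QBar (FB (q * M))) (n : ℕ) : Submodule QBar (FB (q * M)) :=
  riemannRochSpace (n • FF.poles QBar (upF M q (jM M)) + D)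

/-- Membership in `L(n ∞ + D)`, place by place. -/
theorem mem_HD {D : Divisor QBar (FB (q * M))} {n : ℕ} {x : FB (q * M)} :
    x ∈ HD M q D n ↔ ∀ v : Place QBar (FB (q * M)),
      x ∈ FF.ordGe v (-((n : ℤ) * FF.poles QBar (upF M q (jM M)) v + D v)) := by
  simp only [FF.mem_riemannRochSpace', Finsupp.add_apply, RedTorsion.nsmul_poles_apply]

/-- For the zero divisor `HD` is `HN`. -/
theorem HD_zero (n : ℕ) : HD M q 0 n = HN M q n := by rw [HD, add_zero]

variable {M q}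

/-- `L(n ∞ + D)` grows with `n`. -/
theorem HD_mono (D : Divisor QBar (FB (q * M))) {a b : ℕ} (h : a ≤ b) :
    HD M q D a ≤ HD M q D b := by
  intro x hx
  rw [mem_HD] at hx ⊢
  intro v
  refine FF.ordGe_anti v ?_ (hx v)
  have := le_max_left (0 : ℤ) (-v.ord (upF M q (jM M)))
  rw [← FF.poles_apply] at this
  nlinarith

/-- Products map `L(a ∞ + D) × L(b ∞ + D')` into `L((a + b) ∞ + D + D')`. -/
theorem mul_mem_HD {D D' : Divisor QBar (FB (q * M))} {a b : ℕ} {x y : FB (q * M)}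
    (hx : x ∈ HD M q D a) (hy : y ∈ HD M q D' b) : x * y ∈ HD M q (D + D') (a + b) := by
  rw [mem_HD] at hx hy ⊢
  intro v
  refine FF.ordGe_anti v (le_of_eq ?_) (FF.mul_mem_ordGe v (hx v) (hy v))
  rw [Finsupp.add_apply]
  push_cast
  ring

theorem pow_mul_mem_HN {D : Divisor QBar (FB (q * M))} {m n : ℕ} {x f : FB (q * M)}
    (hx : x ∈ HD M q D n) (hord : ∀ v, v.ord f = (m : ℤ) * D v) :
    x ^ m * f ∈ HN M q (m * n) := by
  rw [mem_HD] at hx
  rw [RedTorsion.mem_polesSpace]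
  intro v
  refine FF.ordGe_anti v (le_of_eq ?_)
    (FF.mul_mem_ordGe v (FF.pow_mem_ordGe v (hx v) m) (FF.mem_ordGe_of_le v (le_refl (v.ord f))))
  rw [hord]
  push_cast
  ring

/-- A divisor with a nonzero multiple principal has degree `0`. -/
theorem degree_eq_zero_of_kummer {D : Divisor QBar (FB (q * M))} {m : ℕ} (hm : m ≠ 0)
    {f : FB (q * M)} (hord : ∀ v, v.ord f = (m : ℤ) * D v) : Divisor.degree D = 0 := by
  have e : (m : ℤ) • D = FF.div QBar f := Finsupp.ext fun v => by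
    rw [Finsupp.smul_apply, FF.div_apply, hord, smul_eq_mul]
  have h := congrArg Divisor.degree e
  rw [map_zsmul, FF.degree_div, smul_eq_mul] at h
  exact (mul_eq_zero.mp h).resolve_left (by exact_mod_cast hm)

theorem exists_finrank_HD : ∃ n₀ : ℕ, ∀ D : Divisor QBar (FB (q * M)), Divisor.degree D = 0 →
    ∀ n, n₀ ≤ n → Module.finrank QBar (HD M q D n) = Module.finrank QBar (HN M q n) := by
  obtain ⟨b, hb⟩ := FF.exists_ell_eq (K := QBar) (F := FB (q * M))
  refine ⟨b.toNat, fun D hD n hn => ?_⟩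
  have hd : Divisor.degree (n • FF.poles QBar (upF M q (jM M))) = n * dedekindPsi (q * M) := by
    rw [map_nsmul, degree_poles_upF_jM, nsmul_eq_mul]
  have h1 : (n : ℤ) * 1 ≤ (n : ℤ) * dedekindPsi (q * M) :=
    mul_le_mul_of_nonneg_left (by exact_mod_cast dedekindPsi_pos (q * M)) (by omega)
  have e1 := hb (n • FF.poles QBar (upF M q (jM M)) + D) (by rw [map_add, hd, hD]; omega)
  have e2 := hb (n • FF.poles QBar (upF M q (jM M))) (by rw [hd]; omega)
  rw [map_add, hd, hD, add_zero] at e1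
  rw [hd] at e2
  simp only [FF.ell] at e1 e2
  show Module.finrank QBar (riemannRochSpace (n • FF.poles QBar (upF M q (jM M)) + D)) =
    Module.finrank QBar (riemannRochSpace (n • FF.poles QBar (upF M q (jM M))))
  omega

variable {A : ValuationSubring QBar}

variable (A) in
/-- The reductions of `L(n ∞ + D)`. -/
abbrev LD (hqM : ¬ q ∣ M) (D : Divisor QBar (FB (q * M))) (n : ℕ) :
    Submodule (Res A) (Fin 2 → LaurentSeries (Res A)) :=
  redSub A (iota2 M q hqM) (HD M q D n)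

theorem LD_mono (hqM : ¬ q ∣ M) (D : Divisor QBar (FB (q * M))) {a b : ℕ} (h : a ≤ b) :
    LD A hqM D a ≤ LD A hqM D b := by
  intro r hr
  obtain ⟨x, hx, rfl⟩ := mem_redSub.mp hr
  exact mem_redSub.mpr ⟨x, HD_mono D h hx, rfl⟩

variable [CharP (Res A) q] [FF.IsFunctionField (Res A) (KM A M)]

omit [NeZero M] in
/-- `serR` respects the constants. -/
theorem serR_algebraMap (c : Res A) :
    serR A M (algebraMap (Res A) (Rk A M) c) = algebraMap (Res A) (LaurentSeries (Res A)) c := rfl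

variable (h : Setup A M q)
include h

/-! ## Gluings -/

/-- The reductions of `L(n ∞ + D)` are eventually the pairs glued by `c`. -/
def IsGlue (D : Divisor QBar (FB (q * M))) (c : Pt h → Res A) : Prop :=
  ∃ n₀ : ℕ, ∀ n, n₀ ≤ n → LD A h.hqM D n = glued h c n

/-- A glued pair satisfies the gluing relation at every meeting point. -/
theorem Setup.rel_of_glued {c : Pt h → Res A} {n : ℕ} {a b : Rk A M}
    (hr : ![serR A M a, serR A M b] ∈ glued h c n) (χ : Pt h) :
    ptEv h χ b = c χ * ptEv h (twist h χ) a := by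
  obtain ⟨a', b', -, -, e, hc⟩ := h.mem_glued.mp hr
  obtain rfl : a = a' := serR_injective (by simpa using congrFun e 0)
  obtain rfl : b = b' := serR_injective (by simpa using congrFun e 1)
  exact hc χ

/-- Test pairs in a glued space. -/
theorem Setup.exists_probe : ∃ n₀ : ℕ, ∀ n, n₀ ≤ n → ∀ c : Pt h → Res A, ∃ a b : Rk A M,
    ![serR A M a, serR A M b] ∈ glued h c n ∧ (∀ χ, ptEv h χ a = 1) ∧
      ∀ χ, ptEv h χ b = c χ := by
  obtain ⟨n₁, hn₁⟩ := h.exists_interpolate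
  refine ⟨n₁, fun n hn c => ?_⟩
  obtain ⟨a, ha, ha'⟩ := hn₁ n hn fun _ => 1
  obtain ⟨b, hb, hb'⟩ := hn₁ (q * n) (hn.trans (Nat.le_mul_of_pos_left n hq.out.pos)) c
  exact ⟨a, b, h.mem_glued.mpr ⟨a, b, ha, hb, rfl, fun χ => by rw [hb', ha', mul_one]⟩, ha', hb'⟩

theorem Setup.isGlue_unique {D : Divisor QBar (FB (q * M))} {c c' : Pt h → Res A}
    (hc : IsGlue h D c) (hc' : IsGlue h D c') : c = c' := by
  obtain ⟨n₁, hn₁⟩ := hc
  obtain ⟨n₂, hn₂⟩ := hc'
  obtain ⟨n₃, hn₃⟩ := h.exists_probe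
  obtain ⟨a, b, hab, ha, hb⟩ := hn₃ (n₁ + n₂ + n₃) (by omega) c
  rw [← hn₁ _ (by omega), hn₂ _ (by omega)] at hab
  funext χ
  rw [← hb χ, h.rel_of_glued hab χ, ha, mul_one]

theorem Setup.isGlue_zero : IsGlue h 0 1 := by
  obtain ⟨n₀, hn₀⟩ := h.exists_glued
  refine ⟨n₀, fun n hn => ?_⟩
  rw [(hn₀ n hn).2, LD, HD_zero]

/-- Gluings multiply. -/
theorem Setup.isGlue_eq_mul {D D' : Divisor QBar (FB (q * M))} {c c' e : Pt h → Res A}
    (hc : IsGlue h D c) (hc' : IsGlue h D' c') (he : IsGlue h (D + D') e) : e = c * c' := by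
  obtain ⟨n₁, hn₁⟩ := hc
  obtain ⟨n₂, hn₂⟩ := hc'
  obtain ⟨n₃, hn₃⟩ := he
  obtain ⟨n₄, hn₄⟩ := h.exists_probe
  set n := n₁ + n₂ + n₃ + n₄ with hn
  obtain ⟨a, b, hab, ha, hb⟩ := hn₄ n (by omega) c
  obtain ⟨a', b', hab', ha', hb'⟩ := hn₄ n (by omega) c'
  rw [← hn₁ n (by omega)] at hab
  rw [← hn₂ n (by omega)] at hab'
  obtain ⟨x, hx, hxr⟩ := mem_redSub.mp hab
  obtain ⟨y, hy, hyr⟩ := mem_redSub.mp hab'
  have hxy : red2 A (iota2 M q h.hqM) (x * y) ∈ glued h e (n + n) := by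
    rw [← hn₃ _ (by omega)]
    exact mem_redSub.mpr ⟨x * y, mul_mem_HD hx hy, rfl⟩
  rw [map_mul, hxr, hyr] at hxy
  have e' : ![serR A M a, serR A M b] * ![serR A M a', serR A M b'] =
      ![serR A M (a * a'), serR A M (b * b')] := by
    funext s; fin_cases s <;> simp
  rw [e'] at hxy
  funext χ
  have := h.rel_of_glued hxy χ
  rw [map_mul, map_mul, hb, hb', ha, ha', mul_one, mul_one] at this
  exact this.symm

/-! ## Existence of the gluing of a Kummer class -/

/-- The two slopes at a meeting point. -/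
def slopeMap (χ : Pt h) (n : ℕ) : PK A M q n →ₗ[Res A] Res A × Res A :=
  LinearMap.prod ((ptEv h (twist h χ)).toLinearMap.comp
      ((toR A M n).comp (LinearMap.fst _ _ _)))
    ((ptEv h χ).toLinearMap.comp ((toR A M (q * n)).comp (LinearMap.snd _ _ _)))

/-- If `div f = m D` and `f` reduces to the constants `a₀, a₁`, the two reductions `u, v` of an
element of `L(n ∞ + D)` are regular with `a₁ v(χ) ^ m = a₀ u(χ') ^ m` at every meeting point. -/
private theorem Setup.exists_rel_of_mem_LD {D : Divisor QBar (FB (q * M))} {m : ℕ} (hm : m ≠ 0)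
    (f : loc2 A (iota2 M q h.hqM)) (hord : ∀ v, v.ord (f : FB (q * M)) = (m : ℤ) * D v)
    (a : Fin 2 → Res A) (ha : ∀ s, a s ≠ 0)
    (hred : ∀ s, red2 A (iota2 M q h.hqM) f s = algebraMap (Res A) _ (a s)) {n : ℕ}
    (hiff : ∀ u v : Rk A M, (u : KM A M) ∈ Hk A M (m * n) →
      (v : KM A M) ∈ Hk A M (q * (m * n)) →
      (![serR A M u, serR A M v] ∈ Bn A M q h.hqM (m * n) ↔ v - qR A M q u ∈ IZ h))
    {r : Fin 2 → LaurentSeries (Res A)} (hr : r ∈ LD A h.hqM D n) :
    ∃ u v : Rk A M, (u : KM A M) ∈ Hk A M n ∧ (v : KM A M) ∈ Hk A M (q * n) ∧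
      r = ![serR A M u, serR A M v] ∧
      ∀ χ, a 1 * ptEv h χ v ^ m = a 0 * ptEv h (twist h χ) u ^ m := by
  obtain ⟨x, hx, rfl⟩ := mem_redSub.mp hr
  have hB : red2 A (iota2 M q h.hqM) (x ^ m * f) ∈ Bn A M q h.hqM (m * n) :=
    mem_redSub.mpr ⟨x ^ m * f, pow_mul_mem_HN hx hord, rfl⟩
  -- the two reductions `x0`, `x1` of `x`; those of `x ^ m * f` lie in `Bn (m * n)`
  set x0 : KM A M := ⟨_, red2_mem_KM M q h.hqM h.hM x 0⟩ with hx0
  set x1 : KM A M := ⟨_, red2_mem_KM M q h.hqM h.hM x 1⟩ with hx1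
  have e : red2 A (iota2 M q h.hqM) (x ^ m * f) =
      ![((algebraMap (Res A) (KM A M) (a 0) * x0 ^ m : KM A M) : LaurentSeries (Res A)),
        ((algebraMap (Res A) (KM A M) (a 1) * x1 ^ m : KM A M) : LaurentSeries (Res A))] := by
    funext s
    rw [map_mul, map_pow, Pi.mul_apply, Pi.pow_apply, hred, mul_comm]
    fin_cases s <;> rfl
  rw [e] at hB
  have hP := (mem_Pk A M).mp (Bn_le_Pk M q h.hqM h.hA h.hM _ hB)
  have hroot : ∀ (s : Fin 2) (k : ℕ) (z : KM A M),
      algebraMap (Res A) (KM A M) (a s) * z ^ m ∈ Hk A M (m * k) → z ∈ Hk A M k := by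
    intro s k z hz
    refine root_mem_polesSpace hm ?_
    have hdiv := Submodule.smul_mem _ (a s)⁻¹ hz
    rwa [Algebra.smul_def, ← mul_assoc, ← map_mul, inv_mul_cancel₀ (ha s), map_one,
      one_mul] at hdiv
  have hx0mem : x0 ∈ Hk A M n := hroot 0 n x0 (coe_mem_HkS.mp hP.1)
  have hx1mem : x1 ∈ Hk A M (q * n) := hroot 1 (q * n) x1 (by
    rw [show m * (q * n) = q * (m * n) by ring]
    exact coe_mem_HkS.mp hP.2)
  refine ⟨⟨x0, n, hx0mem⟩, ⟨x1, q * n, hx1mem⟩, hx0mem, hx1mem, by funext s; fin_cases s <;> rfl,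
    fun χ => ?_⟩
  set u : Rk A M := ⟨x0, n, hx0mem⟩
  set v : Rk A M := ⟨x1, q * n, hx1mem⟩
  have hI := (hiff (algebraMap (Res A) _ (a 0) * u ^ m)
    (algebraMap (Res A) _ (a 1) * v ^ m) (coe_mem_HkS.mp hP.1) (coe_mem_HkS.mp hP.2)).mp hB
  have hpt : ptEv h χ (algebraMap (Res A) _ (a 1) * v ^ m -
      qR A M q (algebraMap (Res A) _ (a 0) * u ^ m)) = 0 :=
    (congrArg χ (Ideal.Quotient.eq_zero_iff_mem.mpr hI)).trans (map_zero χ)
  rw [map_sub, sub_eq_zero, ← h.ptEv_twist] at hpt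
  simpa only [map_mul, map_pow, AlgHom.commutes, Algebra.algebraMap_self, RingHom.id_apply]
    using hpt

/-- **The gluing of a Kummer class exists.** -/
theorem Setup.exists_isGlue {D : Divisor QBar (FB (q * M))} {m : ℕ} (hm : m ≠ 0)
    (f : loc2 A (iota2 M q h.hqM)) (hord : ∀ v, v.ord (f : FB (q * M)) = (m : ℤ) * D v)
    (a : Fin 2 → Res A) (ha : ∀ s, a s ≠ 0)
    (hred : ∀ s, red2 A (iota2 M q h.hqM) f s = algebraMap (Res A) _ (a s)) :
    ∃ c : Pt h → Res A, IsGlue h D c ∧ ∀ χ, a 1 * c χ ^ m = a 0 := by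
  have := Arith.residueField_isAlgClosed A
  obtain ⟨n₁, hn₁⟩ := exists_finrank_HD (M := M) (q := q)
  obtain ⟨n₂, hn₂⟩ := h.exists_glued
  obtain ⟨n₃, hn₃⟩ := h.exists_mem_Bn_iff_IZ
  obtain ⟨n₄, hn₄⟩ := h.exists_probe
  set n₀ := n₁ + n₂ + n₃ + n₄ with hn₀
  have hdeg := degree_eq_zero_of_kummer hm hord
  have key : ∀ n, n₀ ≤ n →
      ∃ c : Pt h → Res A, (∀ χ, a 1 * c χ ^ m = a 0) ∧ LD A h.hqM D n = glued h c n := by
    intro n hn
    have hmn : n ≤ m * n := Nat.le_mul_of_pos_left n (Nat.pos_of_ne_zero hm)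
    -- the entries of a reduction satisfy the `m`th power of the gluing relation everywhere
    have hpairs := fun r hr =>
      h.exists_rel_of_mem_LD hm f hord a ha hred (hn₃ (m * n) (by omega)) (r := r) (n := n) hr
    -- so at each point they lie on one line; and the dimension is that of the glued pairs
    let W := fun χ => ((LD A h.hqM D n).comap (pkMap A M q n)).map (slopeMap h χ n)
    have hW : ∀ χ, ∀ w ∈ W χ, a 1 * w.2 ^ m = a 0 * w.1 ^ m := by
      rintro χ _ ⟨z, hz, rfl⟩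
      obtain ⟨u, v, -, -, e, hrel⟩ := hpairs _ hz
      rw [pkMap_apply] at e
      obtain rfl : toR A M n z.1 = u := serR_injective (congrFun e 0)
      obtain rfl : toR A M (q * n) z.2 = v := serR_injective (congrFun e 1)
      exact hrel χ
    choose c hc hcW using fun χ => exists_slope (W χ) hm (ha 1) (hW χ)
    refine ⟨c, hc, ?_⟩
    obtain ⟨hfin, hdim⟩ := (hn₂ n (by omega)).1 c
    refine Submodule.eq_of_le_of_finrank_le (fun r hr => ?_) ?_
    · obtain ⟨u, v, hu, hv, rfl, -⟩ := hpairs r hr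
      refine h.mem_glued.mpr ⟨u, v, hu, hv, rfl, fun χ => ?_⟩
      exact hcW χ _ ⟨(⟨u, hu⟩, ⟨v, hv⟩),
        show pkMap A M q n (⟨u, hu⟩, ⟨v, hv⟩) ∈ LD A h.hqM D n by rw [pkMap_apply]; exact hr, rfl⟩
    · rw [hdim, (finrank_Bn M q h.hqM h.hA n).2,
        (finrank_redSub q h.hA _ (iota2_fracS M q h.hqM) (HD M q D n)).2,
        hn₁ D hdeg n (by omega)]
  -- the gluing found in one degree works in all larger ones
  obtain ⟨c, hc, hcn⟩ := key n₀ le_rfl
  refine ⟨c, ⟨n₀, fun n hn => ?_⟩, hc⟩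
  obtain ⟨c', -, hcn'⟩ := key n hn
  obtain ⟨u, v, huv, hu, hv⟩ := hn₄ n₀ (by omega) c
  rw [← hcn] at huv
  have := LD_mono h.hqM D hn huv
  rw [hcn'] at this
  have e : c = c' := funext fun χ => by
    rw [← hv χ, h.rel_of_glued this χ, hu, mul_one]
  rw [hcn', e]

/-! ## Galois and the involution on gluings -/

omit h in
theorem galois_mem_HD (σ : Arith.GQ) {D : Divisor QBar (FB (q * M))} {n : ℕ} {x : FB (q * M)}
    (hx : x ∈ HD M q D n) :
    galF (q * M) σ x ∈ HD M q (arithmeticGalois (L := AlgebraicClosure ℚ)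
      (modularFunctionFieldFull (q * M))
        σ • D) n := by
  set g := arithmeticGalois (L := AlgebraicClosure ℚ) (modularFunctionFieldFull (q * M)) σ
  rw [mem_HD] at hx ⊢
  intro v
  have hord : ∀ z : FB (q * M), v.ord (galF (q * M) σ z) = (g⁻¹ • v).ord z := fun z => by
    have := SemilinearAut.ord_smul g (g⁻¹ • v) z
    rwa [smul_inv_smul] at this
  have hJ : galF (q * M) σ (upF M q (jM M)) = upF M q (jM M) := by rw [galF_upF, galF_jM]
  have hp : FF.poles QBar (upF M q (jM M)) v = FF.poles QBar (upF M q (jM M)) (g⁻¹ • v) := by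
    rw [FF.poles_apply, FF.poles_apply, ← hord, hJ]
  have h1 := hx (g⁻¹ • v)
  rw [FF.mem_ordGe] at h1 ⊢
  rw [SemilinearAut.divisor_smul_apply, hp, hord]
  rcases h1 with h1 | h1
  · exact Or.inl (by rw [h1, map_zero])
  · exact Or.inr h1

/-- Transport of gluings by an element of the decomposition group. -/
theorem Setup.galois_probe {σ : Arith.GQ} {φ : Res A →+* Res A} (hσ : ResLift A σ φ)
    {D : Divisor QBar (FB (q * M))} {c c' : Pt h → Res A} (hc : IsGlue h D c)
    (hc' : IsGlue h (arithmeticGalois (L := AlgebraicClosure ℚ) (modularFunctionFieldFull (q * M))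
      σ • D) c') :
    ∃ a b a' b' : Rk A M, (∀ χ, ptEv h χ a = 1) ∧ (∀ χ, ptEv h χ b = c χ) ∧
      serR A M a' = coeffMap φ (serR A M a) ∧ serR A M b' = coeffMap φ (serR A M b) ∧
      ∀ χ, ptEv h χ b' = c' χ * ptEv h (twist h χ) a' := by
  obtain ⟨n₁, hn₁⟩ := hc
  obtain ⟨n₂, hn₂⟩ := hc'
  obtain ⟨n₃, hn₃⟩ := h.exists_probe
  set n := n₁ + n₂ + n₃ with hn
  obtain ⟨a, b, hab, ha, hb⟩ := hn₃ n (by omega) c
  rw [← hn₁ n (by omega)] at hab
  obtain ⟨x, hx, hxr⟩ := mem_redSub.mp hab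
  obtain ⟨hx', hxr'⟩ := hσ.galF_mem_loc2 M q h.hqM x
  have hmem : red2 A (iota2 M q h.hqM) ⟨_, hx'⟩ ∈ glued h c' n := by
    rw [← hn₂ n (by omega)]
    exact mem_redSub.mpr ⟨⟨_, hx'⟩, galois_mem_HD σ hx, rfl⟩
  obtain ⟨a', b', -, -, e, hrel⟩ := h.mem_glued.mp hmem
  refine ⟨a, b, a', b', ha, hb, ?_, ?_, hrel⟩
  · have := congrFun e 0
    rw [hxr' 0, hxr] at this
    simpa using this.symm
  · have := congrFun e 1
    rw [hxr' 1, hxr] at this
    simpa using this.symm

/-- Inertia does not change gluings. -/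
theorem Setup.isGlue_inertia {σ : Arith.GQ} (hσ : σ ∈ A.inertiaSubgroupIn ℚ)
    {D : Divisor QBar (FB (q * M))} {c c' : Pt h → Res A} (hc : IsGlue h D c)
    (hc' : IsGlue h (arithmeticGalois (L := AlgebraicClosure ℚ) (modularFunctionFieldFull (q * M))
      σ • D) c')
        : c' = c := by
  obtain ⟨a, b, a', b', ha, hb, ea, eb, hrel⟩ := h.galois_probe (resLift_of_inertia hσ) hc hc'
  rw [coeffMap_id] at ea eb
  obtain rfl := serR_injective ea
  obtain rfl := serR_injective eb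
  funext χ
  rw [← hb χ, hrel χ, ha, mul_one]

/-- Frobenius twists gluings and raises them to the power `q`. -/
theorem Setup.isGlue_frobenius {σ : Arith.GQ} (hσ : A.IsFrobeniusAt σ q)
    {D : Divisor QBar (FB (q * M))} {c c' : Pt h → Res A} (hc : IsGlue h D c)
    (hc' : IsGlue h (arithmeticGalois (L := AlgebraicClosure ℚ) (modularFunctionFieldFull (q * M))
      σ • D) c') :
    c' = fun χ => c (twist h χ) ^ q := by
  obtain ⟨a, b, a', b', ha, hb, ea, eb, hrel⟩ := h.galois_probe (resLift_of_frobenius hσ) hc hc'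
  funext χ
  have h1 := hrel χ
  rw [h.ptEv_frobenius χ eb, h.ptEv_frobenius (twist h χ) ea, hb, h.twist_twist, ha, one_pow,
    mul_one] at h1
  exact h1.symm

/-- The involution as a semilinear automorphism. -/
def wAut : SemilinearAut QBar (FB (q * M)) := SemilinearAut.ofAlgAut (wEquiv q M h.hqM)

omit [CharP (Res A) q] [FF.IsFunctionField (Res A) ↥(KM A M)] in
theorem Setup.wAut_smul (x : FB (q * M)) : wAut h • x = wEquiv q M h.hqM x :=
  SemilinearAut.ofAlgAut_smul _ x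

omit [CharP (Res A) q] [FF.IsFunctionField (Res A) ↥(KM A M)] in
/-- `w` commutes with Galois. -/
theorem wAut_galois (σ : Arith.GQ) :
    wAut h * arithmeticGalois (L := QBar) (modularFunctionFieldFull (q * M)) σ =
      arithmeticGalois (L := QBar) (modularFunctionFieldFull (q * M)) σ * wAut h :=
  Subtype.ext (Prod.ext (RingEquiv.ext fun x => wEquiv_galois q M h.hqM σ x)
    (RingEquiv.ext fun _ => rfl))

omit [CharP (Res A) q] [FF.IsFunctionField (Res A) ↥(KM A M)] in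
/-- `w` commutes with the Galois action on classes. -/
theorem wAut_smul_galois (σ : Arith.GQ) (y : JZero (q * M)) :
    wAut h • σ • y = σ • wAut h • y := by
  show wAut h • (arithmeticGalois (L := QBar) (modularFunctionFieldFull (q * M)) σ • y) =
    arithmeticGalois (L := QBar) (modularFunctionFieldFull (q * M)) σ • (wAut h • y)
  rw [← mul_smul, ← mul_smul, wAut_galois]

omit [CharP (Res A) q] [FF.IsFunctionField (Res A) ↥(KM A M)] in
/-- The order of `w x` at `v` is the order of `x` at the transformed place. -/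
theorem Setup.ord_wEquiv (v : Place QBar (FB (q * M))) (x : FB (q * M)) :
    v.ord (wEquiv q M h.hqM x) = ((wAut h)⁻¹ • v).ord x := by
  have := SemilinearAut.ord_smul (wAut h) ((wAut h)⁻¹ • v) x
  rwa [smul_inv_smul, h.wAut_smul] at this

omit [CharP (Res A) q] [FF.IsFunctionField (Res A) ↥(KM A M)] in
theorem Setup.wEquiv_mem_HD {D : Divisor QBar (FB (q * M))} {n : ℕ} {x : FB (q * M)}
    (hx : x ∈ HD M q D n) : wEquiv q M h.hqM x ∈ HD M q (wAut h • D) (q * n) := by
  rw [mem_HD] at hx ⊢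
  intro v
  have h1 := hx ((wAut h)⁻¹ • v)
  rw [FF.mem_ordGe] at h1 ⊢
  rw [SemilinearAut.divisor_smul_apply, h.ord_wEquiv]
  rcases h1 with h1 | h1
  · exact Or.inl (by rw [h1, map_zero])
  refine Or.inr (le_trans ?_ h1)
  rw [FF.poles_apply, FF.poles_apply, ← h.ord_wEquiv, wEquiv_upF]
  obtain ⟨h2, h3⟩ := ord_downF_jM M q h.hqM v
  rw [neg_le_neg_iff, add_le_add_iff_right]
  by_cases hv : v.ord (upF M q (jM M)) < 0
  · obtain ⟨h4, h5⟩ := h3 hv
    rw [max_eq_right (by omega), max_eq_right (by omega)]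
    push_cast
    nlinarith
  · rw [max_eq_left (by omega), max_eq_left (by have := h2 (by omega); omega), mul_zero, mul_zero]

/-- The involution twists and inverts gluings. -/
theorem Setup.isGlue_wAut {D : Divisor QBar (FB (q * M))} {c c' : Pt h → Res A}
    (hc : IsGlue h D c) (hc' : IsGlue h (wAut h • D) c') :
    ∀ χ, c' χ * c (twist h χ) = 1 := by
  obtain ⟨n₁, hn₁⟩ := hc
  obtain ⟨n₂, hn₂⟩ := hc'
  obtain ⟨n₃, hn₃⟩ := h.exists_probe
  set n := n₁ + n₂ + n₃ with hn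
  obtain ⟨a, b, hab, ha, hb⟩ := hn₃ n (by omega) c
  rw [← hn₁ n (by omega)] at hab
  obtain ⟨x, hx, hxr⟩ := mem_redSub.mp hab
  obtain ⟨hw, hwr⟩ := h.wEquiv_red2 x
  have hmem : red2 A (iota2 M q h.hqM) ⟨_, hw⟩ ∈ glued h c' (q * n) := by
    rw [← hn₂ (q * n) ((show n₂ ≤ n by omega).trans (Nat.le_mul_of_pos_left n hq.out.pos))]
    exact mem_redSub.mpr ⟨⟨_, hw⟩, h.wEquiv_mem_HD hx, rfl⟩
  rw [hwr, hxr] at hmem
  intro χ
  have h1 := h.rel_of_glued (a := b) (b := a) (by simpa using hmem) χ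
  rw [ha, hb] at h1
  exact h1.symm

end Fermat.Agent.Semistable

end
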