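import Mathlib
import Fermat.Agent.Semistable.Basis

/-!
# Powers, roots and power series parts in `locS`
-/

set_option autoImplicit false

noncomputable section

namespace Fermat.Agent.Semistable

open ModularCurve Polynomial
open Arith (QBar)

/-- An element with a constant power is constant. -/
theorem exists_eq_const_of_pow {k E : Type*} [Field k] [IsAlgClosed k] [Field E] [Algebra k E]
    {r : E} {a : k} {m : ℕ} (hm : m ≠ 0) (h : r ^ m = algebraMap k E a) :
    ∃ b : k, r = algebraMap k E b := by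
  have hint : IsIntegral k r :=
    ⟨X ^ m - C a, monic_X_pow_sub_C a hm, by simp [h]⟩
  have h1 := IsAlgClosed.degree_eq_one_of_irreducible k (minpoly.irreducible hint)
  obtain ⟨b, hb⟩ := minpoly.degree_eq_one_iff.mp h1
  exact ⟨b, hb.symm⟩

/-- The expansion of `j` is a unit among Laurent series over any ring. -/
theorem isUnit_jqModC (R : Type*) [CommRing R] : IsUnit (jqModC R) := by
  rw [jqModC]
  refine IsUnit.mul (IsUnit.of_mul_eq_one (HahnSeries.single (1 : ℤ) (1 : R)) ?_) (IsUnit.map _ ?_)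
  · rw [HahnSeries.single_mul_single, mul_one]; rfl
  · rw [PowerSeries.isUnit_iff_constantCoeff]
    rw [← PowerSeries.coeff_zero_eq_constantCoeff, PowerSeries.coeff_map,
      PowerSeries.coeff_zero_eq_constantCoeff, constantCoeff_jNum, map_one]
    exact isUnit_one

variable {A : ValuationSubring QBar} {q : ℕ}

/-- A constant in `locS` with nonzero reduction is a unit of `A`. -/
theorem mem_of_algebraMap_mem_locS {a : QBar} (ha : algebraMap QBar LSer a ∈ locS A)
    (hr : redL A ⟨_, ha⟩ ≠ 0) : a ∈ A ∧ a ∉ A.nonunits := by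
  have hzero : ∀ b : QBar, b ∈ A.nonunits → ∀ hb : algebraMap QBar LSer b ∈ locS A,
      redL A ⟨_, hb⟩ = 0 := by
    intro b hb hb'
    rw [redL_congr _ (algebraMap_mem_locS (Arith.mem_of_mem_nonunits hb)) rfl,
      redL_algebraMap (Arith.mem_of_mem_nonunits hb),
      (residue_eq_zero_iff (Arith.mem_of_mem_nonunits hb)).mpr hb, map_zero]
  refine ⟨?_, fun h => hr (hzero a h ha)⟩
  by_contra hA
  have hinv : a⁻¹ ∈ A.nonunits := by
    rw [ValuationSubring.mem_nonunits_iff, map_inv₀]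
    exact inv_lt_one_of_one_lt₀ (not_le.mp fun h => hA ((A.valuation_le_one_iff a).mp h))
  have ha0 : a ≠ 0 := fun h => hA (by rw [h]; exact zero_mem A)
  have h1 : (⟨_, ha⟩ : locS A) *
      ⟨_, algebraMap_mem_locS (Arith.mem_of_mem_nonunits hinv)⟩ = 1 :=
    Subtype.ext (by
      show algebraMap QBar LSer a * algebraMap QBar LSer a⁻¹ = 1
      rw [← map_mul, mul_inv_cancel₀ ha0, map_one])
  have h2 := congrArg (redL A) h1
  rw [map_mul, hzero _ hinv, mul_zero, map_one] at h2
  exact zero_ne_one h2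

/-- An element of the fraction field with a power of nonzero reduction is in `locS`. -/
theorem mem_locS_of_pow (hA : A.LiesOverPrime q) (hq : q.Prime) {z : LSer} (hz : z ∈ fracS A)
    {m : ℕ} (hm : m ≠ 0) (hzm : z ^ m ∈ locS A) (hr : redL A ⟨_, hzm⟩ ≠ 0) : z ∈ locS A := by
  rcases eq_or_ne z 0 with rfl | hz0
  · exact zero_mem _
  obtain ⟨c, hc0, hcz, hcr⟩ := exists_scale hA hq hz hz0
  obtain ⟨hinv, hinv'⟩ := inv_mem_locS hzm hr
  have hdm : algebraMap QBar LSer (c ^ m) ∈ locS A := by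
    have h1 := mul_mem (pow_mem hcz m) hinv
    rwa [mul_pow, mul_assoc, mul_inv_cancel₀ (pow_ne_zero _ hz0), mul_one, ← map_pow] at h1
  have e : (⟨_, hdm⟩ : locS A) = ⟨_, hcz⟩ ^ m * ⟨_, hinv⟩ := Subtype.ext (by
    show algebraMap QBar LSer (c ^ m) = (algebraMap QBar LSer c * z) ^ m * (z ^ m)⁻¹
    rw [mul_pow, mul_assoc, mul_inv_cancel₀ (pow_ne_zero _ hz0), mul_one, map_pow])
  obtain ⟨hcA, hcu⟩ := mem_of_algebraMap_mem_locS hdm (by
    rw [e, map_mul, map_pow, hinv']
    exact mul_ne_zero (pow_ne_zero _ hcr) (inv_ne_zero hr))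
  have hc1 : A.valuation c = 1 := by
    have h1 : A.valuation (c ^ m) = 1 := le_antisymm ((A.valuation_le_one_iff _).mpr hcA)
      (not_lt.mp fun h => hcu ((ValuationSubring.mem_nonunits_iff A).mpr h))
    rw [map_pow] at h1
    exact (pow_eq_one_iff.mp h1).resolve_right hm
  have hcinv : c⁻¹ ∈ A := by
    rw [← A.valuation_le_one_iff, map_inv₀, hc1, inv_one]
  have h2 := mul_mem (algebraMap_mem_locS hcinv) hcz
  rwa [← mul_assoc, ← map_mul, inv_mul_cancel₀ hc0, map_one, one_mul] at h2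

/-- A high power of an element with zero reduction absorbs any element of the fraction field. -/
theorem exists_pow_mul_mem (hA : A.LiesOverPrime q) (hq : q.Prime) {x e : LSer}
    (hx : x ∈ fracS A) (he : e ∈ locS A) (hr : redL A ⟨e, he⟩ = 0) :
    ∃ N : ℕ, ∀ n, N ≤ n → ∃ h : x * e ^ n ∈ locS A, redL A ⟨_, h⟩ = 0 := by
  have hzero : ∀ y : LSer, y = 0 → ∃ h : y ∈ locS A, redL A ⟨y, h⟩ = 0 := by
    rintro _ rfl
    exact ⟨zero_mem _, map_zero _⟩
  rcases eq_or_ne x 0 with rfl | hx0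
  · exact ⟨0, fun n _ => hzero _ (zero_mul _)⟩
  rcases eq_or_ne e 0 with rfl | he0
  · exact ⟨1, fun n hn => hzero _ (by rw [zero_pow (by omega), mul_zero])⟩
  -- some `c x` is integral
  obtain ⟨c, hc0, hcx, -⟩ := exists_scale hA hq hx hx0
  obtain ⟨a, b, hb, hab⟩ := id he
  have ha : red A a = 0 := by
    have := redL_mul_red ⟨e, he⟩ hb hab
    rw [hr, zero_mul] at this
    exact this.symm
  have ha0 : (a : LSer) ≠ 0 := by
    rw [← hab]
    exact mul_ne_zero he0 (ne_zero_of_red_ne_zero hb)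
  -- divide the numerator of `e` by its largest coefficient `μ`, a non-unit
  obtain ⟨m, hm, hmax⟩ := exists_max_coeff hA hq a.2 ha0
  set μ := (a : LSer).coeff m with hμ
  have hμn : μ ∈ A.nonunits := red_eq_zero_iff.mp ha m
  have ha' : algebraMap QBar LSer μ⁻¹ * (a : LSer) ∈ intS A := by
    refine mem_intS.mpr ⟨finCoeff_of_mem_fracS
      (mul_mem (algebraMap_mem_fracS _) (intS_le_fracS a.2)), fun n => ?_⟩
    rw [algebraMap_laurentSeries_eq_single, HahnSeries.coeff_single_zero_mul, mul_comm,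
      ← div_eq_mul_inv]
    exact hmax n
  have he' : algebraMap QBar LSer μ⁻¹ * e ∈ locS A :=
    ⟨⟨_, ha'⟩, b, hb, by rw [mul_assoc, hab]⟩
  -- large powers of `μ` absorb `c`
  obtain ⟨N, hN⟩ := exists_pow_valuation_lt hA hq hμn hc0
  refine ⟨N, fun n hn => ?_⟩
  have hν : μ ^ n * c⁻¹ ∈ A.nonunits := by
    rw [ValuationSubring.mem_nonunits_iff, map_mul, map_inv₀, ← div_eq_mul_inv,
      div_lt_one₀ (zero_lt_iff.mpr ((Valuation.ne_zero_iff _).mpr hc0))]
    refine lt_of_le_of_lt ?_ hN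
    rw [map_pow, map_pow]
    exact pow_le_pow_of_le_one zero_le ((ValuationSubring.mem_nonunits_iff A).mp hμn).le hn
  have hmem := mul_mem (algebraMap_mem_locS (Arith.mem_of_mem_nonunits hν))
    (mul_mem hcx (pow_mem he' n))
  have e1 : x * e ^ n = algebraMap QBar LSer (μ ^ n * c⁻¹) *
      (algebraMap QBar LSer c * x * (algebraMap QBar LSer μ⁻¹ * e) ^ n) := by
    rw [map_mul, map_pow, map_inv₀, map_inv₀]
    have h1 : algebraMap QBar LSer μ ≠ 0 := (_root_.map_ne_zero _).mpr hm
    have h2 : algebraMap QBar LSer c ≠ 0 := (_root_.map_ne_zero _).mpr hc0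
    field_simp
    rw [div_pow, mul_div_cancel₀ _ (pow_ne_zero _ h1)]
  refine ⟨by rw [e1]; exact hmem, ?_⟩
  rw [redL_congr _ hmem e1,
    show (⟨_, hmem⟩ : locS A) = ⟨_, algebraMap_mem_locS (Arith.mem_of_mem_nonunits hν)⟩ *
      ⟨_, mul_mem hcx (pow_mem he' n)⟩ from rfl,
    map_mul, redL_algebraMap (Arith.mem_of_mem_nonunits hν),
    (residue_eq_zero_iff _).mpr hν, map_zero, zero_mul]

/-! ### Series without polar part -/

/-- Series without polar part. -/
def posS : Subring LSer where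
  carrier := {x | ∀ n < 0, x.coeff n = 0}
  one_mem' n hn := by rw [HahnSeries.coeff_one, if_neg hn.ne]
  mul_mem' {x y} hx hy n hn := coeff_mul_eq_zero_of_lt (a := 0) (b := 0) hx hy n (by omega)
  zero_mem' n _ := rfl
  add_mem' {x y} hx hy n hn := by rw [HahnSeries.coeff_add, hx n hn, hy n hn, add_zero]
  neg_mem' {x} hx n hn := by rw [HahnSeries.coeff_neg, hx n hn, neg_zero]

theorem algebraMap_mem_posS (a : QBar) : algebraMap QBar LSer a ∈ posS := fun n hn => by
  rw [algebraMap_laurentSeries_eq_single, HahnSeries.coeff_single_of_ne hn.ne]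

theorem qExpand_mem_posS (d : ℕ) [NeZero d] {x : LSer} (hx : x ∈ posS) :
    qExpand QBar d x ∈ posS := fun n hn => by
  by_cases hdn : (d : ℤ) ∣ n
  · obtain ⟨m, rfl⟩ := hdn
    rw [qExpand_coeff_mul]
    exact hx m (by nlinarith [Int.natCast_nonneg d])
  · exact qExpand_coeff_of_not_dvd d _ hdn

theorem jqModC_inv_mem : (jqModC QBar)⁻¹ ∈ intS A ⊓ posS := by
  have hj : jqModC QBar ≠ 0 := fun h0 => by simpa [h0] using Igusa.order_jqModC (K := QBar)
  refine Subring.mem_inf.mpr ⟨?_, fun n hn => HahnSeries.coeff_eq_zero_of_lt_order ?_⟩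
  · obtain ⟨u, hu⟩ := isUnit_jqModC ℤ
    have e : (jqModC QBar)⁻¹ = coeffMap (Int.castRingHom QBar) (u⁻¹ : (LaurentSeries ℤ)ˣ).1 := by
      refine inv_eq_of_mul_eq_one_right ?_
      rw [← coeffMap_jqModC (Int.castRingHom QBar), ← hu, ← map_mul, Units.mul_inv, map_one]
    rw [e]
    exact coeffMap_intCast_mem_intS _
  · have h1 := HahnSeries.order_mul hj (inv_ne_zero hj)
    rw [mul_inv_cancel₀ hj, HahnSeries.order_one, Igusa.order_jqModC] at h1
    omega

end Fermat.Agent.Semistable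

end
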