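import Mathlib
import Fermat.Agent.Semistable.Pairs
import Fermat.Agent.Semistable.RootLemmas

/-!
# Integral functions on the chart at infinity
-/

set_option autoImplicit false

noncomputable section

namespace Fermat.Agent.Semistable

open ModularCurve AlgebraicCurve Polynomial
open Arith (QBar)

variable {A : ValuationSubring QBar} {M : ℕ} [NeZero M] {q : ℕ} [hq : Fact q.Prime]
  [CharP (Res A) q] [FF.IsFunctionField (Res A) (KM A M)]

/-- A function regular where `j ≠ 0` is integral over `QBar[1/j]`. -/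
theorem isIntegral_of_regular_infty {z : FB (q * M)}
    (hz : ∀ v : Place QBar (FB (q * M)), v.ord (upF M q (jM M)) ≤ 0 → z ∈ FF.ordGe v 0) :
    IsIntegral (Algebra.adjoin QBar {upF M q (jM M)⁻¹}) z := by
  refine FF.isIntegral_of_forall_mem _ fun v hv => (FF.mem_ordGe_zero v).mp (hz v ?_)
  have h1 := FF.ord_nonneg v (hv _ (Algebra.self_mem_adjoin_singleton QBar _))
  rw [map_inv₀, v.ord_inv] at h1
  omega

variable (h : Setup A M q)
include h

omit [FF.IsFunctionField (Res A) ↥(KM A M)] in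
/-- Integral functions on the chart at infinity have integral expansions without polar part. -/
theorem Setup.coeff_at_infty (x : loc2 A (iota2 M q h.hqM))
    (hx : IsIntegral (Algebra.adjoin QBar {upF M q (jM M)⁻¹}) (x : FB (q * M))) (s : Fin 2) :
    iota2 M q h.hqM s x ∈ intS A ⊓ posS := by
  let u := upParam M h.hqM (⟨(jM M)⁻¹, jM_inv_mem M⟩ : loc2 A (iota1 M))
  obtain ⟨e, he, -, hfin, hcard⟩ :=
    exists_level_mul_data M q h.hqM h.hM (isParam_jM_inv (A := A) M q)
  obtain ⟨R, hR, hRx⟩ := he.exists_monic_rel h.hA hq.out (iota2_fracS M q h.hqM)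
    (transcendental_red2_upParam M q h.hqM (isParam_jM_inv (A := A) M q)) hfin hcard hx
  let ψ : (A : Type)[X] →+* LSer :=
    ((iota2 M q h.hqM s).toRingHom.comp (loc2 A (iota2 M q h.hqM)).subtype).comp
      (evA (iota2 M q h.hqM) u :
        (A : Type)[X] →+* loc2 A (iota2 M q h.hqM))
  have hus : iota2 M q h.hqM s (u : FB (q * M)) ∈ intS A ⊓ posS := by
    have h0 : iota2 M q h.hqM 0 (u : FB (q * M)) = (jqModC QBar)⁻¹ := by
      show ((upF M q (jM M)⁻¹ : FB (q * M)) : LSer) = _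
      rw [coe_upF, ← coe_jM M]
      rfl
    have h1 : iota2 M q h.hqM 1 (u : FB (q * M)) = qExpand QBar q (jqModC QBar)⁻¹ := by
      show ((wEquiv q M h.hqM (upF M q (jM M)⁻¹) : FB (q * M)) : LSer) = _
      rw [wEquiv_upF, coe_downF, ← coe_jM M]
      rfl
    obtain ⟨hi, hp⟩ := Subring.mem_inf.mp (jqModC_inv_mem (A := A))
    fin_cases s
    · exact h0 ▸ Subring.mem_inf.mpr ⟨hi, hp⟩
    · exact h1 ▸ Subring.mem_inf.mpr ⟨qExpand_mem_intS q hi, qExpand_mem_posS q hp⟩
  have hψ : ∀ P, ψ P ∈ intS A ⊓ posS := by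
    intro P
    show iota2 M q h.hqM s ((evA (iota2 M q h.hqM) u P : loc2 A (iota2 M q h.hqM)) : FB (q * M)) ∈ _
    rw [coe_evA, ← aeval_algHom_apply, aeval_eq_sum_range]
    refine sum_mem fun i _ => ?_
    rw [Algebra.smul_def, coeff_map]
    exact mul_mem (Subring.mem_inf.mpr
      ⟨algebraMap_mem_intS (P.coeff i).2, algebraMap_mem_posS _⟩) (pow_mem hus i)
  have hroot : (R.map ψ).eval (iota2 M q h.hqM s x) = 0 := by
    rw [eval_map]
    have h2 := congrArg ((iota2 M q h.hqM s).toRingHom.comp (loc2 A (iota2 M q h.hqM)).subtype) hRx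
    rw [map_zero, hom_eval₂] at h2
    exact h2
  have hcoef : ∀ i, (R.map ψ).coeff i ∈ intS A ⊓ posS := fun i => by
    rw [coeff_map]; exact hψ _
  exact Subring.mem_inf.mpr
    ⟨mem_intS_of_isIntegral h.hA hq.out (iota2_fracS M q h.hqM s _) (hR.map ψ)
      (fun i => (Subring.mem_inf.mp (hcoef i)).1) hroot,
    coeff_eq_zero_of_isIntegral (hR.map ψ) (fun i => (Subring.mem_inf.mp (hcoef i)).2) hroot⟩

omit [FF.IsFunctionField (Res A) ↥(KM A M)] in
/-- Their reductions are regular at the cusps of level `M`. -/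
theorem Setup.red2_regular_infty (x : loc2 A (iota2 M q h.hqM))
    (hx : IsIntegral (Algebra.adjoin QBar {upF M q (jM M)⁻¹}) (x : FB (q * M))) (s : Fin 2)
    {z : KM A M} (hz : (z : LaurentSeries (Res A)) = red2 A (iota2 M q h.hqM) x s)
    (v : Place (Res A) (KM A M)) (hv : v.ord (jK A M) < 0) : z ∈ FF.ordGe v 0 := by
  obtain ⟨S, hS, hrel⟩ :=
    red2_integral (A := A) M q h.hqM h.hA h.hM (isParam_jM_inv (A := A) M q) hx s
  have hpow' : red2 A (iota2 M q h.hqM)
      (upParam M h.hqM (⟨(jM M)⁻¹, jM_inv_mem M⟩ : loc2 A (iota1 M))) s =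
      (jqModC (Res A) ^ sideDeg q s)⁻¹ := by
    rw [red2_upF, red1_jM_inv]
    fin_cases s
    · simp [sideDeg]
    · show qExpand (Res A) q (jqModC (Res A))⁻¹ = _
      rw [map_inv₀, ← pow_eq_qExpand_gen_one]
      rfl
  rw [hpow'] at hrel
  refine mem_ordGe_zero_of_rel v (u := (jK A M ^ sideDeg q s)⁻¹) (R := S)
    (FF.mem_ordGe_of_le v (by
      rw [v.ord_inv, FF.ord_pow]
      nlinarith [Int.natCast_nonneg (sideDeg q s)])) hS ?_
  refine (KM A M).val.injective ?_
  rw [map_zero]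
  refine Eq.trans ?_ hrel
  show (KM A M).val.toRingHom _ = _
  rw [hom_eval₂]
  congr 1
  exact RingHom.ext fun p => (aeval_algHom_apply (KM A M).val (jK A M ^ sideDeg q s)⁻¹ p).symm

end Fermat.Agent.Semistable

end
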