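import Mathlib
import Fermat.Agent.Semistable.Classes
import Fermat.Agent.Semistable.InfinityChart
import Fermat.Agent.Semistable.TraceTrick

/-!
# A Kummer class with trivial gluing is trivial

If `m D = div f` with `m` prime to `q`, the reductions of `f` are nonzero constants and the gluing
of `D` is one, then `D` is principal (`Setup.principal_of_glue_one`).
-/

set_option autoImplicit false

noncomputable section

namespace Fermat.Agent.Semistable

open ModularCurve AlgebraicCurve Polynomial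
open Arith (QBar)

attribute [local instance 10000] SubalgebraClass.toAlgebra HahnSeries.powerSeriesAlgebra
attribute [-instance] RingHom.Finite.instFinite IsScalarTower.of_algHom
attribute [local instance 2000] Module.Free.of_divisionRing

variable {A : ValuationSubring QBar} {M : ℕ} [NeZero M] {q : ℕ} [hq : Fact q.Prime]
  [CharP (Res A) q] [FF.IsFunctionField (Res A) (KM A M)] (h : Setup A M q)
include h

/-! ## The expansions and the pair map -/

/-- The pair map `(a, b) ↦ a + H b`. -/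
def pairHMap (H : Fin 2 → LSer) (D : Divisor QBar (FB (q * M))) (n : ℕ) :
    (HN M q n × HD M q D n) →ₗ[QBar] (Fin 2 → LSer) where
  toFun w s := iota2 M q h.hqM s (w.1 : FB (q * M)) + H s * iota2 M q h.hqM s (w.2 : FB (q * M))
  map_add' w w' := funext fun s => by
    simp only [Prod.fst_add, Prod.snd_add, Submodule.coe_add, map_add, Pi.add_apply]
    ring
  map_smul' c w := funext fun s => by
    simp only [Prod.smul_fst, Prod.smul_snd, SetLike.val_smul, RingHom.id_apply, Pi.smul_apply,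
      Algebra.smul_def, map_mul, AlgHom.commutes]
    rw [smul_eq_algebraMap_mul, Algebra.algebraMap_self, RingHom.id_apply]
    ring

/-- Roots of the constants, equal whenever there is a meeting point. -/
private theorem exists_root_family [IsAlgClosed (Res A)] {p : ℕ} (hp : p.Prime) {a₀ : Fin 2 → Res A}
    (ha₀ : ∀ s, a₀ s ≠ 0) (heq : ∀ _ : Pt h, a₀ 1 = a₀ 0) :
    ∃ ρ : Fin 2 → Res A, (∀ s, ρ s ^ p = a₀ s) ∧ (∀ s, ρ s ≠ 0) ∧ ∀ _ : Pt h, ρ 1 = ρ 0 := by
  have hr : ∀ s, ∃ b : Res A, b ^ p = a₀ s := fun s =>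
    IsAlgClosed.exists_pow_nat_eq (a₀ s) hp.pos
  choose b hb using hr
  have hne : ∀ (c : Res A) (s : Fin 2), c ^ p = a₀ s → c ≠ 0 := fun c s hc h0 =>
    ha₀ s (by rw [← hc, h0, zero_pow hp.ne_zero])
  rcases isEmpty_or_nonempty (Pt h) with hem | ⟨⟨χ₀⟩⟩
  · exact ⟨b, hb, fun s => hne _ s (hb s), fun χ => (IsEmpty.false χ).elim⟩
  · refine ⟨fun _ => b 0, fun s => ?_, fun s => hne _ 0 (hb 0), fun _ => rfl⟩
    fin_cases s
    · exact hb 0
    · exact (hb 0).trans (heq χ₀).symm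

/-- Sections of `D` reducing to `ρ⁻¹` times powers of `j` on the two sides. -/
private theorem exists_section {D : Divisor QBar (FB (q * M))} {n₀ : ℕ}
    (hglue : LD A h.hqM D n₀ = glued h 1 n₀) {ρ : Fin 2 → Res A} (hρeq : ∀ _ : Pt h, ρ 1 = ρ 0)
    {k : ℕ} (hk : k ≤ n₀) :
    ∃ x : loc2 A (iota2 M q h.hqM), (x : FB (q * M)) ∈ HD M q D n₀ ∧
      red2 A (iota2 M q h.hqM) x = ![algebraMap (Res A) _ (ρ 0)⁻¹ * jqModC (Res A) ^ k,
        algebraMap (Res A) _ (ρ 1)⁻¹ * qExpand (Res A) q (jqModC (Res A)) ^ k] := by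
  have hj1 : jK A M ∈ Hk A M 1 := RedTorsion.mem_polesSpace.mpr fun v => by
    refine FF.mem_ordGe_of_le v ?_
    rw [FF.poles_apply, Nat.cast_one, one_mul]
    omega
  let jR : Rk A M := ⟨jK A M, 1, hj1⟩
  have hHk : ∀ (c : Res A) (i b : ℕ), i ≤ b →
      ((algebraMap (Res A) (Rk A M) c * jR ^ i : Rk A M) : KM A M) ∈ Hk A M b := by
    intro c i b hib
    refine RedTorsion.polesSpace_mono hib ?_
    rw [RedTorsion.mem_polesSpace]
    intro v
    show algebraMap (Res A) (KM A M) c * jK A M ^ i ∈ _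
    refine FF.ordGe_anti v (le_of_eq ?_) (FF.mul_mem_ordGe v (m := 0)
      (FF.mem_ordGe_of_le v (by rw [FF.ord_algebraMap]))
      (FF.pow_mem_ordGe v (RedTorsion.mem_polesSpace.mp hj1 v) i))
    ring
  refine mem_redSub.mp (hglue.ge (h.mem_glued.mpr
    ⟨algebraMap (Res A) _ (ρ 0)⁻¹ * jR ^ k, algebraMap (Res A) _ (ρ 1)⁻¹ * jR ^ (q * k),
      hHk _ _ _ hk, hHk _ _ _ (Nat.mul_le_mul_left q hk), ?_, fun χ => ?_⟩))
  · rw [map_mul, map_mul, map_pow, map_pow, serR_algebraMap, serR_algebraMap,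
      ← pow_eq_qExpand_gen_one, ← pow_mul]
    rfl
  · have hjq : qR A M q jR = jR ^ q := serR_injective (by
      rw [serR_qR, map_pow]
      exact (pow_eq_qExpand_gen_one q).symm)
    rw [Pi.one_apply, one_mul, map_mul, map_mul, AlgHom.commutes, AlgHom.commutes, map_pow,
      map_pow, h.ptEv_twist χ jR, hjq, map_pow, ← pow_mul, hρeq χ]

omit [FF.IsFunctionField (Res A) (KM A M)] in
/-- The expansions of `f` have `p`-th roots reducing to the constants `ρ`. -/
private theorem exists_kummer_root {p : ℕ} (hp : p.Prime) (hpu : (p : QBar) ∉ A.nonunits)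
    (f T' : loc2 A (iota2 M q h.hqM))
    (hGint : IsIntegral (Algebra.adjoin QBar {upF M q (jM M)⁻¹})
      ((T' ^ p * f : loc2 A (iota2 M q h.hqM)) : FB (q * M)))
    (hGred : red2 A (iota2 M q h.hqM) (T' ^ p * f) = 1) {ρ : Fin 2 → Res A} (hρ0 : ∀ s, ρ s ≠ 0)
    (hT'red : ∀ s, red2 A (iota2 M q h.hqM) T' s = algebraMap (Res A) _ (ρ s)⁻¹) (s : Fin 2) :
    ∃ H : LSer, H ^ p = iota2 M q h.hqM s (f : FB (q * M)) ∧
      ∃ hH : H ∈ locS A, redL A ⟨H, hH⟩ = algebraMap (Res A) _ (ρ s) := by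
  set G := T' ^ p * f with hG
  obtain ⟨hi, hpos⟩ := Subring.mem_inf.mp (h.coeff_at_infty G hGint s)
  have hr : red A ⟨_, hi⟩ = 1 := by
    rw [← redL_of_mem_intS]
    exact congrFun hGred s
  obtain ⟨g, hg, hgp, hgr⟩ := exists_root (r := 1) hp.ne_zero hpu hi (l := 0)
    (fun n hn => hpos n (by simpa using hn)) (fun hc => by
      have h2 := congrArg (fun z : LaurentSeries (Res A) => z.coeff ((p : ℤ) * 0)) hr
      simp only [coeff_red, (residue_eq_zero_iff _).mpr hc] at h2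
      simp at h2) (by rw [one_pow, hr])
  have hT's : redL A ⟨iota2 M q h.hqM s (T' : FB (q * M)), (mem_loc2 _).mp T'.2 s⟩ =
      algebraMap (Res A) _ (ρ s)⁻¹ := hT'red s
  have hne : algebraMap (Res A) (LaurentSeries (Res A)) (ρ s)⁻¹ ≠ 0 :=
    (_root_.map_ne_zero _).mpr (inv_ne_zero (hρ0 s))
  obtain ⟨hinv, hinv'⟩ := inv_mem_locS ((mem_loc2 _).mp T'.2 s) (by rw [hT's]; exact hne)
  have hT'0 : iota2 M q h.hqM s (T' : FB (q * M)) ≠ 0 := fun h0 => hne (by
    rw [← hT's, redL_congr _ (zero_mem _) h0]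
    exact map_zero _)
  refine ⟨g * (iota2 M q h.hqM s (T' : FB (q * M)))⁻¹, ?_, mul_mem (intS_le_locS hg) hinv, ?_⟩
  · rw [mul_pow, hgp, inv_pow, hG]
    show iota2 M q h.hqM s ((T' : FB (q * M)) ^ p * (f : FB (q * M))) * _ = _
    rw [map_mul, map_pow, mul_comm, ← mul_assoc, inv_mul_cancel₀ (pow_ne_zero _ hT'0), one_mul]
  · rw [show (⟨_, mul_mem (intS_le_locS hg) hinv⟩ : locS A) =
        ⟨g, intS_le_locS hg⟩ * ⟨_, hinv⟩ from rfl, map_mul, hinv', hT's, ← map_inv₀, inv_inv,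
      redL_of_mem_intS ⟨g, hg⟩, hgr, one_mul]

omit [CharP (Res A) q] [FF.IsFunctionField (Res A) (KM A M)] in
/-- The pair map is injective unless `D` is principal. -/
private theorem injective_pairHMap {D : Divisor QBar (FB (q * M))} {p : ℕ} (hp : p.Prime)
    (hnp : D ∉ Divisor.principal (K := QBar) (F := FB (q * M))) (f : loc2 A (iota2 M q h.hqM))
    (hord : ∀ v, v.ord (f : FB (q * M)) = (p : ℤ) * D v) {a₀ : Fin 2 → Res A} (ha₀ : ∀ s, a₀ s ≠ 0)
    (hred : ∀ s, red2 A (iota2 M q h.hqM) f s = algebraMap (Res A) _ (a₀ s)) {H : Fin 2 → LSer}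
    (hH : ∀ s, H s ^ p = iota2 M q h.hqM s (f : FB (q * M))) (n : ℕ) :
    Function.Injective (pairHMap h H D n) := by
  rw [← LinearMap.ker_eq_bot, LinearMap.ker_eq_bot']
  rintro ⟨⟨a, ha⟩, ⟨b, hb⟩⟩ hab
  have h0 : iota2 M q h.hqM 0 a + H 0 * iota2 M q h.hqM 0 b = 0 := congrFun hab 0
  rcases eq_or_ne b 0 with rfl | hb0
  · rw [map_zero, mul_zero, add_zero] at h0
    obtain rfl := (iota2 M q h.hqM 0).injective (h0.trans (map_zero _).symm)
    rfl
  · exfalso
    refine hnp ⟨-a / b, ?_, fun v => ?_⟩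
    · intro hz
      have e : iota2 M q h.hqM 0 (f : FB (q * M)) = 0 := by
        rw [← hH 0]
        have hb' : iota2 M q h.hqM 0 b ≠ 0 := (_root_.map_ne_zero _).mpr hb0
        rcases div_eq_zero_iff.mp hz with hz' | hz'
        · rw [neg_eq_zero.mp hz', map_zero, zero_add] at h0
          rw [(mul_eq_zero.mp h0).resolve_right hb', zero_pow hp.ne_zero]
        · exact absurd hz' hb0
      have h1 : redL A ⟨iota2 M q h.hqM 0 (f : FB (q * M)), (mem_loc2 _).mp f.2 0⟩ =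
          algebraMap (Res A) _ (a₀ 0) := hred 0
      rw [redL_congr _ (zero_mem _) e] at h1
      exact ha₀ 0 ((_root_.map_eq_zero _).mp ((map_zero (redL A)).symm.trans h1).symm)
    · have hH0 : H 0 = iota2 M q h.hqM 0 (-a / b) := by
        rw [map_div₀, map_neg, eq_div_iff ((_root_.map_ne_zero _).mpr hb0)]
        linear_combination h0
      have hf : (f : FB (q * M)) = (-a / b) ^ p := by
        refine (iota2 M q h.hqM 0).injective ?_
        show _ = iota2 M q h.hqM 0 ((-a / b) ^ p)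
        rw [map_pow, ← hH0, hH]
        rfl
      have := hord v
      rw [hf, FF.ord_pow] at this
      exact (mul_left_cancel₀ (by exact_mod_cast hp.ne_zero) this).symm

/-! ## The reduced image -/

/-- A reduction with bounded poles which is regular at infinity after multiplication by the `n`-th
power of the parameter has poles bounded by `n`. -/
private theorem mem_HkS_of_regular_infty (Ti : loc2 A (iota2 M q h.hqM))
    (hTint : IsIntegral (Algebra.adjoin QBar {upF M q (jM M)⁻¹}) (Ti : FB (q * M)))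
    {r : Fin 2 → LaurentSeries (Res A)} {n N' : ℕ}
    (hTi : red2 A (iota2 M q h.hqM) Ti = fun s => r s *
      red2 A (iota2 M q h.hqM)
        (upParam M h.hqM (⟨(jM M)⁻¹, jM_inv_mem M⟩ : loc2 A (iota1 M))) s ^ n)
    (s : Fin 2) (hmem' : r s ∈ HkS A M (sideDeg q s * N')) : r s ∈ HkS A M (sideDeg q s * n) := by
  let u := upParam M h.hqM (⟨(jM M)⁻¹, jM_inv_mem M⟩ : loc2 A (iota1 M))
  have hured : red2 A (iota2 M q h.hqM) u =
      ![(jqModC (Res A))⁻¹, qExpand (Res A) q (jqModC (Res A))⁻¹] := by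
    rw [red2_upF, red1_jM_inv]
  obtain ⟨z, hz, hz'⟩ := exists_serR hmem'
  have hrw : r s = ((z : KM A M) : LaurentSeries (Res A)) := hz.symm
  rw [hrw]
  refine coe_mem_HkS.mpr (RedTorsion.mem_polesSpace.mpr fun v => ?_)
  by_cases hv : v.ord (jK A M) < 0
  · have hj0 : jK A M ≠ 0 := fun h0 => by simp [h0] at hv
    set μ := jK A M ^ sideDeg q s with hμ
    have h1 : (z : KM A M) * μ⁻¹ ^ n ∈ FF.ordGe v 0 := by
      refine h.red2_regular_infty Ti hTint s ?_ v hv
      rw [hTi]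
      show _ = r s * red2 A (iota2 M q h.hqM) u s ^ n
      rw [hured, hrw, hμ]
      push_cast
      rw [coe_jK]
      fin_cases s
      · simp [sideDeg]
      · simp [sideDeg, ← pow_eq_qExpand_gen_one]
    have h2 := FF.mul_mem_ordGe v h1
      (FF.pow_mem_ordGe v (FF.mem_ordGe_of_le v (le_refl (v.ord μ))) n)
    rw [mul_assoc, ← mul_pow, inv_mul_cancel₀ (pow_ne_zero _ hj0), one_pow, mul_one, zero_add,
      hμ, FF.ord_pow] at h2
    refine FF.ordGe_anti v (le_of_eq ?_) h2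
    rw [FF.poles_apply, max_eq_right (by omega)]
    push_cast
    ring
  · refine FF.ordGe_anti v ?_ (mem_ordGe_zero_of_poles hz' (not_lt.mp hv))
    rw [FF.poles_apply, max_eq_left (by omega), mul_zero, neg_zero]

/-- The reduced image of `L(n ∞) + H L(n ∞ + D)` consists of pairs with poles bounded by `n`: the
traces are regular on the finite chart and, shifted, at infinity. -/
private theorem redImage_le_Pk {D : Divisor QBar (FB (q * M))} {p : ℕ} (hp : p.Prime)
    (hpu : (p : QBar) ∉ A.nonunits) (f : loc2 A (iota2 M q h.hqM))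
    (hord : ∀ v, v.ord (f : FB (q * M)) = (p : ℤ) * D v) {ρ : Fin 2 → Res A} (hρ0 : ∀ s, ρ s ≠ 0)
    {n₀ : ℕ} (sσ tσ : loc2 A (iota2 M q h.hqM)) (hsmem : (sσ : FB (q * M)) ∈ HD M q D n₀)
    (htmem : (tσ : FB (q * M)) ∈ HD M q D n₀)
    (hsred : ∀ s, red2 A (iota2 M q h.hqM) sσ s = algebraMap (Res A) _ (ρ s)⁻¹)
    (hT'red : ∀ s, red2 A (iota2 M q h.hqM)
      (tσ * upParam M h.hqM (⟨(jM M)⁻¹, jM_inv_mem M⟩ : loc2 A (iota1 M)) ^ n₀) s =
        algebraMap (Res A) _ (ρ s)⁻¹)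
    {H : Fin 2 → LSer} (hH : ∀ s, H s ^ p = iota2 M q h.hqM s (f : FB (q * M)))
    (hHmem : ∀ s, H s ∈ locS A)
    (hHred : ∀ s, redL A ⟨H s, hHmem s⟩ = algebraMap (Res A) _ (ρ s)) (n : ℕ) :
    redImage A (LinearMap.range (pairHMap h H D n)) ≤ Pk A M q n := by
  let u := upParam M h.hqM (⟨(jM M)⁻¹, jM_inv_mem M⟩ : loc2 A (iota1 M))
  let T' := tσ * u ^ n₀
  rintro _ ⟨_, ⟨⟨⟨a, ha⟩, ⟨b, hb⟩⟩, rfl⟩, hloc, rfl⟩
  set r : Fin 2 → LaurentSeries (Res A) :=
    fun s => redL A ⟨pairHMap h H D n (⟨a, ha⟩, ⟨b, hb⟩) s, hloc s⟩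
  have hx : ∀ s, ∃ hm : iota2 M q h.hqM s a + H s * iota2 M q h.hqM s b ∈ locS A,
      redL A ⟨_, hm⟩ = r s := fun s => ⟨hloc s, rfl⟩
  -- the finite chart
  have hσ : ∀ (σ₀ : loc2 A (iota2 M q h.hqM)),
      (∀ s, red2 A (iota2 M q h.hqM) σ₀ s = algebraMap (Res A) _ (ρ s)⁻¹) → ∀ s,
      ∃ hm : iota2 M q h.hqM s (σ₀ : FB (q * M)) * H s ∈ locS A, redL A ⟨_, hm⟩ = 1 := by
    intro σ₀ h0 s
    refine ⟨mul_mem ((mem_loc2 _).mp σ₀.2 s) (hHmem s), ?_⟩
    rw [show (⟨_, mul_mem ((mem_loc2 _).mp σ₀.2 s) (hHmem s)⟩ : locS A) =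
      ⟨_, (mem_loc2 _).mp σ₀.2 s⟩ * ⟨_, hHmem s⟩ from rfl, map_mul, hHred s,
      show redL A ⟨_, (mem_loc2 _).mp σ₀.2 s⟩ = _ from h0 s, ← map_mul,
      inv_mul_cancel₀ (hρ0 s), map_one]
  obtain ⟨Tf, hTf, hTfreg⟩ := exists_trace h.hA hq.out (iota2 M q h.hqM)
    (iota2_fracS M q h.hqM) hp hpu (f : FB (q * M)) (sσ : FB (q * M)) a b H hH
    (fun s => locS_le_fracS (hHmem s)) (hσ sσ hsred) r hx
  obtain ⟨N', hN'⟩ := RedTorsion.exists_mem_polesSpace (K := QBar)
      (x := upF M q (jM M)) (f := (Tf : FB (q * M))) fun v hv => by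
    have hb' := (mem_HD M q).mp hb v
    have hs' := (mem_HD M q).mp hsmem v
    rw [FF.poles_apply, max_eq_left (by omega), mul_zero, zero_add] at hb' hs'
    exact hTfreg v (D v) (hord v) (mem_ordGe_zero_of_poles ha hv) hb' hs'
  have hP' : r ∈ Pk A M q N' := hTf ▸ red2_mem_Pk M q h.hqM h.hA h.hM hN'
  -- the chart at infinity
  have hshift : ∀ (v : Place QBar (FB (q * M))) (k : ℕ) (y : FB (q * M)) (d : ℤ),
      v.ord (upF M q (jM M)) ≤ 0 →
      y ∈ FF.ordGe v (-((k : ℤ) * FF.poles QBar (upF M q (jM M)) v + d)) →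
      y * upF M q (jM M)⁻¹ ^ k ∈ FF.ordGe v (-d) := by
    intro v k y d hv hy
    refine FF.ordGe_anti v (le_of_eq ?_) (FF.mul_mem_ordGe v hy
      (FF.pow_mem_ordGe v (FF.mem_ordGe_of_le v (le_refl (v.ord (upF M q (jM M)⁻¹)))) k))
    rw [FF.poles_apply, map_inv₀, v.ord_inv, max_eq_right (by omega)]
    ring
  have hxi : ∀ s, ∃ hm : iota2 M q h.hqM s (a * upF M q (jM M)⁻¹ ^ n) +
        H s * iota2 M q h.hqM s (b * upF M q (jM M)⁻¹ ^ n) ∈ locS A,
      redL A ⟨_, hm⟩ = r s * red2 A (iota2 M q h.hqM) u s ^ n := by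
    intro s
    obtain ⟨h1, h2⟩ := hx s
    have e : iota2 M q h.hqM s (a * upF M q (jM M)⁻¹ ^ n) +
        H s * iota2 M q h.hqM s (b * upF M q (jM M)⁻¹ ^ n) =
        ((⟨_, h1⟩ * ⟨_, (mem_loc2 _).mp u.2 s⟩ ^ n : locS A) : LSer) := by
      rw [map_mul, map_mul, map_pow]
      show _ = (iota2 M q h.hqM s a + H s * iota2 M q h.hqM s b) *
        iota2 M q h.hqM s (upF M q (jM M)⁻¹) ^ n
      ring
    refine ⟨e ▸ SetLike.coe_mem _, ?_⟩
    rw [redL_congr _ (SetLike.coe_mem _) e]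
    change redL A (⟨_, h1⟩ * ⟨_, (mem_loc2 _).mp u.2 s⟩ ^ n) = _
    rw [map_mul, map_pow, h2, red2_apply]
  obtain ⟨Ti, hTi, hTireg⟩ := exists_trace h.hA hq.out (iota2 M q h.hqM)
    (iota2_fracS M q h.hqM) hp hpu (f : FB (q * M)) (T' : FB (q * M))
    (a * upF M q (jM M)⁻¹ ^ n) (b * upF M q (jM M)⁻¹ ^ n) H hH
    (fun s => locS_le_fracS (hHmem s)) (hσ T' hT'red)
    (fun s => r s * red2 A (iota2 M q h.hqM) u s ^ n) hxi
  have hTint : IsIntegral (Algebra.adjoin QBar {upF M q (jM M)⁻¹}) (Ti : FB (q * M)) :=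
    isIntegral_of_regular_infty fun v hv => by
      have ha' : a * upF M q (jM M)⁻¹ ^ n ∈ FF.ordGe v 0 := by
        simpa using hshift v n a 0 hv (by simpa using RedTorsion.mem_polesSpace.mp ha v)
      exact hTireg v (D v) (hord v) ha'
        (hshift v n b (D v) hv ((mem_HD M q).mp hb v))
        (hshift v n₀ _ (D v) hv ((mem_HD M q).mp htmem v))
  -- combine
  have key : ∀ s, r s ∈ HkS A M (sideDeg q s * n) := fun s =>
    mem_HkS_of_regular_infty h Ti hTint hTi s (N' := N') (by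
      obtain ⟨h0, h1⟩ := (mem_Pk A M).mp hP'
      fin_cases s
      · simpa [sideDeg] using h0
      · simpa [sideDeg] using h1)
  exact (mem_Pk A M).mpr ⟨by simpa [sideDeg] using key 0, by simpa [sideDeg] using key 1⟩

/-! ## Principality -/

/-- If `p D = div f` for a prime `p ≠ q`, `f` reduces to nonzero constants (equal when there is a
meeting point) and the gluing of `D` is trivial, then `D` is principal. -/
theorem Setup.principal_of_prime {D : Divisor QBar (FB (q * M))} {p : ℕ} (hp : p.Prime)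
    (hpq : p ≠ q) (f : loc2 A (iota2 M q h.hqM))
    (hord : ∀ v, v.ord (f : FB (q * M)) = (p : ℤ) * D v)
    (a₀ : Fin 2 → Res A) (ha₀ : ∀ s, a₀ s ≠ 0)
    (hred : ∀ s, red2 A (iota2 M q h.hqM) f s = algebraMap (Res A) _ (a₀ s))
    (heq : ∀ _ : Pt h, a₀ 1 = a₀ 0) (hD : IsGlue h D 1) :
    D ∈ Divisor.principal (K := QBar) (F := FB (q * M)) := by
  classical
  by_contra hnp
  have := Arith.residueField_isAlgClosed A
  -- roots of the constants, equal whenever there is a meeting point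
  obtain ⟨ρ, hρ, hρ0, hρeq⟩ := exists_root_family h hp ha₀ heq
  have hpu : (p : QBar) ∉ A.nonunits := fun hpn =>
    hpq ((Nat.prime_dvd_prime_iff_eq hq.out hp).mp
      ((Arith.natCast_mem_nonunits_iff h.hA hq.out p).mp hpn)).symm
  obtain ⟨n₁, hn₁⟩ := hD
  obtain ⟨n₂, hn₂⟩ := h.exists_glued
  -- two sections
  set n₀ := n₁ + n₂
  have hsec := fun k (hk : k ≤ n₀) => exists_section h (hn₁ n₀ (by omega)) hρeq hk
  obtain ⟨sσ, hsmem, hsred'⟩ := hsec 0 (Nat.zero_le _)
  have hsred : ∀ s, red2 A (iota2 M q h.hqM) sσ s = algebraMap (Res A) _ (ρ s)⁻¹ := by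
    intro s; rw [hsred']; fin_cases s <;> simp
  obtain ⟨tσ, htmem, htred⟩ := hsec n₀ le_rfl
  let u := upParam M h.hqM (⟨(jM M)⁻¹, jM_inv_mem M⟩ : loc2 A (iota1 M))
  have hjk0 : jqModC (Res A) ≠ 0 := jqModC_ne_zero_of_nontrivial _
  have hjk1 : qExpand (Res A) q (jqModC (Res A)) ≠ 0 :=
    (_root_.map_ne_zero _).mpr hjk0
  have hured : red2 A (iota2 M q h.hqM) u =
      ![(jqModC (Res A))⁻¹, qExpand (Res A) q (jqModC (Res A))⁻¹] := by
    rw [red2_upF, red1_jM_inv]
  set T' := tσ * u ^ n₀ with hT'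
  have hT'red : ∀ s, red2 A (iota2 M q h.hqM) T' s = algebraMap (Res A) _ (ρ s)⁻¹ := by
    intro s
    rw [hT', map_mul, map_pow, htred, hured, Pi.mul_apply, Pi.pow_apply]
    fin_cases s
    · simp [mul_assoc, mul_inv_cancel₀ (pow_ne_zero n₀ hjk0)]
    · simp [mul_assoc, mul_inv_cancel₀ (pow_ne_zero n₀ hjk1)]
  -- the radical
  set G := T' ^ p * f with hG
  have hGint : IsIntegral (Algebra.adjoin QBar {upF M q (jM M)⁻¹}) (G : FB (q * M)) := by
    have h1 := isIntegral_inv_of_mem_poles (pow_mul_mem_HN htmem hord)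
    have e : ((tσ : FB (q * M)) ^ p * (f : FB (q * M))) * (upF M q (jM M))⁻¹ ^ (p * n₀) =
        (G : FB (q * M)) := by
      show _ = ((tσ : FB (q * M)) * upF M q (jM M)⁻¹ ^ n₀) ^ p * (f : FB (q * M))
      rw [map_inv₀, mul_pow, ← pow_mul, mul_comm n₀ p]
      ring
    rw [e, ← map_inv₀] at h1
    exact h1
  have hGred : red2 A (iota2 M q h.hqM) G = 1 := by
    funext s
    rw [hG, map_mul, map_pow, Pi.mul_apply, Pi.pow_apply, hT'red, hred, ← map_pow, ← map_mul,
      ← hρ s, ← mul_pow, inv_mul_cancel₀ (hρ0 s), one_pow, map_one, Pi.one_apply]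
  have hroot := exists_kummer_root h hp hpu f T' hGint hGred hρ0 hT'red
  choose H hH hHmem hHred using hroot
  -- choose the degree
  obtain ⟨n₃, hn₃⟩ := exists_finrank_HD (M := M) (q := q)
  obtain ⟨n₄, hn₄⟩ := exists_finrank_eq (A := A) M q h.hM
  obtain ⟨n₅, -, hn₅⟩ := h.exists_gap
  set n := n₁ + n₂ + n₃ + n₄ + n₅ + genusFF QBar (FB (q * M)) +
    Module.finrank (Res A) (VZ h) + 1 with hn
  -- the space `L(n ∞) + H L(n ∞ + D)`
  have hinj := injective_pairHMap h hp hnp f hord ha₀ hred hH n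
  have hdeg := degree_eq_zero_of_kummer hp.ne_zero hord
  have hle := redImage_le_Pk h hp hpu f hord hρ0 sσ tσ hsmem htmem hsred hT'red hH hHmem hHred n
  obtain ⟨-, hdim⟩ := finrank_redImage h.hA hq.out (LinearMap.range (pairHMap h H D n)) (by
    rintro _ ⟨w, rfl⟩ s
    exact add_mem (iota2_fracS M q h.hqM s _)
      (mul_mem (locS_le_fracS (hHmem s)) (iota2_fracS M q h.hqM s _)))
  have := finiteDimensional_Pk (A := A) (M := M) (q := q) n
  have e1 := Submodule.finrank_mono hle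
  rw [hdim, LinearMap.finrank_range_of_inj hinj, Module.finrank_prod,
    hn₃ D hdeg n (by omega), finrank_Pk] at e1
  have e2 := (hn₅ n (by omega)).2
  rw [Module.finrank_prod, (finrank_Bn M q h.hqM h.hA n).2] at e2
  obtain ⟨-, e3, -⟩ := hn₄ n (by omega)
  have h4 : (n : ℤ) * 1 ≤ (n : ℤ) * dedekindPsi (q * M) :=
    mul_le_mul_of_nonneg_left (by exact_mod_cast dedekindPsi_pos (q * M)) (by omega)
  omega

/-- Powers of a Kummer class with trivial gluing have trivial gluing. -/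
theorem Setup.isGlue_nsmul {D : Divisor QBar (FB (q * M))} {m : ℕ} (hm : m ≠ 0)
    (f : loc2 A (iota2 M q h.hqM)) (hord : ∀ v, v.ord (f : FB (q * M)) = (m : ℤ) * D v)
    (a : Fin 2 → Res A) (ha : ∀ s, a s ≠ 0)
    (hred : ∀ s, red2 A (iota2 M q h.hqM) f s = algebraMap (Res A) _ (a s))
    (hD : IsGlue h D 1) (k : ℕ) : IsGlue h (k • D) 1 := by
  induction k with
  | zero => rw [zero_smul]; exact h.isGlue_zero
  | succ k ih =>
    obtain ⟨c, hc, -⟩ := h.exists_isGlue (D := (k + 1) • D) hm (f ^ (k + 1)) (fun v => by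
      rw [SubmonoidClass.coe_pow, FF.ord_pow, hord, Finsupp.smul_apply, nsmul_eq_mul]
      ring) (fun s => a s ^ (k + 1)) (fun s => pow_ne_zero _ (ha s)) (fun s => by
      rw [map_pow, Pi.pow_apply, hred, map_pow])
    have e := h.isGlue_eq_mul ih hD (e := c) (by rwa [← succ_nsmul])
    rw [mul_one] at e
    exact e ▸ hc

/-- **A Kummer class with trivial gluing is trivial.** -/
theorem Setup.principal_of_glue_one {D : Divisor QBar (FB (q * M))} {m : ℕ} (hm : m ≠ 0)
    (hmq : ¬ q ∣ m) (f : loc2 A (iota2 M q h.hqM))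
    (hord : ∀ v, v.ord (f : FB (q * M)) = (m : ℤ) * D v)
    (a : Fin 2 → Res A) (ha : ∀ s, a s ≠ 0)
    (hred : ∀ s, red2 A (iota2 M q h.hqM) f s = algebraMap (Res A) _ (a s))
    (hD : IsGlue h D 1) : D ∈ Divisor.principal (K := QBar) (F := FB (q * M)) := by
  induction m using Nat.strong_induction_on generalizing D f a with
  | _ m ih =>
    have := Arith.residueField_isAlgClosed A
    have hf0 : (f : FB (q * M)) ≠ 0 := fun h0 => ha 0 (by
      have h1 := hred 0
      rw [show f = 0 from Subtype.ext h0, map_zero] at h1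
      exact (map_eq_zero_iff _ (algebraMap (Res A) (LaurentSeries (Res A))).injective).mp h1.symm)
    rcases eq_or_ne m 1 with rfl | hm1
    · exact ⟨_, hf0, fun v => by rw [hord v]; simp⟩
    obtain ⟨p, hp, m', rfl⟩ : ∃ p, p.Prime ∧ ∃ m', m = p * m' :=
      ⟨m.minFac, Nat.minFac_prime hm1, m.minFac_dvd⟩
    have hm' : m' ≠ 0 := fun h0 => hm (by rw [h0, mul_zero])
    have hpq : p ≠ q := fun e => hmq (e ▸ dvd_mul_right p m')
    have hD1 := h.isGlue_nsmul hm f hord a ha hred hD m'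
    have hord1 : ∀ v, v.ord (f : FB (q * M)) = (p : ℤ) * (m' • D) v := fun v => by
      rw [hord, Finsupp.smul_apply, nsmul_eq_mul]; push_cast; ring
    -- both constants agree
    obtain ⟨c, hc, hca⟩ := h.exists_isGlue hp.ne_zero f hord1 a ha hred
    obtain rfl := h.isGlue_unique hc hD1
    have hprin := h.principal_of_prime hp hpq f hord1 a ha hred
      (fun χ => by simpa using hca χ) hc
    obtain ⟨g, hg0, hg⟩ := hprin
    -- normalise `g` and recurse
    obtain ⟨γ, hγ, hγmem, hγred⟩ := exists_scale h.hA hq.out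
      (iota2_fracS (A := A) M q h.hqM 0 g) ((_root_.map_ne_zero _).mpr hg0)
    set g' : FB (q * M) := algebraMap QBar _ γ * g with hg'
    have hg'0 : g' ≠ 0 := mul_ne_zero ((_root_.map_ne_zero _).mpr hγ) hg0
    have hg'ord : ∀ v, v.ord g' = (m' : ℤ) * D v := fun v => by
      rw [hg', v.ord_mul ((_root_.map_ne_zero _).mpr hγ) hg0, FF.ord_algebraMap, zero_add, ← hg v,
        Finsupp.smul_apply, nsmul_eq_mul]
    obtain ⟨μ, hμ⟩ : ∃ μ : QBar, g' ^ p / (f : FB (q * M)) = algebraMap QBar _ μ := by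
      refine FF.eq_algebraMap_of_ord_nonneg fun v => ?_
      rw [FF.ord_div v (pow_ne_zero _ hg'0) hf0, FF.ord_pow, hg'ord, hord]
      push_cast
      linarith
    have hgp : g' ^ p = algebraMap QBar _ μ * (f : FB (q * M)) := by
      rw [← hμ, div_mul_cancel₀ _ hf0]
    have hfs : ∀ s, iota2 M q h.hqM s (f : FB (q * M)) ≠ 0 := fun s =>
      (_root_.map_ne_zero _).mpr hf0
    have hs0 : iota2 M q h.hqM 0 g' ∈ locS A ∧ ∀ hm, redL A ⟨iota2 M q h.hqM 0 g', hm⟩ ≠ 0 := by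
      have e : iota2 M q h.hqM 0 g' =
          algebraMap QBar LSer γ * iota2 M q h.hqM 0 g := by
        rw [hg', map_mul, AlgHom.commutes]
      exact ⟨e ▸ hγmem, fun hm => by rw [redL_congr _ hγmem e]; exact hγred⟩
    have hfinv : ∀ s, ∃ hi : (iota2 M q h.hqM s (f : FB (q * M)))⁻¹ ∈ locS A,
        redL A ⟨_, hi⟩ = algebraMap (Res A) _ (a s)⁻¹ := by
      intro s
      have hr : redL A ⟨_, (mem_loc2 _).mp f.2 s⟩ = algebraMap (Res A) _ (a s) := hred s
      obtain ⟨hi, hi'⟩ := inv_mem_locS ((mem_loc2 _).mp f.2 s) (by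
        rw [hr]; exact (_root_.map_ne_zero _).mpr (ha s))
      exact ⟨hi, by rw [hi', hr, map_inv₀]⟩
    obtain ⟨hi, hi'⟩ := hfinv 0
    have hμs : ∀ s, algebraMap QBar LSer μ =
        iota2 M q h.hqM s g' ^ p * (iota2 M q h.hqM s (f : FB (q * M)))⁻¹ := fun s => by
      rw [← map_pow, hgp, map_mul, AlgHom.commutes, mul_assoc, mul_inv_cancel₀ (hfs s), mul_one]
    have hμloc : algebraMap QBar LSer μ ∈ locS A := by
      rw [hμs 0]; exact mul_mem (pow_mem hs0.1 p) hi
    obtain ⟨hμA, hμu⟩ := mem_of_algebraMap_mem_locS hμloc (by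
      rw [redL_congr _ (mul_mem (pow_mem hs0.1 p) hi) (hμs 0),
        show (⟨_, mul_mem (pow_mem hs0.1 p) hi⟩ : locS A) = ⟨_, hs0.1⟩ ^ p * ⟨_, hi⟩ from rfl,
        map_mul, map_pow, hi']
      exact mul_ne_zero (pow_ne_zero _ (hs0.2 _))
        ((_root_.map_ne_zero _).mpr (inv_ne_zero (ha 0))))
    have hμr : IsLocalRing.residue A ⟨μ, hμA⟩ ≠ 0 := fun h0 =>
      hμu ((residue_eq_zero_iff hμA).mp h0)
    have hpow : ∀ s, ∃ hm : iota2 M q h.hqM s g' ^ p ∈ locS A,
        redL A ⟨_, hm⟩ = algebraMap (Res A) _ (IsLocalRing.residue A ⟨μ, hμA⟩ * a s) := by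
      intro s
      have e : iota2 M q h.hqM s g' ^ p = ((⟨_, algebraMap_mem_locS hμA⟩ *
          ⟨_, (mem_loc2 _).mp f.2 s⟩ : locS A) : LSer) := by
        rw [← map_pow, hgp, map_mul, AlgHom.commutes]
        rfl
      refine ⟨e ▸ SetLike.coe_mem _, ?_⟩
      rw [redL_congr _ (SetLike.coe_mem _) e]
      change redL A (_ * _) = _
      rw [map_mul, redL_algebraMap hμA, map_mul (algebraMap (Res A) _)]
      exact congrArg _ (hred s)
    have hmem : g' ∈ loc2 A (iota2 M q h.hqM) := (mem_loc2 _).mpr fun s => by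
      obtain ⟨hm, hr⟩ := hpow s
      exact mem_locS_of_pow h.hA hq.out (iota2_fracS M q h.hqM s g') hp.ne_zero hm (by
        rw [hr]; exact (_root_.map_ne_zero _).mpr (mul_ne_zero hμr (ha s)))
    have hconst : ∀ s, ∃ b : Res A, red2 A (iota2 M q h.hqM) ⟨g', hmem⟩ s =
        algebraMap (Res A) _ b ∧ b ≠ 0 := by
      intro s
      obtain ⟨hm, hr⟩ := hpow s
      have e : red2 A (iota2 M q h.hqM) ⟨g', hmem⟩ s ^ p =
          algebraMap (Res A) _ (IsLocalRing.residue A ⟨μ, hμA⟩ * a s) := by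
        rw [← hr, red2_apply, ← map_pow]
        exact congrArg _ (Subtype.ext rfl)
      obtain ⟨b, hb⟩ := exists_eq_const_of_pow hp.ne_zero e
      refine ⟨b, hb, fun hb0 => ?_⟩
      rw [hb, hb0, map_zero, zero_pow hp.ne_zero] at e
      exact mul_ne_zero hμr (ha s) ((_root_.map_eq_zero _).mp e.symm)
    choose b hb hb0 using hconst
    exact ih m' ((lt_mul_iff_one_lt_left (Nat.pos_of_ne_zero hm')).mpr hp.one_lt) hm'
      (fun hd => hmq (hd.mul_left p)) ⟨g', hmem⟩ hg'ord b hb0 hb hD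

end Fermat.Agent.Semistable

end
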